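import Mathlib
import Fermat.Prelude.Def_CuspForm_HeckeAlgebra

set_option autoImplicit false

namespace Fermat.Agent.S22

open Polynomial UpperHalfPlane Filter Topology
open scoped MatrixGroups ModularForm Manifold

/-- Homogeneous substitution of degree `m` by the matrix `[[a, b], [c, d]]`:
`P ↦ (c X + d)^m P((a X + b) / (c X + d))` for `P` of degree `≤ m`. -/
noncomputable def polyAct {R : Type*} [CommRing R] (m : ℕ) (a b c d : R) (P : R[X]) : R[X] :=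
  ∑ j ∈ Finset.range (m + 1), C (P.coeff j) * (C a * X + C b) ^ j * (C c * X + C d) ^ (m - j)

/-- `polyAct` by an element of `GL₂(ℝ)` on complex polynomials. -/
noncomputable def polyActGL (m : ℕ) (α : GL (Fin 2) ℝ) (P : ℂ[X]) : ℂ[X] :=
  polyAct m ((α 0 0 : ℝ) : ℂ) ((α 0 1 : ℝ) : ℂ) ((α 1 0 : ℝ) : ℂ) ((α 1 1 : ℝ) : ℂ) P

/-- `Ψ` is a polynomial-valued primitive of `z ↦ f z * (X - z)^m` (coefficientwise). -/
structure IsEichlerPrim (m : ℕ) (f : ℍ → ℂ) (Ψ : ℍ → ℂ[X]) : Prop where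
  natDegree_le : ∀ z, (Ψ z).natDegree ≤ m
  hasDerivAt_coeff : ∀ (j : ℕ) (z : ℍ),
    HasDerivAt (fun w : ℂ => (Ψ (ofComplex w)).coeff j)
      ((C (f z) * (X - C (z : ℂ)) ^ m).coeff j) (z : ℂ)

/-- Normalisation at `i∞`: every coefficient tends to `0` up every vertical line. -/
def VanishesAtTop (Ψ : ℍ → ℂ[X]) : Prop :=
  ∀ (j : ℕ) (z : ℍ),
    Tendsto (fun t : ℝ => (Ψ (ofComplex ((z : ℂ) + (t : ℂ) * Complex.I))).coeff j) atTop (𝓝 0)

/-- Transport of a polynomial-valued function by `α`: `z ↦ (Ψ (α z)) | α`. -/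
noncomputable def transform (m : ℕ) (α : GL (Fin 2) ℝ) (Ψ : ℍ → ℂ[X]) : ℍ → ℂ[X] :=
  fun z => polyActGL m α (Ψ (α • z))

/-- Holomorphic, `h`-periodic, zero at `i∞`. -/
structure IsPerDecay (h : ℝ) (φ : ℍ → ℂ) : Prop where
  mdiff : MDiff φ
  periodic : ∀ z : ℍ, φ (h +ᵥ z) = φ z
  zero_at : IsZeroAtImInfty φ

end Fermat.Agent.S22
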