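import Mathlib
import Fermat.Agent.S22.Defs

/-!
Task F of team S22 (owner: helper25): cusp forms on `Γ₀(N)` and their `SL(2, ℤ)`-translates are
holomorphic, periodic and zero at `i∞` (`IsPerDecay`).
-/

set_option autoImplicit false

namespace Fermat.Agent.S22.H25

open UpperHalfPlane CongruenceSubgroup Matrix.SpecialLinearGroup
open scoped MatrixGroups ModularForm Manifold

/-- `T ^ N` lies in `Γ(N)`. -/
theorem T_pow_mem_Gamma (N : ℕ) : ModularGroup.T ^ (N : ℤ) ∈ Gamma N := by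
  rw [Gamma_mem]
  have h := ModularGroup.coe_T_zpow (N : ℤ)
  have h00 : (ModularGroup.T ^ (N : ℤ) : SL(2, ℤ)) 0 0 = 1 := by
    show (ModularGroup.T ^ (N : ℤ)).1 0 0 = 1
    rw [h]; rfl
  have h01 : (ModularGroup.T ^ (N : ℤ) : SL(2, ℤ)) 0 1 = N := by
    show (ModularGroup.T ^ (N : ℤ)).1 0 1 = N
    rw [h]; rfl
  have h10 : (ModularGroup.T ^ (N : ℤ) : SL(2, ℤ)) 1 0 = 0 := by
    show (ModularGroup.T ^ (N : ℤ)).1 1 0 = 0
    rw [h]; rfl
  have h11 : (ModularGroup.T ^ (N : ℤ) : SL(2, ℤ)) 1 1 = 1 := by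
    show (ModularGroup.T ^ (N : ℤ)).1 1 1 = 1
    rw [h]; rfl
  rw [h00, h01, h10, h11]
  simp

theorem Gamma_le_Gamma0' (N : ℕ) : Gamma N ≤ Gamma0 N := by
  intro γ hγ
  rw [Gamma_mem] at hγ
  rw [Gamma0_mem]
  exact hγ.2.2.1

/-- For `σ : SL(2, ℤ)` the conjugate `σ * T ^ N * σ⁻¹` lies in `Γ₀(N)`. -/
theorem conj_T_pow_mem_Gamma0 (N : ℕ) (σ : SL(2, ℤ)) :
    σ * ModularGroup.T ^ (N : ℤ) * σ⁻¹ ∈ Gamma0 N :=
  Gamma_le_Gamma0' N ((Gamma_normal N).conj_mem _ (T_pow_mem_Gamma N) σ)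

/-- Slashing by `T ^ n` is translation by `n`. -/
theorem slash_T_zpow_apply (k : ℤ) (φ : ℍ → ℂ) (n : ℤ) (z : ℍ) :
    (φ ∣[k] (ModularGroup.T ^ n : SL(2, ℤ))) z = φ ((n : ℝ) +ᵥ z) := by
  rw [ModularForm.SL_slash_apply, modular_T_zpow_smul]
  have h := ModularGroup.coe_T_zpow n
  have h10 : (ModularGroup.T ^ n : SL(2, ℤ)) 1 0 = 0 := by
    show (ModularGroup.T ^ n).1 1 0 = 0
    rw [h]; rfl
  have h11 : (ModularGroup.T ^ n : SL(2, ℤ)) 1 1 = 1 := by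
    show (ModularGroup.T ^ n).1 1 1 = 1
    rw [h]; rfl
  have hd : denom (ModularGroup.T ^ n : SL(2, ℤ)) z = 1 := by
    rw [ModularGroup.denom_apply, h10, h11]
    simp
  rw [hd, one_zpow, mul_one]

/-- A function which is weight-`k` invariant under `Γ₀(N)`, slashed by `σ : SL(2, ℤ)`, is
`N`-periodic. -/
theorem slash_periodic_of_invariant (N : ℕ) (k : ℤ) (φ : ℍ → ℂ)
    (hφ : ∀ γ : SL(2, ℤ), γ ∈ Gamma0 N → φ ∣[k] γ = φ) (σ : SL(2, ℤ)) (z : ℍ) :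
    (φ ∣[k] σ) ((N : ℝ) +ᵥ z) = (φ ∣[k] σ) z := by
  have h1 : (φ ∣[k] σ) ∣[k] (ModularGroup.T ^ (N : ℤ) : SL(2, ℤ)) = φ ∣[k] σ := by
    rw [← SlashAction.slash_mul]
    have h2 : σ * ModularGroup.T ^ (N : ℤ) = (σ * ModularGroup.T ^ (N : ℤ) * σ⁻¹) * σ := by
      group
    rw [h2, SlashAction.slash_mul, hφ _ (conj_T_pow_mem_Gamma0 N σ)]
  have h3 := congrFun h1 z
  rw [slash_T_zpow_apply] at h3
  simpa using h3

theorem cuspForm_slash_SL_eq (N : ℕ) (k : ℤ) (f : CuspForm (Gamma0 N) k) (γ : SL(2, ℤ))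
    (hγ : γ ∈ Gamma0 N) : (f : ℍ → ℂ) ∣[k] γ = f := by
  rw [ModularForm.SL_slash]
  exact SlashInvariantFormClass.slash_action_eq f _ (Subgroup.mem_map_of_mem _ hγ)

/-- Task F, second statement: `f ∣[k] σ` is `IsPerDecay` with period `N`. -/
theorem cuspForm_slash_isPerDecay (N : ℕ) [NeZero N] (k : ℤ) (f : CuspForm (Gamma0 N) k)
    (σ : SL(2, ℤ)) : IsPerDecay N ((f : ℍ → ℂ) ∣[k] (σ : GL (Fin 2) ℝ)) where
  mdiff := (CuspFormClass.holo f).slash k _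
  periodic z := slash_periodic_of_invariant N k f (cuspForm_slash_SL_eq N k f) σ z
  zero_at := CuspFormClass.zero_at_infty_slash f σ

/-- Task F, first statement: a cusp form on `Γ₀(N)` is `IsPerDecay` with period `1`. -/
theorem cuspForm_isPerDecay (N : ℕ) [NeZero N] (k : ℤ) (f : CuspForm (Gamma0 N) k) :
    IsPerDecay 1 f where
  mdiff := CuspFormClass.holo f
  periodic z := by
    have hT : (ModularGroup.T ^ (1 : ℤ) : SL(2, ℤ)) ∈ Gamma0 N := by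
      rw [Gamma0_mem]
      have h10 : (ModularGroup.T ^ (1 : ℤ) : SL(2, ℤ)) 1 0 = 0 := by
        show (ModularGroup.T ^ (1 : ℤ)).1 1 0 = 0
        rw [ModularGroup.coe_T_zpow]; rfl
      rw [h10]; simp
    have h1 := congrFun (cuspForm_slash_SL_eq N k f _ hT) z
    rw [slash_T_zpow_apply] at h1
    simpa using h1
  zero_at := CuspFormClass.zero_at_infty f

end Fermat.Agent.S22.H25
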