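import Mathlib
import Fermat.Agent.S22.Defs

/-!
Task C of team S22 (owner: helper26): existence and uniqueness of the normalised Eichler
primitive, via nested periodic primitives in the `q`-disc.
-/

set_option autoImplicit false

open UpperHalfPlane Function Complex Filter Topology

namespace Fermat.Agent.S22.H26

variable {h : ℝ} {φ : ℍ → ℂ}

theorem diffOn (hφ : IsPerDecay h φ) :
    DifferentiableOn ℂ (φ ∘ ofComplex) {z : ℂ | 0 < z.im} :=
  UpperHalfPlane.mdifferentiable_iff.mp hφ.mdiff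

theorem isPerDecay_of_diffOn (hd : DifferentiableOn ℂ (φ ∘ ofComplex) {z : ℂ | 0 < z.im})
    (hper : ∀ z : ℍ, φ (h +ᵥ z) = φ z) (hz : IsZeroAtImInfty φ) : IsPerDecay h φ :=
  ⟨UpperHalfPlane.mdifferentiable_iff.mpr hd, hper, hz⟩

theorem periodic_comp (hφ : IsPerDecay h φ) :
    Periodic (φ ∘ ofComplex) (h : ℂ) := by
  intro w
  by_cases hw : 0 < w.im
  · have hw' : 0 < (w + (h : ℂ)).im := by simpa using hw
    simp only [comp_apply, ofComplex_apply_of_im_pos hw, ofComplex_apply_of_im_pos hw']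
    rw [← hφ.periodic ⟨w, hw⟩]
    congr 1
    apply UpperHalfPlane.ext
    simp [add_comm]
  · have hw0 : w.im ≤ 0 := not_lt.mp hw
    have hw' : (w + (h : ℂ)).im ≤ 0 := by simpa using hw0
    simp only [comp_apply, ofComplex_apply_of_im_nonpos hw0, ofComplex_apply_of_im_nonpos hw']

theorem differentiableAt_comp (hφ : IsPerDecay h φ) {w : ℂ} (hw : 0 < w.im) :
    DifferentiableAt ℂ (φ ∘ ofComplex) w :=
  (diffOn hφ w hw).differentiableAt (isOpen_upperHalfPlaneSet.mem_nhds hw)

theorem zeroAtFilter_comp (hφ : IsPerDecay h φ) :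
    ZeroAtFilter (comap Complex.im atTop) (φ ∘ ofComplex) :=
  Tendsto.comp hφ.zero_at tendsto_comap_im_ofComplex

theorem eventually_differentiableAt_comp (hφ : IsPerDecay h φ) :
    ∀ᶠ z in comap Complex.im atTop, DifferentiableAt ℂ (φ ∘ ofComplex) z := by
  rw [eventually_comap]
  filter_upwards [eventually_gt_atTop (0 : ℝ)] with y hy z hz
  exact differentiableAt_comp hφ (hz ▸ hy)

theorem differentiableOn_cuspFunction (hh : 0 < h) (hφ : IsPerDecay h φ) :
    DifferentiableOn ℂ (Periodic.cuspFunction h (φ ∘ ofComplex)) (Metric.ball 0 1) := by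
  intro q hq
  apply DifferentiableAt.differentiableWithinAt
  rcases eq_or_ne q 0 with rfl | hq0
  · exact Periodic.differentiableAt_cuspFunction_zero hh (periodic_comp hφ)
      (eventually_differentiableAt_comp hφ) (zeroAtFilter_comp hφ).boundedAtFilter
  · rw [← Periodic.qParam_right_inv hh.ne' hq0]
    apply Periodic.differentiableAt_cuspFunction hh.ne' (periodic_comp hφ)
    apply differentiableAt_comp hφ
    rw [Periodic.im_invQParam]
    have hq1 : ‖q‖ < 1 := by simpa using hq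
    have hlog : Real.log ‖q‖ < 0 := Real.log_neg (norm_pos_iff.mpr hq0) hq1
    have : -h / (2 * Real.pi) < 0 := div_neg_of_neg_of_pos (by linarith) (by positivity)
    exact mul_pos_of_neg_of_neg this hlog

theorem cuspFunction_zero (hh : 0 < h) (hφ : IsPerDecay h φ) :
    Periodic.cuspFunction h (φ ∘ ofComplex) 0 = 0 :=
  Periodic.cuspFunction_zero_of_zero_at_inf hh (zeroAtFilter_comp hφ)

theorem hasDerivAt_qParam (h : ℝ) (z : ℂ) :
    HasDerivAt (Periodic.qParam h) (Periodic.qParam h z * (2 * Real.pi * Complex.I / h)) z := by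
  have h1 := (((hasDerivAt_id z).const_mul (2 * Real.pi * Complex.I)).div_const (h : ℂ)).cexp
  simp only [id_eq, mul_one] at h1
  exact h1

theorem qParam_add_period (hh : h ≠ 0) (z : ℂ) :
    Periodic.qParam h ((h : ℂ) + z) = Periodic.qParam h z := by
  have hh' : (h : ℂ) ≠ 0 := by exact_mod_cast hh
  unfold Periodic.qParam
  rw [show 2 * (Real.pi : ℂ) * Complex.I * ((h : ℂ) + z) / h
      = 2 * Real.pi * Complex.I * z / h + 2 * Real.pi * Complex.I by field_simp; ring]
  exact Complex.exp_periodic _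

/-- **Periodic primitive.** A holomorphic `h`-periodic function on `ℍ` vanishing at `i∞`
has a primitive with the same three properties. -/
theorem exists_primitive (hh : 0 < h) (hφ : IsPerDecay h φ) :
    ∃ Φ : ℍ → ℂ, IsPerDecay h Φ ∧ ∀ z : ℍ, HasDerivAt (Φ ∘ ofComplex) (φ z) z := by
  set F := Periodic.cuspFunction h (φ ∘ ofComplex) with hF
  have hFd : DifferentiableOn ℂ F (Metric.ball 0 1) := differentiableOn_cuspFunction hh hφ
  have hF0 : F 0 = 0 := cuspFunction_zero hh hφ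
  have hball : Metric.ball (0 : ℂ) 1 ∈ 𝓝 (0 : ℂ) := Metric.ball_mem_nhds 0 one_pos
  have hψd : DifferentiableOn ℂ (dslope F 0) (Metric.ball 0 1) :=
    (differentiableOn_dslope hball).mpr hFd
  have hcd : DifferentiableOn ℂ (fun q => ((h : ℂ) / (2 * Real.pi * Complex.I)) * dslope F 0 q)
      (Metric.ball 0 1) := hψd.const_mul _
  obtain ⟨G, hG0, hG⟩ := (hcd.isExactOn_ball).with_val_at 0 0
  have hq_mem : ∀ z : ℂ, 0 < z.im → Periodic.qParam h z ∈ Metric.ball (0 : ℂ) 1 := by
    intro z hz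
    simpa using Periodic.norm_qParam_lt_one hh hz
  have hpi : (2 * Real.pi * Complex.I : ℂ) ≠ 0 := Complex.two_pi_I_ne_zero
  have hh' : (h : ℂ) ≠ 0 := by exact_mod_cast hh.ne'
  -- derivative of `G ∘ qParam`
  have key : ∀ z : ℂ, 0 < z.im →
      HasDerivAt (fun w => G (Periodic.qParam h w)) ((φ ∘ ofComplex) z) z := by
    intro z hz
    have h1 := (hG _ (hq_mem z hz)).comp z (hasDerivAt_qParam h z)
    have hqne : Periodic.qParam h z ≠ 0 := Periodic.qParam_ne_zero z
    have h2 : (h : ℂ) / (2 * Real.pi * Complex.I) * dslope F 0 (Periodic.qParam h z) *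
        (Periodic.qParam h z * (2 * Real.pi * Complex.I / h)) = (φ ∘ ofComplex) z := by
      rw [dslope_of_ne _ hqne, slope_def_field, hF0, sub_zero, sub_zero, hF,
        Periodic.eq_cuspFunction hh.ne' (periodic_comp hφ)]
      field_simp
    rw [h2] at h1
    exact h1
  refine ⟨fun z => G (Periodic.qParam h z), isPerDecay_of_diffOn ?_ ?_ ?_, ?_⟩
  · intro w hw
    have hev : (fun z : ℂ => G (Periodic.qParam h (ofComplex z : ℂ))) =ᶠ[𝓝 w]
        fun z => G (Periodic.qParam h z) := by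
      filter_upwards [isOpen_upperHalfPlaneSet.mem_nhds hw] with z hz
      rw [ofComplex_apply_of_im_pos hz]
    exact ((key w hw).differentiableAt.congr_of_eventuallyEq hev).differentiableWithinAt
  · intro z
    show G (Periodic.qParam h ((h +ᵥ z : ℍ) : ℂ)) = G (Periodic.qParam h z)
    rw [coe_vadd, qParam_add_period hh.ne']
  · have h1 : Tendsto (fun τ : ℍ => Periodic.qParam h τ) atImInfty (𝓝 0) :=
      qParam_tendsto_atImInfty hh
    have h2 : ContinuousAt G 0 := (hG 0 (Metric.mem_ball_self one_pos)).continuousAt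
    have h3 := h2.tendsto.comp h1
    rw [hG0] at h3
    exact h3
  · intro z
    have hev : ((fun z : ℍ => G (Periodic.qParam h z)) ∘ ofComplex) =ᶠ[𝓝 (z : ℂ)]
        fun w => G (Periodic.qParam h w) := by
      filter_upwards [isOpen_upperHalfPlaneSet.mem_nhds z.im_pos] with w hw
      simp only [comp_apply]
      rw [ofComplex_apply_of_im_pos hw]
    have h1 := (key z z.im_pos).congr_of_eventuallyEq hev
    simpa [ofComplex_apply] using h1

/-- Explicit exponential decay of a holomorphic periodic function vanishing at `i∞`. -/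
theorem exp_decay (hh : 0 < h) (hφ : IsPerDecay h φ) :
    ∃ C A : ℝ, ∀ z : ℍ, A ≤ z.im → ‖φ z‖ ≤ C * Real.exp (-2 * Real.pi * z.im / h) := by
  have h1 := Periodic.exp_decay_of_zero_at_inf hh (periodic_comp hφ)
    (eventually_differentiableAt_comp hφ) (zeroAtFilter_comp hφ)
  obtain ⟨C, hC⟩ := h1.bound
  rw [eventually_comap] at hC
  obtain ⟨A, hA⟩ := eventually_atTop.mp hC
  refine ⟨C, A, fun z hz => ?_⟩
  have h2 := hA z.im hz (z : ℂ) rfl
  simpa [Real.norm_eq_abs, abs_of_pos (Real.exp_pos _)] using h2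

/-- Iterated periodic primitives. -/
theorem exists_iter (hh : 0 < h) (hφ : IsPerDecay h φ) :
    ∃ J : ℕ → ℍ → ℂ, J 0 = φ ∧ ∀ n, IsPerDecay h (J n) ∧
      ∀ z : ℍ, HasDerivAt (J (n + 1) ∘ ofComplex) (J n z) z := by
  choose! prim hprim1 hprim2 using
    fun (ψ : ℍ → ℂ) (hψ : IsPerDecay h ψ) => exists_primitive hh hψ
  have hall : ∀ n, IsPerDecay h (prim^[n] φ) := by
    intro n
    induction n with
    | zero => exact hφ
    | succ n ih => rw [Function.iterate_succ_apply']; exact hprim1 _ ih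
  refine ⟨fun n => prim^[n] φ, rfl, fun n => ⟨hall n, fun z => ?_⟩⟩
  show HasDerivAt ((prim^[n + 1] φ) ∘ ofComplex) (prim^[n] φ z) z
  rw [Function.iterate_succ_apply']
  exact hprim2 _ (hall n) z

/-- A function on `ℍ` with vanishing derivative is constant. -/
theorem eq_of_hasDerivAt_zero {D : ℍ → ℂ}
    (hD : ∀ z : ℍ, HasDerivAt (D ∘ ofComplex) 0 z) (z w : ℍ) : D z = D w := by
  have hconv : Convex ℝ {z : ℂ | 0 < z.im} := by
    have : {z : ℂ | 0 < z.im} = Complex.imCLM ⁻¹' (Set.Ioi 0) := rfl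
    rw [this]
    exact (convex_Ioi 0).is_linear_preimage Complex.imCLM.isLinear
  have hdiff : DifferentiableOn ℂ (D ∘ ofComplex) {z : ℂ | 0 < z.im} := fun u hu =>
    (hD ⟨u, hu⟩).differentiableAt.differentiableWithinAt
  have hder : Set.EqOn (deriv (D ∘ ofComplex)) 0 {z : ℂ | 0 < z.im} := fun u hu =>
    (hD ⟨u, hu⟩).deriv
  have := isOpen_upperHalfPlaneSet.is_const_of_deriv_eq_zero hconv.isPreconnected hdiff hder
    z.im_pos w.im_pos
  simpa using this

/-- A function on `ℍ` with vanishing derivative which tends to `0` up the vertical line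
through some point of `ℍ` is identically zero. -/
theorem eq_zero_of_hasDerivAt_zero_of_tendsto {D : ℍ → ℂ}
    (hD : ∀ z : ℍ, HasDerivAt (D ∘ ofComplex) 0 z) (z₀ : ℍ)
    (hlim : Tendsto (fun y : ℝ => D (ofComplex ((z₀ : ℂ) + y * Complex.I))) atTop (𝓝 0))
    (z : ℍ) : D z = 0 := by
  have hconst : (fun y : ℝ => D (ofComplex ((z₀ : ℂ) + y * Complex.I))) =ᶠ[atTop]
      fun _ => D z := by
    filter_upwards [eventually_gt_atTop (0 : ℝ)] with y hy
    exact eq_of_hasDerivAt_zero hD _ _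
  exact tendsto_nhds_unique (tendsto_const_nhds.congr' hconst.symm) hlim

/-! ### Lagrange bridge: coefficients from values -/

/-- The coefficients of a polynomial of degree `≤ m` are fixed linear combinations of its values
at the nodes `0, 1, …, m`. -/
theorem coeff_eq_sum_eval (m : ℕ) :
    ∃ lam : ℕ → ℕ → ℂ, ∀ P : Polynomial ℂ, P.natDegree ≤ m → ∀ j : ℕ,
      P.coeff j = ∑ i ∈ Finset.range (m + 1), lam j i * P.eval (i : ℂ) := by
  classical
  refine ⟨fun j i => (Lagrange.basis (Finset.range (m + 1)) (fun i : ℕ => (i : ℂ)) i).coeff j,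
    fun P hP j => ?_⟩
  have hinj : Set.InjOn (fun i : ℕ => (i : ℂ)) (Finset.range (m + 1) : Set ℕ) :=
    fun a _ b _ hab => Nat.cast_injective hab
  have hdeg : P.degree < (Finset.range (m + 1)).card := by
    rw [Finset.card_range]
    exact lt_of_le_of_lt Polynomial.degree_le_natDegree (by exact_mod_cast Nat.lt_succ_of_le hP)
  have h1 := Lagrange.eq_interpolate hinj hdeg
  conv_lhs => rw [h1]
  rw [Lagrange.interpolate_apply, Polynomial.finsetSum_coeff]
  refine Finset.sum_congr rfl fun i _ => ?_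
  rw [Polynomial.coeff_C_mul]
  ring

/-- From the evaluation form of the derivative condition to the coefficientwise one. -/
theorem isEichlerPrim_of_eval {m : ℕ} {f : ℍ → ℂ} {Ψ : ℍ → Polynomial ℂ}
    (hdeg : ∀ z, (Ψ z).natDegree ≤ m)
    (hder : ∀ (x : ℂ) (z : ℍ),
      HasDerivAt (fun w : ℂ => (Ψ (ofComplex w)).eval x) (f z * (x - (z : ℂ)) ^ m) z) :
    IsEichlerPrim m f Ψ := by
  refine ⟨hdeg, fun j z => ?_⟩
  obtain ⟨lam, hlam⟩ := coeff_eq_sum_eval m
  have hfun : (fun w : ℂ => (Ψ (ofComplex w)).coeff j) =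
      fun w => ∑ i ∈ Finset.range (m + 1), lam j i * (Ψ (ofComplex w)).eval (i : ℂ) :=
    funext fun w => hlam _ (hdeg _) j
  have hQ : (Polynomial.C (f z) * (Polynomial.X - Polynomial.C (z : ℂ)) ^ m).natDegree ≤ m := by
    refine (Polynomial.natDegree_C_mul_le _ _).trans ?_
    refine (Polynomial.natDegree_pow_le).trans ?_
    calc m * (Polynomial.X - Polynomial.C (z : ℂ)).natDegree ≤ m * 1 :=
          Nat.mul_le_mul_left _ (Polynomial.natDegree_X_sub_C_le _)
      _ = m := mul_one m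
  rw [hfun, hlam _ hQ j]
  have hs : ∀ i ∈ Finset.range (m + 1), HasDerivAt
      (fun w : ℂ => lam j i * (Ψ (ofComplex w)).eval (i : ℂ))
      (lam j i * (f z * ((i : ℂ) - (z : ℂ)) ^ m)) z :=
    fun i _ => (hder (i : ℂ) z).const_mul (lam j i)
  have hsum := HasDerivAt.fun_sum
    (A := fun (i : ℕ) (w : ℂ) => lam j i * (Ψ (ofComplex w)).eval (i : ℂ))
    (A' := fun i : ℕ => lam j i * (f z * ((i : ℂ) - (z : ℂ)) ^ m)) hs
  refine hsum.congr_deriv (Finset.sum_congr rfl fun i _ => ?_)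
  simp

/-- From the evaluation form of the normalisation to the coefficientwise one. -/
theorem vanishesAtTop_of_eval {m : ℕ} {Ψ : ℍ → Polynomial ℂ}
    (hdeg : ∀ z, (Ψ z).natDegree ≤ m)
    (hlim : ∀ (x : ℂ) (z : ℍ), Tendsto
      (fun t : ℝ => (Ψ (ofComplex ((z : ℂ) + (t : ℂ) * Complex.I))).eval x) atTop (𝓝 0)) :
    VanishesAtTop Ψ := by
  intro j z
  obtain ⟨lam, hlam⟩ := coeff_eq_sum_eval m
  have hfun : (fun t : ℝ => (Ψ (ofComplex ((z : ℂ) + (t : ℂ) * Complex.I))).coeff j) =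
      fun t : ℝ => ∑ i ∈ Finset.range (m + 1),
        lam j i * (Ψ (ofComplex ((z : ℂ) + (t : ℂ) * Complex.I))).eval (i : ℂ) :=
    funext fun t => hlam _ (hdeg _) j
  rw [hfun]
  have := tendsto_finsetSum (Finset.range (m + 1))
    (fun i _ => (hlim (i : ℂ) z).const_mul (lam j i))
  simpa using this

/-- Exponential decay beats polynomial growth (auxiliary real-variable lemma). -/
theorem tendsto_mul_pow_of_exp_decay {g u : ℝ → ℂ} {C c B : ℝ} (hc : 0 < c) (n : ℕ)
    (hg : ∀ᶠ y in atTop, ‖g y‖ ≤ C * Real.exp (-c * y))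
    (hu : ∀ᶠ y in atTop, ‖u y‖ ≤ B + y) :
    Tendsto (fun y : ℝ => g y * u y ^ n) atTop (𝓝 0) := by
  have h0 : Tendsto (fun y : ℝ => y ^ n / Real.exp (c * y)) atTop (𝓝 0) :=
    (isLittleO_pow_exp_pos_mul_atTop n hc).tendsto_div_nhds_zero
  have h1 : Tendsto (fun y : ℝ => |C| * 2 ^ n * (y ^ n / Real.exp (c * y))) atTop (𝓝 0) := by
    simpa using h0.const_mul (|C| * 2 ^ n)
  rw [tendsto_zero_iff_norm_tendsto_zero]
  refine squeeze_zero' (Eventually.of_forall fun y => norm_nonneg _) ?_ h1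
  filter_upwards [hg, hu, eventually_ge_atTop (|B|), eventually_ge_atTop (0 : ℝ)]
    with y hgy huy hyB hy0
  have hB : B + y ≤ 2 * y := by have := le_abs_self B; linarith
  have hu0 : ‖u y‖ ≤ 2 * y := huy.trans hB
  have hpow : ‖u y‖ ^ n ≤ (2 * y) ^ n := pow_le_pow_left₀ (norm_nonneg _) hu0 n
  have hexp : Real.exp (-c * y) = (Real.exp (c * y))⁻¹ := by
    rw [← Real.exp_neg]; congr 1; ring
  have hgy' : ‖g y‖ ≤ |C| * Real.exp (-c * y) :=
    hgy.trans (mul_le_mul_of_nonneg_right (le_abs_self C) (Real.exp_pos _).le)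
  calc ‖g y * u y ^ n‖ = ‖g y‖ * ‖u y‖ ^ n := by rw [norm_mul, norm_pow]
    _ ≤ (|C| * Real.exp (-c * y)) * (2 * y) ^ n :=
        mul_le_mul hgy' hpow (pow_nonneg (norm_nonneg _) n)
          (mul_nonneg (abs_nonneg C) (Real.exp_pos _).le)
    _ = |C| * 2 ^ n * (y ^ n / Real.exp (c * y)) := by
        rw [hexp, mul_pow, div_eq_mul_inv]; ring

/-- The closed form of the Eichler primitive in terms of iterated primitives `J`. -/
noncomputable def eichlerPoly (m : ℕ) (J : ℕ → ℍ → ℂ) (z : ℍ) : Polynomial ℂ :=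
  ∑ j ∈ Finset.range (m + 1),
    Polynomial.C ((m.descFactorial j : ℂ) * J (j + 1) z) *
      (Polynomial.X - Polynomial.C (z : ℂ)) ^ (m - j)

theorem eichlerPoly_eval (m : ℕ) (J : ℕ → ℍ → ℂ) (z : ℍ) (x : ℂ) :
    (eichlerPoly m J z).eval x =
      ∑ j ∈ Finset.range (m + 1), (m.descFactorial j : ℂ) * J (j + 1) z * (x - (z : ℂ)) ^ (m - j) := by
  simp [eichlerPoly, Polynomial.eval_finsetSum]

theorem eichlerPoly_natDegree_le (m : ℕ) (J : ℕ → ℍ → ℂ) (z : ℍ) :
    (eichlerPoly m J z).natDegree ≤ m := by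
  unfold eichlerPoly
  apply Polynomial.natDegree_sum_le_of_forall_le
  intro j _
  refine (Polynomial.natDegree_C_mul_le _ _).trans ?_
  refine (Polynomial.natDegree_pow_le).trans ?_
  have : (Polynomial.X - Polynomial.C (z : ℂ)).natDegree ≤ 1 :=
    (Polynomial.natDegree_X_sub_C_le _)
  calc (m - j) * (Polynomial.X - Polynomial.C (z : ℂ)).natDegree ≤ (m - j) * 1 :=
        Nat.mul_le_mul_left _ this
    _ ≤ m := by omega

/-- On the diagonal the Eichler primitive is `m!` times the `(m+1)`-fold primitive. -/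
theorem eichlerPoly_eval_self (m : ℕ) (J : ℕ → ℍ → ℂ) (z : ℍ) :
    (eichlerPoly m J z).eval (z : ℂ) = (m.factorial : ℂ) * J (m + 1) z := by
  rw [eichlerPoly_eval, Finset.sum_range_succ]
  have : ∑ j ∈ Finset.range m,
      (m.descFactorial j : ℂ) * J (j + 1) z * ((z : ℂ) - (z : ℂ)) ^ (m - j) = 0 := by
    apply Finset.sum_eq_zero
    intro j hj
    have hj' : m - j ≠ 0 := by have := Finset.mem_range.mp hj; omega
    simp [hj']
  rw [this]
  simp [Nat.descFactorial_self]

theorem isEichlerPrim_eichlerPoly (hh : 0 < h) {J : ℕ → ℍ → ℂ}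
    (hJ : ∀ n, IsPerDecay h (J n) ∧ ∀ z : ℍ, HasDerivAt (J (n + 1) ∘ ofComplex) (J n z) z)
    (m : ℕ) : IsEichlerPrim m (J 0) (eichlerPoly m J) ∧ VanishesAtTop (eichlerPoly m J) := by
  refine ⟨isEichlerPrim_of_eval (eichlerPoly_natDegree_le m J) ?_,
    vanishesAtTop_of_eval (eichlerPoly_natDegree_le m J) ?_⟩
  · intro x z
    -- local expression
    have hev : (fun w : ℂ => (eichlerPoly m J (ofComplex w)).eval x) =ᶠ[𝓝 (z : ℂ)]
        fun w => ∑ j ∈ Finset.range (m + 1),
          (m.descFactorial j : ℂ) * (J (j + 1) ∘ ofComplex) w * (x - w) ^ (m - j) := by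
      filter_upwards [isOpen_upperHalfPlaneSet.mem_nhds z.im_pos] with w hw
      rw [eichlerPoly_eval]
      simp only [comp_apply, ofComplex_apply_of_im_pos hw]
    have hterm : ∀ j ∈ Finset.range (m + 1), HasDerivAt
        (fun w : ℂ => (m.descFactorial j : ℂ) * (J (j + 1) ∘ ofComplex) w * (x - w) ^ (m - j))
        ((m.descFactorial j : ℂ) * J j z * (x - (z : ℂ)) ^ (m - j) -
          (m.descFactorial (j + 1) : ℂ) * J (j + 1) z * (x - (z : ℂ)) ^ (m - (j + 1))) z := by
      intro j _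
      have h1 := ((hJ j).2 z).const_mul (m.descFactorial j : ℂ)
      have h2 : HasDerivAt (fun w : ℂ => (x - w) ^ (m - j))
          (((m - j : ℕ) : ℂ) * (x - (z : ℂ)) ^ (m - j - 1) * (-1)) z := by
        have h4 := ((hasDerivAt_id (z : ℂ)).const_sub x).fun_pow (m - j)
        simp only [id_eq] at h4
        convert h4 using 1
      have hval : (m.descFactorial j : ℂ) * J j z * (x - (z : ℂ)) ^ (m - j) +
          (m.descFactorial j : ℂ) * (J (j + 1) ∘ ofComplex) (z : ℂ) *
            (((m - j : ℕ) : ℂ) * (x - (z : ℂ)) ^ (m - j - 1) * (-1)) =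
          (m.descFactorial j : ℂ) * J j z * (x - (z : ℂ)) ^ (m - j) -
          (m.descFactorial (j + 1) : ℂ) * J (j + 1) z * (x - (z : ℂ)) ^ (m - (j + 1)) := by
        simp only [comp_apply, ofComplex_apply, Nat.descFactorial_succ, Nat.sub_sub]
        push_cast
        ring
      exact (h1.mul h2).congr_deriv hval
    have hsum := HasDerivAt.fun_sum hterm
    have htel : ∑ j ∈ Finset.range (m + 1),
        ((m.descFactorial j : ℂ) * J j z * (x - (z : ℂ)) ^ (m - j) -
          (m.descFactorial (j + 1) : ℂ) * J (j + 1) z * (x - (z : ℂ)) ^ (m - (j + 1)))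
        = J 0 z * (x - (z : ℂ)) ^ m := by
      rw [Finset.sum_range_sub' (fun j => (m.descFactorial j : ℂ) * J j z * (x - (z : ℂ)) ^ (m - j))]
      simp
    rw [htel] at hsum
    exact hsum.congr_of_eventuallyEq hev
  · intro x z₀
    have hterm : ∀ j ∈ Finset.range (m + 1), Tendsto (fun y : ℝ =>
        (m.descFactorial j : ℂ) * (J (j + 1) (ofComplex ((z₀ : ℂ) + y * Complex.I)) *
          (x - ((ofComplex ((z₀ : ℂ) + y * Complex.I) : ℍ) : ℂ)) ^ (m - j))) atTop (𝓝 0) := by
      intro j _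
      obtain ⟨C, A, hCA⟩ := exp_decay hh (hJ (j + 1)).1
      have hc : 0 < 2 * Real.pi / h := by positivity
      have := (tendsto_mul_pow_of_exp_decay (C := |C|) (c := 2 * Real.pi / h)
        (B := ‖x‖ + ‖(z₀ : ℂ)‖)
        (g := fun y : ℝ => J (j + 1) (ofComplex ((z₀ : ℂ) + y * Complex.I)))
        (u := fun y : ℝ => x - ((ofComplex ((z₀ : ℂ) + y * Complex.I) : ℍ) : ℂ))
        hc (m - j) ?_ ?_).const_mul (m.descFactorial j : ℂ)
      · simpa using this
      · filter_upwards [eventually_gt_atTop (0 : ℝ), eventually_ge_atTop A] with y hy hyA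
        have him : 0 < ((z₀ : ℂ) + y * Complex.I).im := by
          have := z₀.im_pos
          simp only [Complex.add_im, Complex.mul_im, Complex.ofReal_re, Complex.I_im, mul_one,
            Complex.ofReal_im, Complex.I_re, mul_zero, add_zero, UpperHalfPlane.coe_im]
          linarith
        have h2 : (ofComplex ((z₀ : ℂ) + y * Complex.I)).im = z₀.im + y := by
          rw [ofComplex_apply_of_im_pos him]
          show ((z₀ : ℂ) + y * Complex.I).im = z₀.im + y
          simp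
        have h1 := hCA (ofComplex ((z₀ : ℂ) + y * Complex.I)) (by
          rw [h2]; have := z₀.im_pos; linarith)
        rw [h2] at h1
        refine h1.trans ?_
        have hle : Real.exp (-2 * Real.pi * (z₀.im + y) / h) ≤ Real.exp (-(2 * Real.pi / h) * y) := by
          apply Real.exp_le_exp.mpr
          have h3 : 0 ≤ 2 * Real.pi * z₀.im / h := by have := z₀.im_pos; positivity
          have h4 : -2 * Real.pi * (z₀.im + y) / h
              = -(2 * Real.pi / h) * y - 2 * Real.pi * z₀.im / h := by ring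
          linarith
        calc C * Real.exp (-2 * Real.pi * (z₀.im + y) / h)
            ≤ |C| * Real.exp (-2 * Real.pi * (z₀.im + y) / h) :=
              mul_le_mul_of_nonneg_right (le_abs_self C) (Real.exp_pos _).le
          _ ≤ |C| * Real.exp (-(2 * Real.pi / h) * y) :=
              mul_le_mul_of_nonneg_left hle (abs_nonneg C)
      · filter_upwards [eventually_gt_atTop (0 : ℝ)] with y hy
        have him : 0 < ((z₀ : ℂ) + y * Complex.I).im := by
          have := z₀.im_pos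
          simp only [Complex.add_im, Complex.mul_im, Complex.ofReal_re, Complex.I_im, mul_one,
            Complex.ofReal_im, Complex.I_re, mul_zero, add_zero, UpperHalfPlane.coe_im]
          linarith
        rw [ofComplex_apply_of_im_pos him]
        show ‖x - ((z₀ : ℂ) + y * Complex.I)‖ ≤ ‖x‖ + ‖(z₀ : ℂ)‖ + y
        calc ‖x - ((z₀ : ℂ) + y * Complex.I)‖ ≤ ‖x‖ + ‖(z₀ : ℂ) + y * Complex.I‖ := norm_sub_le _ _
          _ ≤ ‖x‖ + (‖(z₀ : ℂ)‖ + ‖(y : ℂ) * Complex.I‖) := by gcongr; exact norm_add_le _ _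
          _ = ‖x‖ + ‖(z₀ : ℂ)‖ + y := by
              simp [abs_of_pos hy]; ring
    have hsum := tendsto_finsetSum _ hterm
    simp only [Finset.sum_const_zero] at hsum
    refine hsum.congr fun y => ?_
    rw [eichlerPoly_eval]
    exact Finset.sum_congr rfl fun j _ => by ring

theorem isPerDecay_const_mul (hφ : IsPerDecay h φ) (c : ℂ) :
    IsPerDecay h (fun z => c * φ z) := by
  refine isPerDecay_of_diffOn ((diffOn hφ).const_mul c) (fun z => by simp only [hφ.periodic z]) ?_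
  have := hφ.zero_at.const_mul c
  simpa [IsZeroAtImInfty, ZeroAtFilter] using this

/-! ### Task C: the statements of the team skeleton -/

open Polynomial in
/-- **Existence** of the normalised Eichler primitive. -/
theorem exists_eichlerPrim {h : ℝ} (hh : 0 < h) {φ : ℍ → ℂ} (hφ : IsPerDecay h φ) (m : ℕ) :
    ∃ Ψ : ℍ → ℂ[X], IsEichlerPrim m φ Ψ ∧ VanishesAtTop Ψ ∧
      IsPerDecay h (fun z => (Ψ z).eval (z : ℂ)) := by
  obtain ⟨J, hJ0, hJ⟩ := exists_iter hh hφ
  have hE := isEichlerPrim_eichlerPoly hh hJ m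
  rw [hJ0] at hE
  refine ⟨eichlerPoly m J, hE.1, hE.2, ?_⟩
  have hdiag : (fun z : ℍ => (eichlerPoly m J z).eval (z : ℂ))
      = fun z => (m.factorial : ℂ) * J (m + 1) z := funext (eichlerPoly_eval_self m J)
  rw [hdiag]
  exact isPerDecay_const_mul (hJ (m + 1)).1 _

open Polynomial in
theorem IsEichlerPrim.exists_const_diff {m : ℕ} {f : ℍ → ℂ} {Ψ₁ Ψ₂ : ℍ → ℂ[X]}
    (h₁ : IsEichlerPrim m f Ψ₁) (h₂ : IsEichlerPrim m f Ψ₂) :
    ∃ Q : ℂ[X], Q.natDegree ≤ m ∧ ∀ z, Ψ₁ z = Ψ₂ z + Q := by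
  refine ⟨Ψ₁ UpperHalfPlane.I - Ψ₂ UpperHalfPlane.I, ?_, fun z => ?_⟩
  · exact (Polynomial.natDegree_sub_le _ _).trans (max_le (h₁.natDegree_le _) (h₂.natDegree_le _))
  · ext j
    have hD : ∀ z : ℍ, HasDerivAt
        ((fun z : ℍ => (Ψ₁ z).coeff j - (Ψ₂ z).coeff j) ∘ ofComplex) 0 z := by
      intro z
      have h3 := (h₁.hasDerivAt_coeff j z).sub (h₂.hasDerivAt_coeff j z)
      rw [sub_self] at h3
      exact h3
    have h4 : (Ψ₁ z).coeff j - (Ψ₂ z).coeff j
        = (Ψ₁ UpperHalfPlane.I).coeff j - (Ψ₂ UpperHalfPlane.I).coeff j :=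
      eq_of_hasDerivAt_zero hD z UpperHalfPlane.I
    simp only [Polynomial.coeff_add, Polynomial.coeff_sub]
    linear_combination h4

open Polynomial in
/-- **Uniqueness** of the normalised Eichler primitive. -/
theorem IsEichlerPrim.unique {m : ℕ} {f : ℍ → ℂ} {Ψ₁ Ψ₂ : ℍ → ℂ[X]}
    (h₁ : IsEichlerPrim m f Ψ₁) (h₂ : IsEichlerPrim m f Ψ₂)
    (v₁ : VanishesAtTop Ψ₁) (v₂ : VanishesAtTop Ψ₂) : Ψ₁ = Ψ₂ := by
  funext z
  ext j
  have hD : ∀ z : ℍ, HasDerivAt
      ((fun z : ℍ => (Ψ₁ z).coeff j - (Ψ₂ z).coeff j) ∘ ofComplex) 0 z := by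
    intro z
    have h3 := (h₁.hasDerivAt_coeff j z).sub (h₂.hasDerivAt_coeff j z)
    rw [sub_self] at h3
    exact h3
  have hlim := (v₁ j z).sub (v₂ j z)
  simp only [sub_zero] at hlim
  have := eq_zero_of_hasDerivAt_zero_of_tendsto hD z hlim z
  exact sub_eq_zero.mp this

open Polynomial in
theorem IsEichlerPrim.add {m : ℕ} {f g : ℍ → ℂ} {Ψ Ξ : ℍ → ℂ[X]}
    (h₁ : IsEichlerPrim m f Ψ) (h₂ : IsEichlerPrim m g Ξ) :
    IsEichlerPrim m (f + g) (Ψ + Ξ) := by
  refine ⟨fun z => (Polynomial.natDegree_add_le _ _).trans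
    (max_le (h₁.natDegree_le z) (h₂.natDegree_le z)), fun j z => ?_⟩
  have h3 := (h₁.hasDerivAt_coeff j z).add (h₂.hasDerivAt_coeff j z)
  have hval : (C (f z) * (X - C (z : ℂ)) ^ m).coeff j + (C (g z) * (X - C (z : ℂ)) ^ m).coeff j
      = (C ((f + g) z) * (X - C (z : ℂ)) ^ m).coeff j := by
    rw [← Polynomial.coeff_add, ← add_mul, ← C_add]; rfl
  rw [hval] at h3
  refine h3.congr_of_eventuallyEq (Eventually.of_forall fun w => ?_)
  simp

open Polynomial in
theorem IsEichlerPrim.const_smul {m : ℕ} {f : ℍ → ℂ} {Ψ : ℍ → ℂ[X]}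
    (h₁ : IsEichlerPrim m f Ψ) (c : ℂ) :
    IsEichlerPrim m (c • f) (fun z => C c * Ψ z) := by
  refine ⟨fun z => (Polynomial.natDegree_C_mul_le _ _).trans (h₁.natDegree_le z), fun j z => ?_⟩
  have h3 := (h₁.hasDerivAt_coeff j z).const_mul c
  have hval : c * (C (f z) * (X - C (z : ℂ)) ^ m).coeff j
      = (C ((c • f) z) * (X - C (z : ℂ)) ^ m).coeff j := by
    rw [← Polynomial.coeff_C_mul, ← mul_assoc, ← C_mul]; rfl
  rw [hval] at h3
  refine h3.congr_of_eventuallyEq (Eventually.of_forall fun w => ?_)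
  simp

theorem IsEichlerPrim.zero (m : ℕ) :
    IsEichlerPrim m (0 : ℍ → ℂ) (fun _ => (0 : Polynomial ℂ)) := by
  refine ⟨fun z => by simp, fun j z => ?_⟩
  simpa using hasDerivAt_const (z : ℂ) (0 : ℂ)

open Polynomial in
theorem VanishesAtTop.add {Ψ Ξ : ℍ → ℂ[X]} (h₁ : VanishesAtTop Ψ) (h₂ : VanishesAtTop Ξ) :
    VanishesAtTop (Ψ + Ξ) := by
  intro j z
  have := (h₁ j z).add (h₂ j z)
  simpa using this

open Polynomial in
theorem VanishesAtTop.const_smul {Ψ : ℍ → ℂ[X]} (h₁ : VanishesAtTop Ψ) (c : ℂ) :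
    VanishesAtTop (fun z => C c * Ψ z) := by
  intro j z
  have := (h₁ j z).const_mul c
  simpa using this

/-! ### Extras for the separation step (E) -/

/-- If a primitive vanishes identically, so does the function. -/
theorem eq_zero_of_hasDerivAt_of_eq_zero {G g : ℍ → ℂ}
    (hG : ∀ z : ℍ, HasDerivAt (G ∘ ofComplex) (g z) z) (h0 : ∀ z, G z = 0) (z : ℍ) : g z = 0 := by
  have h1 : (G ∘ ofComplex) = fun _ => (0 : ℂ) := by
    funext w; simp [h0]
  have h2 := hG z
  rw [h1] at h2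
  exact h2.unique (hasDerivAt_const _ _)

/-- If a primitive is (the restriction of) a polynomial `R`, the function is the restriction
of `R.derivative`. -/
theorem eq_derivative_of_hasDerivAt_of_eq_poly {G g : ℍ → ℂ}
    (hG : ∀ z : ℍ, HasDerivAt (G ∘ ofComplex) (g z) z) (R : Polynomial ℂ)
    (h0 : ∀ z : ℍ, G z = R.eval (z : ℂ)) (z : ℍ) : g z = R.derivative.eval (z : ℂ) := by
  have hev : (G ∘ ofComplex) =ᶠ[𝓝 (z : ℂ)] fun w => R.eval w := by
    filter_upwards [isOpen_upperHalfPlaneSet.mem_nhds z.im_pos] with w hw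
    simp only [comp_apply, h0, ofComplex_apply_of_im_pos hw]
  exact ((hG z).congr_of_eventuallyEq hev.symm).unique (R.hasDerivAt (z : ℂ))

theorem iter_eq_iterate_derivative {J : ℕ → ℍ → ℂ}
    (hJ : ∀ n, ∀ z : ℍ, HasDerivAt (J (n + 1) ∘ ofComplex) (J n z) z) (R : Polynomial ℂ)
    (n i : ℕ) (hi : i ≤ n) (h0 : ∀ z : ℍ, J n z = R.eval (z : ℂ)) :
    ∀ z : ℍ, J (n - i) z = (Polynomial.derivative^[i] R).eval (z : ℂ) := by
  induction i with
  | zero => simpa using h0
  | succ i ih =>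
    intro z
    have hi' : i ≤ n := Nat.le_of_succ_le hi
    have h1 := ih hi'
    have h2 : n - i = (n - (i + 1)) + 1 := by omega
    rw [h2] at h1
    have := eq_derivative_of_hasDerivAt_of_eq_poly (hJ (n - (i + 1))) _ h1 z
    rw [this, Function.iterate_succ_apply']

open Polynomial in
/-- **Diagonal lemma (general form).**  Let `φ` be holomorphic, `h`-periodic and zero at `i∞`,
and `Ψ` ANY polynomial-valued primitive (`IsEichlerPrim m φ Ψ`, not necessarily normalised).
If the diagonal function `z ↦ Ψ(z)(z)` coincides on `ℍ` with a polynomial of degree `≤ m`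
(e.g. it is constant, or zero), then `φ = 0`. -/
theorem eq_zero_of_diag_eq_poly {h : ℝ} (hh : 0 < h) {φ : ℍ → ℂ} (hφ : IsPerDecay h φ) {m : ℕ}
    {Ψ : ℍ → ℂ[X]} (hΨ : IsEichlerPrim m φ Ψ) (R : ℂ[X]) (hR : R.natDegree ≤ m)
    (hdiag : ∀ z : ℍ, (Ψ z).eval (z : ℂ) = R.eval (z : ℂ)) : φ = 0 := by
  obtain ⟨J, hJ0, hJ⟩ := exists_iter hh hφ
  have hE := isEichlerPrim_eichlerPoly hh hJ m
  rw [hJ0] at hE
  obtain ⟨Q, hQ, hΨQ⟩ := IsEichlerPrim.exists_const_diff hΨ hE.1
  have hfac : (m.factorial : ℂ) ≠ 0 := by exact_mod_cast m.factorial_ne_zero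
  -- `J (m+1)` is a polynomial of degree `≤ m` on `ℍ`
  set R' : ℂ[X] := C ((m.factorial : ℂ)⁻¹) * (R - Q) with hR'
  have hR'deg : R'.natDegree ≤ m :=
    (Polynomial.natDegree_C_mul_le _ _).trans
      ((Polynomial.natDegree_sub_le _ _).trans (max_le hR hQ))
  have h1 : ∀ z : ℍ, J (m + 1) z = R'.eval (z : ℂ) := by
    intro z
    have h2 := hdiag z
    rw [hΨQ z, Polynomial.eval_add, eichlerPoly_eval_self] at h2
    rw [hR', Polynomial.eval_mul, Polynomial.eval_C, Polynomial.eval_sub, ← h2]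
    field_simp
    ring
  have h3 := iter_eq_iterate_derivative (fun n => (hJ n).2) R' (m + 1) (m + 1) le_rfl h1
  have h4 : Polynomial.derivative^[m + 1] R' = 0 :=
    Polynomial.iterate_derivative_eq_zero (Nat.lt_succ_of_le hR'deg)
  funext z
  have := h3 z
  rw [Nat.sub_self, h4, hJ0] at this
  simpa using this

open Polynomial in
/-- **Diagonal lemma (normalised form).**  For the normalised Eichler primitive `Ψ` of a
holomorphic `h`-periodic `φ` vanishing at `i∞`, the diagonal function `z ↦ Ψ(z)(z)` is again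
holomorphic, `h`-periodic and zero at `i∞`. -/
theorem isPerDecay_diag {h : ℝ} (hh : 0 < h) {φ : ℍ → ℂ} (hφ : IsPerDecay h φ) {m : ℕ}
    {Ψ : ℍ → ℂ[X]} (hΨ : IsEichlerPrim m φ Ψ) (hv : VanishesAtTop Ψ) :
    IsPerDecay h (fun z : ℍ => (Ψ z).eval (z : ℂ)) := by
  obtain ⟨Ψ', hΨ', hv', hd⟩ := exists_eichlerPrim hh hφ m
  rw [IsEichlerPrim.unique hΨ hΨ' hv hv']
  exact hd

end Fermat.Agent.S22.H26
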