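import Mathlib

set_option autoImplicit false

namespace Fermat.Agent.S22.H27

open Matrix

/-- Cast an integer matrix to a complex matrix (as a ring homomorphism). -/
noncomputable def castMat (ι : Type*) [Fintype ι] [DecidableEq ι] :
    Matrix ι ι ℤ →+* Matrix ι ι ℂ :=
  (Int.castRingHom ℂ).mapMatrix

theorem castMat_apply (ι : Type*) [Fintype ι] [DecidableEq ι] (M : Matrix ι ι ℤ) :
    castMat ι M = M.map (Int.cast : ℤ → ℂ) := rfl

/-- Pairs `(t, M)` of a complex endomorphism and an integer matrix intertwined by `Φ`. -/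
def intertwinePairs {V : Type*} [AddCommGroup V] [Module ℂ V] {ι : Type*} [Fintype ι] [DecidableEq ι]
    (Φ : V →ₗ[ℂ] (ι → ℂ)) : Submodule ℤ (Module.End ℂ V × Matrix ι ι ℤ) where
  carrier := {p | ∀ f, Φ (p.1 f) = (castMat ι p.2).mulVec (Φ f)}
  add_mem' := by
    intro p q hp hq f
    rw [Prod.snd_add, map_add, Matrix.add_mulVec, ← hp f, ← hq f]
    simp
  zero_mem' := by
    intro f
    rw [Prod.snd_zero, map_zero, Matrix.zero_mulVec]
    simp
  smul_mem' := by
    intro c p hp f
    rw [Prod.smul_snd, map_zsmul, Matrix.smul_mulVec, ← hp f]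
    simp

theorem intertwinePairs_finite {V : Type*} [AddCommGroup V] [Module ℂ V] {ι : Type*} [Fintype ι] [DecidableEq ι]
    (Φ : V →ₗ[ℂ] (ι → ℂ)) (hΦ : Function.Injective Φ) :
    Module.Finite ℤ (intertwinePairs Φ) := by
  let g : intertwinePairs Φ →ₗ[ℤ] Matrix ι ι ℤ :=
    (LinearMap.snd ℤ (Module.End ℂ V) (Matrix ι ι ℤ)).comp (intertwinePairs Φ).subtype
  have hg : Function.Injective g := by
    rw [injective_iff_map_eq_zero]
    rintro ⟨⟨t, M⟩, hp⟩ h0
    have hM : M = 0 := h0
    subst hM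
    have ht : t = 0 := by
      apply LinearMap.ext
      intro f
      apply hΦ
      have := hp f
      rw [map_zero, Matrix.zero_mulVec] at this
      simpa using this
    subst ht
    rfl
  exact Module.Finite.of_injective g hg

/-- The endomorphisms admitting an integer intertwining matrix form a subalgebra. -/
def intertwineAlg {V : Type*} [AddCommGroup V] [Module ℂ V] {ι : Type*} [Fintype ι] [DecidableEq ι]
    (Φ : V →ₗ[ℂ] (ι → ℂ)) : Subalgebra ℤ (Module.End ℂ V) where
  carrier := {t | ∃ M : Matrix ι ι ℤ, (t, M) ∈ intertwinePairs Φ}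
  mul_mem' := by
    rintro s t ⟨A, hA⟩ ⟨B, hB⟩
    refine ⟨A * B, fun f => ?_⟩
    show Φ ((s * t) f) = (castMat ι (A * B)).mulVec (Φ f)
    rw [map_mul, ← Matrix.mulVec_mulVec, ← hB f]
    exact hA (t f)
  add_mem' := by
    rintro s t ⟨A, hA⟩ ⟨B, hB⟩
    exact ⟨A + B, (intertwinePairs Φ).add_mem hA hB⟩
  algebraMap_mem' := by
    intro c
    refine ⟨c • (1 : Matrix ι ι ℤ), fun f => ?_⟩
    show Φ ((algebraMap ℤ (Module.End ℂ V) c) f) = (castMat ι (c • 1)).mulVec (Φ f)
    rw [map_zsmul, map_one, Matrix.smul_mulVec, Matrix.one_mulVec]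
    simp [Algebra.algebraMap_eq_smul_one]

theorem intertwineAlg_finite {V : Type*} [AddCommGroup V] [Module ℂ V] {ι : Type*} [Fintype ι] [DecidableEq ι]
    (Φ : V →ₗ[ℂ] (ι → ℂ)) (hΦ : Function.Injective Φ) :
    Module.Finite ℤ (intertwineAlg Φ) := by
  haveI := intertwinePairs_finite Φ hΦ
  let g : intertwinePairs Φ →ₗ[ℤ] intertwineAlg Φ :=
    { toFun := fun p => ⟨p.1.1, p.1.2, p.2⟩
      map_add' := fun p q => rfl
      map_smul' := fun c p => rfl }
  have hg : Function.Surjective g := by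
    rintro ⟨t, M, hM⟩
    exact ⟨⟨(t, M), hM⟩, rfl⟩
  exact Module.Finite.of_surjective g hg

/-- Finite generation passes to smaller subalgebras over `ℤ`. -/
theorem finite_of_le {A : Type*} [Ring A] {S T : Subalgebra ℤ A} (hle : S ≤ T)
    [Module.Finite ℤ T] : Module.Finite ℤ S := by
  haveI : IsNoetherian ℤ T := isNoetherian_of_isNoetherianRing_of_finite ℤ _
  exact Module.Finite.of_injective (Subalgebra.inclusion hle).toLinearMap
    (Subalgebra.inclusion_injective hle)

/-- Algebra endgame: a set of complex endomorphisms, each intertwined with an integer matrix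
through an injective linear map to `ℂ^n`, generates a `ℤ`-algebra that is a finite `ℤ`-module. -/
theorem finite_adjoin_of_intertwiner {V : Type*} [AddCommGroup V] [Module ℂ V]
    (gens : Set (Module.End ℂ V)) {ι : Type*} [Fintype ι] [DecidableEq ι] (Φ : V →ₗ[ℂ] (ι → ℂ)) (hΦ : Function.Injective Φ)
    (h : ∀ T ∈ gens, ∃ M : Matrix ι ι ℤ,
      ∀ f, Φ (T f) = (M.map (Int.cast : ℤ → ℂ)).mulVec (Φ f)) :
    Module.Finite ℤ (Algebra.adjoin ℤ gens) := by
  haveI := intertwineAlg_finite Φ hΦ
  have hle : Algebra.adjoin ℤ gens ≤ intertwineAlg Φ :=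
    Algebra.adjoin_le fun T hT => h T hT
  exact finite_of_le hle

end Fermat.Agent.S22.H27
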