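import Mathlib

set_option autoImplicit false

namespace Fermat.Agent.S22.H16

open scoped MatrixGroups

section Abstract

variable {G V A : Type*} [Group G] [AddCommGroup V] [AddCommGroup A]

/-- `act` is a right action of `G` on `V` by additive maps. -/
structure IsRightAct (act : G → V →+ V) : Prop where
  one : act 1 = AddMonoidHom.id V
  mul : ∀ g h : G, act (g * h) = (act h).comp (act g)

/-- `c` is a cocycle for the right action `act`:
`c (g * h) P = c g P + c h (act g P)`. -/
def IsCocycle (act : G → V →+ V) (c : G → V →+ A) : Prop :=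
  ∀ (g h : G) (P : V), c (g * h) P = c g P + c h (act g P)

theorem IsCocycle.map_one {act : G → V →+ V} (hact : IsRightAct act) {c : G → V →+ A}
    (hc : IsCocycle act c) (P : V) : c 1 P = 0 := by
  have h := hc 1 1 P
  rw [mul_one, hact.one, AddMonoidHom.id_apply] at h
  exact left_eq_add.mp h

theorem IsRightAct.act_inv_act {act : G → V →+ V} (hact : IsRightAct act) (g : G) (P : V) :
    act g (act g⁻¹ P) = P := by
  have h := hact.mul g⁻¹ g
  rw [inv_mul_cancel, hact.one] at h
  exact (DFunLike.congr_fun h P).symm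

theorem IsCocycle.map_inv {act : G → V →+ V} (hact : IsRightAct act) {c : G → V →+ A}
    (hc : IsCocycle act c) (g : G) (P : V) : c g⁻¹ P = - c g (act g⁻¹ P) := by
  have h := hc g g⁻¹ (act g⁻¹ P)
  rw [mul_inv_cancel, hc.map_one hact, hact.act_inv_act] at h
  exact eq_neg_of_add_eq_zero_right h.symm

/-- Uniform integrality of cocycle values: if `γ i` generate `G` and `e j` generate `V`,
then every value `c g P` is an integer combination of the `c (γ i) (e j)`, with coefficients
that do not depend on the cocycle `c`. -/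
theorem cocycle_uniform {ι κ : Type*} [Fintype ι] [Fintype κ]
    {act : G → V →+ V} (hact : IsRightAct act)
    (γ : ι → G) (hγ : Subgroup.closure (Set.range γ) = ⊤)
    (e : κ → V) (he : AddSubgroup.closure (Set.range e) = ⊤) (g : G) (P : V) :
    ∃ n : ι → κ → ℤ, ∀ c : G → V →+ A, IsCocycle act c →
      c g P = ∑ i, ∑ j, n i j • c (γ i) (e j) := by
  classical
  have hg : g ∈ Subgroup.closure (Set.range γ) := by rw [hγ]; trivial
  revert P
  induction hg using Subgroup.closure_induction with
  | mem x hx =>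
    obtain ⟨i₀, rfl⟩ := hx
    intro P
    have hP : P ∈ AddSubgroup.closure (Set.range e) := by rw [he]; trivial
    induction hP using AddSubgroup.closure_induction with
    | mem y hy =>
      obtain ⟨j₀, rfl⟩ := hy
      refine ⟨fun i j => if i = i₀ ∧ j = j₀ then 1 else 0, fun c _ => ?_⟩
      rw [Finset.sum_eq_single i₀, Finset.sum_eq_single j₀]
      · simp
      · intro j _ hj; simp [hj]
      · intro h; exact absurd (Finset.mem_univ _) h
      · intro i _ hi; simp [hi]
      · intro h; exact absurd (Finset.mem_univ _) h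
    | zero => exact ⟨0, fun c _ => by simp⟩
    | add x y _ _ hx hy =>
      obtain ⟨n₁, h₁⟩ := hx
      obtain ⟨n₂, h₂⟩ := hy
      refine ⟨n₁ + n₂, fun c hc => ?_⟩
      rw [map_add, h₁ c hc, h₂ c hc, ← Finset.sum_add_distrib]
      refine Finset.sum_congr rfl fun i _ => ?_
      rw [← Finset.sum_add_distrib]
      refine Finset.sum_congr rfl fun j _ => ?_
      simp [add_smul]
    | neg x _ hx =>
      obtain ⟨n₁, h₁⟩ := hx
      refine ⟨-n₁, fun c hc => ?_⟩
      rw [map_neg, h₁ c hc, ← Finset.sum_neg_distrib]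
      refine Finset.sum_congr rfl fun i _ => ?_
      rw [← Finset.sum_neg_distrib]
      refine Finset.sum_congr rfl fun j _ => ?_
      simp [neg_smul]
  | one =>
    intro P
    exact ⟨0, fun c hc => by simp [hc.map_one hact]⟩
  | mul x y _ _ hx hy =>
    intro P
    obtain ⟨n₁, h₁⟩ := hx P
    obtain ⟨n₂, h₂⟩ := hy (act x P)
    refine ⟨n₁ + n₂, fun c hc => ?_⟩
    rw [hc x y P, h₁ c hc, h₂ c hc, ← Finset.sum_add_distrib]
    refine Finset.sum_congr rfl fun i _ => ?_
    rw [← Finset.sum_add_distrib]
    refine Finset.sum_congr rfl fun j _ => ?_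
    simp [add_smul]
  | inv x _ hx =>
    intro P
    obtain ⟨n₁, h₁⟩ := hx (act x⁻¹ P)
    refine ⟨-n₁, fun c hc => ?_⟩
    rw [hc.map_inv hact, h₁ c hc, ← Finset.sum_neg_distrib]
    refine Finset.sum_congr rfl fun i _ => ?_
    rw [← Finset.sum_neg_distrib]
    refine Finset.sum_congr rfl fun j _ => ?_
    simp [neg_smul]

end Abstract

section Gamma0

theorem SL2Z_fg : Group.FG SL(2, ℤ) := by
  rw [Group.fg_iff]
  exact ⟨{ModularGroup.S, ModularGroup.T}, SpecialLinearGroup.SL2Z_generators, by simp⟩

theorem Gamma0_groupFG (N : ℕ) [NeZero N] : Group.FG ↥(CongruenceSubgroup.Gamma0 N) := by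
  have := SL2Z_fg
  exact Subgroup.fg_of_index_ne_zero _

/-- `Γ₀(N)` is generated (as a group) by finitely many elements. -/
theorem Gamma0_generators (N : ℕ) [NeZero N] :
    ∃ (r : ℕ) (γ : Fin r → ↥(CongruenceSubgroup.Gamma0 N)),
      Subgroup.closure (Set.range γ) = ⊤ := by
  obtain ⟨S, hS, hfin⟩ := Group.fg_iff.mp (Gamma0_groupFG N)
  have := hfin.fintype
  let eq := Fintype.equivFin S
  refine ⟨Fintype.card S, fun i => (eq.symm i : ↥(CongruenceSubgroup.Gamma0 N)), ?_⟩
  rw [← hS]
  congr 1
  ext x
  constructor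
  · rintro ⟨i, rfl⟩
    exact (eq.symm i).2
  · intro hx
    exact ⟨eq ⟨x, hx⟩, by simp⟩

end Gamma0

end Fermat.Agent.S22.H16
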