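import Mathlib
import Fermat.Prelude.Def_CuspForm_HeckeAlgebra
import Fermat.Prelude.Sol.S_ModularForm_heckeT_slash_eq_self_of_mem_Gamma0
import Fermat.Agent.S22.Defs

/-! Task H2 of team S22: uniform coset decompositions for `T_p` (`p ∤ N`) and `U_p` (`p ∣ N`)
with a permutation of the index set, the Hecke operators as sums over a `Fintype`, and the
elementary facts on the representatives (upper triangular, positive diagonal, positive
determinant, integer entries). -/

set_option autoImplicit false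

namespace Fermat.Agent.S22.H56

open Polynomial UpperHalfPlane Filter Topology CongruenceSubgroup Matrix.SpecialLinearGroup
open scoped MatrixGroups ModularForm Manifold
open P2MW.S_ModularForm_heckeT_slash_eq_self_of_mem_Gamma0.ModularForm.HeckeSlashInvariance

/-- The representatives of `T_p`, indexed by `Option (Fin p)`:
`none ↦ [[p,0],[0,1]]`, `some j ↦ [[1,j],[0,p]]`. -/
noncomputable def repT (p : ℕ) (x : Option (Fin p)) : GL (Fin 2) ℝ :=
  x.elim (ModularForm.heckeDiagMatrix p) fun j => ModularForm.heckeMatrix p j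

/-- The representatives of `U_p`, indexed by `Fin p`: `j ↦ [[1,j],[0,p]]`. -/
noncomputable def repU (p : ℕ) (x : Fin p) : GL (Fin 2) ℝ := ModularForm.heckeMatrix p x

/-- `ZMod p ≃ Fin p` through `ZMod.val` (for `p ≠ 0`). -/
noncomputable def zmodEquivFin (p : ℕ) [NeZero p] : ZMod p ≃ Fin p where
  toFun x := ⟨x.val, ZMod.val_lt x⟩
  invFun j := ((j : ℕ) : ZMod p)
  left_inv x := ZMod.natCast_zmod_val x
  right_inv j := Fin.ext (ZMod.val_cast_of_lt j.isLt)

@[simp] theorem zmodEquivFin_apply_val (p : ℕ) [NeZero p] (x : ZMod p) :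
    ((zmodEquivFin p x : Fin p) : ℕ) = x.val := rfl

@[simp] theorem zmodEquivFin_symm_apply_val (p : ℕ) [NeZero p] (j : Fin p) :
    ((zmodEquivFin p).symm j).val = (j : ℕ) := ZMod.val_cast_of_lt j.isLt

/-- `Option (Fin p) ≃ OnePoint (ZMod p)`. -/
noncomputable def optionFinEquiv (p : ℕ) [NeZero p] : Option (Fin p) ≃ OnePoint (ZMod p) :=
  Equiv.optionCongr (zmodEquivFin p).symm

theorem heckeRep_optionFinEquiv (p : ℕ) [NeZero p] (x : Option (Fin p)) :
    heckeRep p (optionFinEquiv p x) = repT p x := by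
  cases x with
  | none => rfl
  | some j =>
    change ModularForm.heckeMatrix p ((zmodEquivFin p).symm j).val = ModularForm.heckeMatrix p j
    rw [zmodEquivFin_symm_apply_val]

theorem heckeRep_eq_repT (p : ℕ) [NeZero p] (y : OnePoint (ZMod p)) :
    heckeRep p y = repT p ((optionFinEquiv p).symm y) := by
  rw [← heckeRep_optionFinEquiv, Equiv.apply_symm_apply]

/-! ### Coset decompositions -/

/-- Coset decomposition for `T_p` (`p ∤ N`), with the named representatives `repT`. -/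
theorem repT_decomp {N p : ℕ} (hp : p.Prime) (hpN : ¬ p ∣ N) (g : SL(2, ℤ))
    (hg : g ∈ Gamma0 N) :
    ∃ (σ : Equiv.Perm (Option (Fin p))) (g' : Option (Fin p) → SL(2, ℤ)),
      (∀ x, g' x ∈ Gamma0 N) ∧
      ∀ x, repT p x * (g : GL (Fin 2) ℝ) = (g' x : GL (Fin 2) ℝ) * repT p (σ x) := by
  have : Fact p.Prime := ⟨hp⟩
  have hcN : (N : ℤ) ∣ g 1 0 :=
    (ZMod.intCast_zmod_eq_zero_iff_dvd _ _).mp (Gamma0_mem.mp hg)
  have h := fun x : Option (Fin p) => heckeRep_mul hpN g hcN (optionFinEquiv p x)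
  choose g' hg' hmul using h
  refine ⟨(optionFinEquiv p).trans ((MulAction.toPerm (redMatrix p g)).trans
    (optionFinEquiv p).symm), g', fun x => ?_, fun x => ?_⟩
  · exact Gamma0_mem.mpr ((ZMod.intCast_zmod_eq_zero_iff_dvd _ _).mpr (hg' x))
  · have h1 := hmul x
    rw [heckeRep_optionFinEquiv, heckeRep_eq_repT] at h1
    exact h1

/-- Skeleton Task H2: coset decomposition for `T_p` (`p ∤ N`), uniform choice. -/
theorem heckeT_decomp {N p : ℕ} (hp : p.Prime) (hpN : ¬ p ∣ N) (g : SL(2, ℤ))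
    (hg : g ∈ Gamma0 N) :
    ∃ (σ : Equiv.Perm (Option (Fin p))) (g' : Option (Fin p) → SL(2, ℤ)),
      (∀ x, g' x ∈ Gamma0 N) ∧
      ∀ x, (x.elim (ModularForm.heckeDiagMatrix p) fun j => ModularForm.heckeMatrix p j) *
          (g : GL (Fin 2) ℝ) =
        (g' x : GL (Fin 2) ℝ) *
          ((σ x).elim (ModularForm.heckeDiagMatrix p) fun j => ModularForm.heckeMatrix p j) :=
  repT_decomp hp hpN g hg

/-- Coset decomposition for `U_p` (`p ∣ N`), with the named representatives `repU`. -/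
theorem repU_decomp {N p : ℕ} (hp : p ≠ 0) (hpN : p ∣ N) (g : SL(2, ℤ))
    (hg : g ∈ Gamma0 N) :
    ∃ (σ : Equiv.Perm (Fin p)) (g' : Fin p → SL(2, ℤ)),
      (∀ x, g' x ∈ Gamma0 N) ∧
      ∀ x : Fin p, repU p x * (g : GL (Fin 2) ℝ) = (g' x : GL (Fin 2) ℝ) * repU p (σ x) := by
  have : NeZero p := ⟨hp⟩
  have hg0 : ((g 1 0 : ℤ) : ZMod N) = 0 := Gamma0_mem.mp hg
  have hcN : (N : ℤ) ∣ g 1 0 := (ZMod.intCast_zmod_eq_zero_iff_dvd _ _).mp hg0
  have hc : (p : ℤ) ∣ g 1 0 := (Int.natCast_dvd_natCast.mpr hpN).trans hcN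
  have h := fun x : Fin p => heckeMatrix_mul_of_dvd g hc ((zmodEquivFin p).symm x)
  choose g' hg' hmul using h
  refine ⟨(zmodEquivFin p).symm.trans ((affinePerm g
    ((ZMod.intCast_zmod_eq_zero_iff_dvd _ _).mpr hc)).trans (zmodEquivFin p)), g',
    fun x => ?_, fun x => ?_⟩
  · rw [Gamma0_mem, hg' x]
    push_cast
    rw [hg0, mul_zero]
  · have h1 := hmul x
    rw [zmodEquivFin_symm_apply_val] at h1
    exact h1

/-- Skeleton Task H2: coset decomposition for `U_p` (`p ∣ N`), uniform choice. -/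
theorem heckeU_decomp {N p : ℕ} (hp : p ≠ 0) (hpN : p ∣ N) (g : SL(2, ℤ))
    (hg : g ∈ Gamma0 N) :
    ∃ (σ : Equiv.Perm (Fin p)) (g' : Fin p → SL(2, ℤ)),
      (∀ x, g' x ∈ Gamma0 N) ∧
      ∀ x : Fin p, ModularForm.heckeMatrix p (x : ℕ) * (g : GL (Fin 2) ℝ) =
        (g' x : GL (Fin 2) ℝ) * ModularForm.heckeMatrix p ((σ x : Fin p) : ℕ) :=
  repU_decomp hp hpN g hg

/-! ### The Hecke operators as sums over a `Fintype` -/

/-- Skeleton Task H2. -/
theorem heckeU_eq_sum_fin (k : ℤ) (p : ℕ) (f : ℍ → ℂ) :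
    ModularForm.heckeU k p f = ∑ x : Fin p, f ∣[k] ModularForm.heckeMatrix p x := by
  rw [ModularForm.heckeU_def, Finset.sum_range]

/-- Skeleton Task H2. -/
theorem heckeT_eq_sum_option (k : ℤ) (p : ℕ) (f : ℍ → ℂ) :
    ModularForm.heckeT k p f = ∑ x : Option (Fin p),
      f ∣[k] (x.elim (ModularForm.heckeDiagMatrix p) fun j => ModularForm.heckeMatrix p j) := by
  rw [ModularForm.heckeT_eq_heckeU_add, heckeU_eq_sum_fin, Fintype.sum_option, add_comm]
  rfl

theorem heckeU_eq_sum_repU (k : ℤ) (p : ℕ) (f : ℍ → ℂ) :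
    ModularForm.heckeU k p f = ∑ x : Fin p, f ∣[k] repU p x :=
  heckeU_eq_sum_fin k p f

theorem heckeT_eq_sum_repT (k : ℤ) (p : ℕ) (f : ℍ → ℂ) :
    ModularForm.heckeT k p f = ∑ x : Option (Fin p), f ∣[k] repT p x :=
  heckeT_eq_sum_option k p f

/-! ### Elementary facts on the representatives -/

theorem heckeMatrix_entries {p : ℕ} (hp : p ≠ 0) (j : ℕ) :
    ModularForm.heckeMatrix p j 0 0 = 1 ∧ ModularForm.heckeMatrix p j 0 1 = j ∧
      ModularForm.heckeMatrix p j 1 0 = 0 ∧ ModularForm.heckeMatrix p j 1 1 = p := by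
  have h := ModularForm.val_heckeMatrix hp j
  refine ⟨?_, ?_, ?_, ?_⟩
  · simpa using congrFun (congrFun h 0) 0
  · simpa using congrFun (congrFun h 0) 1
  · simpa using congrFun (congrFun h 1) 0
  · simpa using congrFun (congrFun h 1) 1

theorem heckeDiagMatrix_entries {p : ℕ} (hp : p ≠ 0) :
    ModularForm.heckeDiagMatrix p 0 0 = p ∧ ModularForm.heckeDiagMatrix p 0 1 = 0 ∧
      ModularForm.heckeDiagMatrix p 1 0 = 0 ∧ ModularForm.heckeDiagMatrix p 1 1 = 1 := by
  have h := ModularForm.val_heckeDiagMatrix hp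
  refine ⟨?_, ?_, ?_, ?_⟩
  · simpa using congrFun (congrFun h 0) 0
  · simpa using congrFun (congrFun h 0) 1
  · simpa using congrFun (congrFun h 1) 0
  · simpa using congrFun (congrFun h 1) 1

/-- Integer entries of the `T_p` representatives: upper triangular with positive diagonal. -/
theorem repT_entries {p : ℕ} (x : Option (Fin p)) :
    ∃ a b d : ℤ, 0 < a ∧ 0 < d ∧ repT p x 0 0 = a ∧ repT p x 0 1 = b ∧ repT p x 1 0 = 0 ∧
      repT p x 1 1 = d := by
  rcases eq_or_ne p 0 with rfl | hp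
  · cases x with
    | none => exact ⟨1, 0, 1, one_pos, one_pos, by simp [repT]⟩
    | some j => exact j.elim0
  · have hp' : (0 : ℤ) < p := by exact_mod_cast Nat.pos_of_ne_zero hp
    cases x with
    | none =>
      obtain ⟨h00, h01, h10, h11⟩ := heckeDiagMatrix_entries hp
      exact ⟨p, 0, 1, hp', one_pos, by simpa [repT] using h00, by simpa [repT] using h01,
        by simpa [repT] using h10, by simpa [repT] using h11⟩
    | some j =>
      obtain ⟨h00, h01, h10, h11⟩ := heckeMatrix_entries hp j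
      exact ⟨1, (j : ℕ), p, one_pos, hp', by simpa [repT] using h00, by simpa [repT] using h01,
        by simpa [repT] using h10, by simpa [repT] using h11⟩

/-- Integer entries of the `U_p` representatives: upper triangular with positive diagonal. -/
theorem repU_entries {p : ℕ} (x : Fin p) :
    ∃ a b d : ℤ, 0 < a ∧ 0 < d ∧ repU p x 0 0 = a ∧ repU p x 0 1 = b ∧ repU p x 1 0 = 0 ∧
      repU p x 1 1 = d := by
  have hp : p ≠ 0 := by
    rintro rfl
    exact x.elim0
  have hp' : (0 : ℤ) < p := by exact_mod_cast Nat.pos_of_ne_zero hp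
  obtain ⟨h00, h01, h10, h11⟩ := heckeMatrix_entries hp x
  exact ⟨1, (x : ℕ), p, one_pos, hp', by simpa [repU] using h00, by simpa [repU] using h01,
    by simpa [repU] using h10, by simpa [repU] using h11⟩

theorem repT_apply_one_zero {p : ℕ} (x : Option (Fin p)) : repT p x 1 0 = 0 := by
  obtain ⟨a, b, d, -, -, -, -, h, -⟩ := repT_entries x
  exact h

theorem repT_apply_zero_zero_pos {p : ℕ} (x : Option (Fin p)) : 0 < repT p x 0 0 := by
  obtain ⟨a, b, d, ha, -, h, -, -, -⟩ := repT_entries x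
  rw [h]
  exact_mod_cast ha

theorem repT_apply_one_one_pos {p : ℕ} (x : Option (Fin p)) : 0 < repT p x 1 1 := by
  obtain ⟨a, b, d, -, hd, -, -, -, h⟩ := repT_entries x
  rw [h]
  exact_mod_cast hd

theorem repU_apply_one_zero {p : ℕ} (x : Fin p) : repU p x 1 0 = 0 := by
  obtain ⟨a, b, d, -, -, -, -, h, -⟩ := repU_entries x
  exact h

theorem repU_apply_zero_zero_pos {p : ℕ} (x : Fin p) : 0 < repU p x 0 0 := by
  obtain ⟨a, b, d, ha, -, h, -, -, -⟩ := repU_entries x
  rw [h]
  exact_mod_cast ha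

theorem repU_apply_one_one_pos {p : ℕ} (x : Fin p) : 0 < repU p x 1 1 := by
  obtain ⟨a, b, d, -, hd, -, -, -, h⟩ := repU_entries x
  rw [h]
  exact_mod_cast hd

theorem det_pos_of_upper_triangular {α : GL (Fin 2) ℝ} (h10 : α 1 0 = 0) (h00 : 0 < α 0 0)
    (h11 : 0 < α 1 1) : 0 < α.val.det := by
  rw [Matrix.det_fin_two]
  have h10' : α.val 1 0 = 0 := h10
  rw [h10', mul_zero, sub_zero]
  exact mul_pos h00 h11

theorem repT_det_pos {p : ℕ} (x : Option (Fin p)) : 0 < (repT p x).val.det :=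
  det_pos_of_upper_triangular (repT_apply_one_zero x) (repT_apply_zero_zero_pos x)
    (repT_apply_one_one_pos x)

theorem repU_det_pos {p : ℕ} (x : Fin p) : 0 < (repU p x).val.det :=
  det_pos_of_upper_triangular (repU_apply_one_zero x) (repU_apply_zero_zero_pos x)
    (repU_apply_one_one_pos x)

/-- `polyActGL` by a `T_p` representative is `polyAct` with integer entries
(ready for the integrality lemma `polyAct_coeff_int`). -/
theorem polyActGL_repT (m : ℕ) {p : ℕ} (x : Option (Fin p)) :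
    ∃ a b c d : ℤ, ∀ P : ℂ[X],
      polyActGL m (repT p x) P = polyAct m (a : ℂ) (b : ℂ) (c : ℂ) (d : ℂ) P := by
  obtain ⟨a, b, d, -, -, h00, h01, h10, h11⟩ := repT_entries x
  refine ⟨a, b, 0, d, fun P => ?_⟩
  simp only [polyActGL, h00, h01, h10, h11]
  push_cast
  rfl

/-- `polyActGL` by a `U_p` representative is `polyAct` with integer entries. -/
theorem polyActGL_repU (m : ℕ) {p : ℕ} (x : Fin p) :
    ∃ a b c d : ℤ, ∀ P : ℂ[X],
      polyActGL m (repU p x) P = polyAct m (a : ℂ) (b : ℂ) (c : ℂ) (d : ℂ) P := by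
  obtain ⟨a, b, d, -, -, h00, h01, h10, h11⟩ := repU_entries x
  refine ⟨a, b, 0, d, fun P => ?_⟩
  simp only [polyActGL, h00, h01, h10, h11]
  push_cast
  rfl

/-- `polyActGL` by (the image of) an element of `SL(2, ℤ)` is `polyAct` with its integer
entries. -/
theorem polyActGL_SL (m : ℕ) (g : SL(2, ℤ)) (P : ℂ[X]) :
    polyActGL m (g : GL (Fin 2) ℝ) P =
      polyAct m ((g 0 0 : ℤ) : ℂ) ((g 0 1 : ℤ) : ℂ) ((g 1 0 : ℤ) : ℂ) ((g 1 1 : ℤ) : ℂ) P := by
  simp only [polyActGL]
  rfl

end Fermat.Agent.S22.H56
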