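import Mathlib
import Fermat.Agent.S22.Defs

set_option autoImplicit false

namespace Fermat.Agent.S22.H23

open Polynomial UpperHalfPlane Filter Topology
open scoped MatrixGroups ModularForm Manifold

/-! ### local algebra of `polyAct` (general commutative ring) -/

section PolyAct

variable {R : Type*} [CommRing R]

theorem polyAct_zero (m : ℕ) (a b c d : R) : polyAct m a b c d (0 : R[X]) = 0 := by
  simp [polyAct]

theorem polyAct_add (m : ℕ) (a b c d : R) (P Q : R[X]) :
    polyAct m a b c d (P + Q) = polyAct m a b c d P + polyAct m a b c d Q := by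
  simp [polyAct, add_mul, Finset.sum_add_distrib]

theorem polyAct_C_mul (m : ℕ) (a b c d r : R) (P : R[X]) :
    polyAct m a b c d (C r * P) = C r * polyAct m a b c d P := by
  simp [polyAct, Finset.mul_sum, mul_assoc]

theorem polyAct_sum {ι : Type*} (s : Finset ι) (m : ℕ) (a b c d : R) (P : ι → R[X]) :
    polyAct m a b c d (∑ i ∈ s, P i) = ∑ i ∈ s, polyAct m a b c d (P i) := by
  classical
  induction s using Finset.induction_on with
  | empty => simp [polyAct_zero]
  | insert x s hx ih => rw [Finset.sum_insert hx, Finset.sum_insert hx, polyAct_add, ih]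

theorem polyAct_one (m : ℕ) (P : R[X]) (hP : P.natDegree ≤ m) : polyAct m 1 0 0 1 P = P := by
  conv_rhs => rw [P.as_sum_range' (m + 1) (by omega)]
  rw [polyAct]
  refine Finset.sum_congr rfl fun j _ => ?_
  simp [← C_mul_X_pow_eq_monomial]

/-- multiplicativity of homogeneous substitution against a linear factor -/
theorem polyAct_succ_mul_linear (m : ℕ) (a b c d u v : R) (Q : R[X]) (hQ : Q.natDegree ≤ m) :
    polyAct (m + 1) a b c d (Q * (C u * X + C v)) =
      polyAct m a b c d Q * (C u * (C a * X + C b) + C v * (C c * X + C d)) := by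
  have hcoeff : ∀ j, (Q * (C u * X + C v)).coeff (j + 1) = u * Q.coeff j + v * Q.coeff (j + 1) := by
    intro j
    rw [mul_add, ← mul_assoc, coeff_add, coeff_mul_X, coeff_mul_C, coeff_mul_C]
    ring
  have hcoeff0 : (Q * (C u * X + C v)).coeff 0 = v * Q.coeff 0 := by
    rw [mul_add, ← mul_assoc, coeff_add, coeff_mul_X_zero, coeff_mul_C]
    ring
  have hQm : Q.coeff (m + 1) = 0 := coeff_eq_zero_of_natDegree_lt (by omega)
  rw [polyAct, polyAct]
  generalize C a * X + C b = A
  generalize C c * X + C d = B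
  have e1 : ∑ j ∈ Finset.range (m + 1 + 1), C ((Q * (C u * X + C v)).coeff j) * A ^ j *
      B ^ (m + 1 - j) =
      ∑ j ∈ Finset.range (m + 1), C (u * Q.coeff j + v * Q.coeff (j + 1)) * A ^ (j + 1) *
          B ^ (m - j) + C (v * Q.coeff 0) * B ^ (m + 1) := by
    rw [Finset.sum_range_succ']
    congr 1
    · refine Finset.sum_congr rfl fun j hj => ?_
      rw [hcoeff, Nat.add_sub_add_right]
    · rw [hcoeff0]
      simp
  have e2 : ∑ j ∈ Finset.range (m + 1), C (v * Q.coeff (j + 1)) * A ^ (j + 1) * B ^ (m - j) +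
      C (v * Q.coeff 0) * B ^ (m + 1) =
        ∑ j ∈ Finset.range (m + 1), C (v * Q.coeff j) * A ^ j * B ^ (m + 1 - j) := by
    have h3 := Finset.sum_range_succ' (fun j => C (v * Q.coeff j) * A ^ j * B ^ (m + 1 - j)) (m + 1)
    have h4 := Finset.sum_range_succ (fun j => C (v * Q.coeff j) * A ^ j * B ^ (m + 1 - j)) (m + 1)
    rw [h4] at h3
    simp only [hQm, mul_zero, map_zero, zero_mul, add_zero, Nat.add_sub_add_right, pow_zero,
      mul_one, Nat.sub_zero] at h3
    rw [h3]
  have e3 : ∑ j ∈ Finset.range (m + 1), C (u * Q.coeff j + v * Q.coeff (j + 1)) * A ^ (j + 1) *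
      B ^ (m - j) = ∑ j ∈ Finset.range (m + 1), C (u * Q.coeff j) * A ^ (j + 1) * B ^ (m - j) +
        ∑ j ∈ Finset.range (m + 1), C (v * Q.coeff (j + 1)) * A ^ (j + 1) * B ^ (m - j) := by
    rw [← Finset.sum_add_distrib]
    refine Finset.sum_congr rfl fun j _ => ?_
    rw [map_add]
    ring
  rw [e1, e3, add_assoc, e2, Finset.sum_mul, ← Finset.sum_add_distrib]
  refine Finset.sum_congr rfl fun j hj => ?_
  rw [Finset.mem_range] at hj
  have hmj : m + 1 - j = (m - j) + 1 := by omega
  rw [hmj, map_mul, map_mul]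
  ring

/-- homogeneous substitution of a product of a power of two linear forms -/
theorem polyAct_linear_pow_mul_pow (a b c d u v u' v' : R) (i j : ℕ) :
    polyAct (i + j) a b c d ((C u * X + C v) ^ i * (C u' * X + C v') ^ j) =
      (C u * (C a * X + C b) + C v * (C c * X + C d)) ^ i *
        (C u' * (C a * X + C b) + C v' * (C c * X + C d)) ^ j := by
  have hlin : ∀ (u v : R) (n : ℕ), ((C u * X + C v : R[X]) ^ n).natDegree ≤ n := by
    intro u v n
    calc ((C u * X + C v : R[X]) ^ n).natDegree ≤ n * 1 :=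
          natDegree_pow_le_of_le n natDegree_linear_le
      _ = n := mul_one n
  induction j with
  | zero =>
    induction i with
    | zero => simp [polyAct]
    | succ i ih =>
      simp only [pow_zero, mul_one, add_zero] at ih ⊢
      rw [pow_succ, polyAct_succ_mul_linear _ _ _ _ _ _ _ _ (hlin u v i), ih, pow_succ]
  | succ j ih =>
    rw [← add_assoc, pow_succ, ← mul_assoc, polyAct_succ_mul_linear _ _ _ _ _ _ _ _ ?_, ih,
      pow_succ, mul_assoc]
    calc ((C u * X + C v : R[X]) ^ i * (C u' * X + C v') ^ j).natDegree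
        ≤ ((C u * X + C v : R[X]) ^ i).natDegree + ((C u' * X + C v' : R[X]) ^ j).natDegree :=
          natDegree_mul_le
      _ ≤ i + j := add_le_add (hlin u v i) (hlin u' v' j)

/-- right action: `(P|α)|β = P|(αβ)` -/
theorem polyAct_polyAct (m : ℕ) (a b c d a' b' c' d' : R) (P : R[X]) :
    polyAct m a' b' c' d' (polyAct m a b c d P) =
      polyAct m (a * a' + b * c') (a * b' + b * d') (c * a' + d * c') (c * b' + d * d') P := by
  have h1 : polyAct m a b c d P = ∑ j ∈ Finset.range (m + 1),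
      C (P.coeff j) * (C a * X + C b) ^ j * (C c * X + C d) ^ (m - j) := rfl
  rw [h1, polyAct_sum]
  conv_rhs => rw [polyAct]
  refine Finset.sum_congr rfl fun j hj => ?_
  rw [Finset.mem_range] at hj
  rw [mul_assoc, polyAct_C_mul, mul_assoc]
  congr 1
  obtain ⟨n, hn⟩ : ∃ n, m - j = n := ⟨_, rfl⟩
  have hm : m = j + n := by omega
  rw [hn, hm, polyAct_linear_pow_mul_pow]
  congr 1
  · congr 1
    simp only [map_add, map_mul]
    ring
  · congr 1
    simp only [map_add, map_mul]
    ring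

end PolyAct

/-! ### `polyActGL` and `transform` -/

theorem polyActGL_zero (m : ℕ) (α : GL (Fin 2) ℝ) : polyActGL m α 0 = 0 := polyAct_zero ..

theorem polyActGL_add (m : ℕ) (α : GL (Fin 2) ℝ) (P Q : ℂ[X]) :
    polyActGL m α (P + Q) = polyActGL m α P + polyActGL m α Q := polyAct_add ..

theorem polyActGL_sum {ι : Type*} (s : Finset ι) (m : ℕ) (α : GL (Fin 2) ℝ) (P : ι → ℂ[X]) :
    polyActGL m α (∑ i ∈ s, P i) = ∑ i ∈ s, polyActGL m α (P i) := polyAct_sum ..

theorem polyActGL_one (m : ℕ) (P : ℂ[X]) (hP : P.natDegree ≤ m) : polyActGL m 1 P = P := by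
  have h := polyAct_one m P hP
  simpa [polyActGL] using h

theorem polyActGL_mul (m : ℕ) (α β : GL (Fin 2) ℝ) (P : ℂ[X]) :
    polyActGL m (α * β) P = polyActGL m β (polyActGL m α P) := by
  rw [polyActGL, polyActGL, polyActGL, polyAct_polyAct]
  congr 1 <;> simp [Matrix.mul_apply, Fin.sum_univ_two]

theorem transform_add (m : ℕ) (α : GL (Fin 2) ℝ) (Ψ Ξ : ℍ → ℂ[X]) :
    transform m α (Ψ + Ξ) = transform m α Ψ + transform m α Ξ := by
  funext z
  simp [transform, polyActGL_add]

theorem transform_zero (m : ℕ) (α : GL (Fin 2) ℝ) : transform m α (0 : ℍ → ℂ[X]) = 0 := by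
  funext z
  simp [transform, polyActGL_zero]

theorem transform_sum (m : ℕ) (α : GL (Fin 2) ℝ) {ι : Type*} (t : Finset ι) (Ψ : ι → ℍ → ℂ[X]) :
    transform m α (∑ x ∈ t, Ψ x) = ∑ x ∈ t, transform m α (Ψ x) := by
  classical
  induction t using Finset.induction_on with
  | empty => simp [transform_zero]
  | insert a s ha ih => rw [Finset.sum_insert ha, Finset.sum_insert ha, transform_add, ih]

theorem transform_const (m : ℕ) (α : GL (Fin 2) ℝ) (Q : ℂ[X]) (z : ℍ) :
    transform m α (fun _ => Q) z = polyActGL m α Q := rfl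

theorem transform_mul {m : ℕ} {Ψ : ℍ → ℂ[X]} (_hdeg : ∀ z, (Ψ z).natDegree ≤ m)
    (α β : GL (Fin 2) ℝ) :
    transform m (α * β) Ψ = transform m β (transform m α Ψ) := by
  funext z
  simp only [transform, mul_smul, polyActGL_mul]

theorem transform_one {m : ℕ} {Ψ : ℍ → ℂ[X]} (hdeg : ∀ z, (Ψ z).natDegree ≤ m) :
    transform m 1 Ψ = Ψ := by
  funext z
  simp [transform, polyActGL_one m _ (hdeg z)]

/-- abstract Hecke compatibility of the period cocycle -/
theorem cocycle_hecke {m : ℕ} {ι : Type*} [Fintype ι] (rep : ι → GL (Fin 2) ℝ)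
    {Ψ : ℍ → ℂ[X]} (hdeg : ∀ z, (Ψ z).natDegree ≤ m) (γ : GL (Fin 2) ℝ) (σ : Equiv.Perm ι)
    (γ' : ι → GL (Fin 2) ℝ) (hmul : ∀ x, rep x * γ = γ' x * rep (σ x)) (R : ι → ℂ[X])
    (hR : ∀ x z, transform m (γ' x) Ψ z = Ψ z + R x) (z : ℍ) :
    transform m γ (∑ x, transform m (rep x) Ψ) z =
      (∑ x, transform m (rep x) Ψ) z + ∑ x, polyActGL m (rep (σ x)) (R x) := by
  have h1 : ∀ x, transform m γ (transform m (rep x) Ψ) z =
      transform m (rep (σ x)) Ψ z + polyActGL m (rep (σ x)) (R x) := by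
    intro x
    rw [← transform_mul hdeg, hmul x, transform_mul hdeg]
    show polyActGL m (rep (σ x)) (transform m (γ' x) Ψ (rep (σ x) • z)) = _
    rw [hR, polyActGL_add]
    rfl
  have e1 : transform m γ (∑ x, transform m (rep x) Ψ) z =
      ∑ x, transform m γ (transform m (rep x) Ψ) z := by
    rw [transform_sum, Finset.sum_apply]
  have e2 : (∑ x, transform m (rep x) Ψ) z = ∑ x, transform m (rep x) Ψ z :=
    Finset.sum_apply _ _ _
  have e3 : ∑ x, transform m γ (transform m (rep x) Ψ) z =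
      ∑ x, (transform m (rep (σ x)) Ψ z + polyActGL m (rep (σ x)) (R x)) :=
    Finset.sum_congr rfl fun x _ => h1 x
  have e4 : ∑ x, transform m (rep (σ x)) Ψ z = ∑ x, transform m (rep x) Ψ z :=
    Equiv.sum_comp σ fun x => transform m (rep x) Ψ z
  rw [e1, e2, e3, Finset.sum_add_distrib, e4]

/-! ### sums of Eichler primitives -/

theorem isEichlerPrim_zero (m : ℕ) : IsEichlerPrim m (0 : ℍ → ℂ) (0 : ℍ → ℂ[X]) where
  natDegree_le z := by simp
  hasDerivAt_coeff j z := by
    simpa using hasDerivAt_const (z : ℂ) (0 : ℂ)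

theorem isEichlerPrim_add {m : ℕ} {f g : ℍ → ℂ} {Ψ Ξ : ℍ → ℂ[X]}
    (h₁ : IsEichlerPrim m f Ψ) (h₂ : IsEichlerPrim m g Ξ) :
    IsEichlerPrim m (f + g) (Ψ + Ξ) where
  natDegree_le z := (natDegree_add_le _ _).trans (max_le (h₁.natDegree_le z) (h₂.natDegree_le z))
  hasDerivAt_coeff j z := by
    have h := (h₁.hasDerivAt_coeff j z).add (h₂.hasDerivAt_coeff j z)
    have e : (C ((f + g) z) * (X - C (z : ℂ)) ^ m).coeff j =
        (C (f z) * (X - C (z : ℂ)) ^ m).coeff j + (C (g z) * (X - C (z : ℂ)) ^ m).coeff j := by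
      rw [Pi.add_apply, map_add, add_mul, coeff_add]
    rw [e]
    exact h

theorem isEichlerPrim_finset_sum {m : ℕ} {ι : Type*} (t : Finset ι) {f : ι → ℍ → ℂ}
    {Ψ : ι → ℍ → ℂ[X]} (h : ∀ x ∈ t, IsEichlerPrim m (f x) (Ψ x)) :
    IsEichlerPrim m (∑ x ∈ t, f x) (∑ x ∈ t, Ψ x) := by
  classical
  induction t using Finset.induction_on with
  | empty => simpa using isEichlerPrim_zero m
  | insert a s ha ih =>
    rw [Finset.sum_insert ha, Finset.sum_insert ha]
    exact isEichlerPrim_add (h a (Finset.mem_insert_self a s))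
      (ih fun x hx => h x (Finset.mem_insert_of_mem hx))

theorem vanishesAtTop_zero : VanishesAtTop (0 : ℍ → ℂ[X]) := by
  intro j z
  simp

theorem vanishesAtTop_add {Ψ Ξ : ℍ → ℂ[X]} (h₁ : VanishesAtTop Ψ) (h₂ : VanishesAtTop Ξ) :
    VanishesAtTop (Ψ + Ξ) := by
  intro j z
  have h := (h₁ j z).add (h₂ j z)
  simpa using h

theorem vanishesAtTop_finset_sum {ι : Type*} (t : Finset ι) {Ψ : ι → ℍ → ℂ[X]}
    (h : ∀ x ∈ t, VanishesAtTop (Ψ x)) : VanishesAtTop (∑ x ∈ t, Ψ x) := by
  classical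
  induction t using Finset.induction_on with
  | empty => simpa using vanishesAtTop_zero
  | insert a s ha ih =>
    rw [Finset.sum_insert ha]
    exact vanishesAtTop_add (h a (Finset.mem_insert_self a s))
      (ih fun x hx => h x (Finset.mem_insert_of_mem hx))

/-- Eichler primitive of a finite sum of translates, from the termwise facts (Task D). -/
theorem isEichlerPrim_sum_transform_of {m : ℕ} {k : ℤ} {f : ℍ → ℂ} {Ψ : ℍ → ℂ[X]}
    {ι : Type*} [Fintype ι] (rep : ι → GL (Fin 2) ℝ)
    (hD : ∀ x, IsEichlerPrim m (f ∣[k] rep x) (transform m (rep x) Ψ))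
    (hV : ∀ x, VanishesAtTop (transform m (rep x) Ψ)) :
    IsEichlerPrim m (∑ x, f ∣[k] rep x) (∑ x, transform m (rep x) Ψ) ∧
      VanishesAtTop (∑ x, transform m (rep x) Ψ) :=
  ⟨isEichlerPrim_finset_sum Finset.univ fun x _ => hD x,
    vanishesAtTop_finset_sum Finset.univ fun x _ => hV x⟩

theorem det_pos_of_upper {α : GL (Fin 2) ℝ} (h10 : α 1 0 = 0) (h00 : 0 < α 0 0)
    (h11 : 0 < α 1 1) : 0 < α.val.det := by
  rw [Matrix.det_fin_two]
  have h10' : α.val 1 0 = 0 := h10
  rw [h10', mul_zero, sub_zero]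
  exact mul_pos h00 h11

end Fermat.Agent.S22.H23
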