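import Mathlib
import Fermat.Agent.S22.Defs

set_option autoImplicit false

namespace Fermat.Agent.S22.H36

open Polynomial
open Fermat.Agent.S22

section hom

variable {R : Type*} [CommRing R]

/-- Homogeneous substitution: `∑_{j ≤ m} p_j U^j V^(m-j)`. -/
noncomputable def hom (m : ℕ) (P U V : R[X]) : R[X] :=
  ∑ j ∈ Finset.range (m + 1), C (P.coeff j) * U ^ j * V ^ (m - j)

theorem polyAct_eq_hom (m : ℕ) (a b c d : R) (P : R[X]) :
    polyAct m a b c d P = hom m P (C a * X + C b) (C c * X + C d) := rfl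

theorem hom_add (m : ℕ) (P Q U V : R[X]) : hom m (P + Q) U V = hom m P U V + hom m Q U V := by
  simp only [hom, coeff_add, C_add, add_mul, Finset.sum_add_distrib]

theorem hom_C_mul (m : ℕ) (r : R) (P U V : R[X]) : hom m (C r * P) U V = C r * hom m P U V := by
  simp only [hom, coeff_C_mul, C_mul, Finset.mul_sum, mul_assoc]

theorem hom_zero (m : ℕ) (U V : R[X]) : hom m 0 U V = 0 := by
  simp [hom]

theorem hom_sum {ι : Type*} (s : Finset ι) (m : ℕ) (P : ι → R[X]) (U V : R[X]) :
    hom m (∑ i ∈ s, P i) U V = ∑ i ∈ s, hom m (P i) U V := by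
  classical
  induction s using Finset.induction_on with
  | empty => simp [hom_zero]
  | insert i s hi ih => rw [Finset.sum_insert hi, Finset.sum_insert hi, hom_add, ih]

theorem hom_X_pow {m j : ℕ} (hj : j ≤ m) (U V : R[X]) :
    hom m (X ^ j) U V = U ^ j * V ^ (m - j) := by
  rw [hom, Finset.sum_eq_single j]
  · simp
  · intro i _ hij
    rw [coeff_X_pow, if_neg hij]
    simp
  · intro hj'
    exact absurd (Finset.mem_range.mpr (Nat.lt_succ_of_le hj)) hj'

theorem hom_succ_mul_X (m : ℕ) (Q U V : R[X]) :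
    hom (m + 1) (Q * X) U V = U * hom m Q U V := by
  rw [hom, Finset.sum_range_succ', hom, Finset.mul_sum]
  simp only [coeff_mul_X, coeff_mul_X_zero, C_0, zero_mul, add_zero, Nat.add_sub_add_right]
  refine Finset.sum_congr rfl fun i _ => ?_
  ring

theorem hom_succ_of_natDegree_le {m : ℕ} {Q : R[X]} (hQ : Q.natDegree ≤ m) (U V : R[X]) :
    hom (m + 1) Q U V = V * hom m Q U V := by
  rw [hom, Finset.sum_range_succ, hom, Finset.mul_sum,
    coeff_eq_zero_of_natDegree_lt (Nat.lt_succ_of_le hQ)]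
  simp only [C_0, zero_mul, add_zero]
  refine Finset.sum_congr rfl fun i hi => ?_
  have hi' : i ≤ m := Nat.lt_succ_iff.mp (Finset.mem_range.mp hi)
  rw [Nat.succ_sub hi', pow_succ]
  ring

theorem hom_succ_mul_linear {m : ℕ} {Q : R[X]} (hQ : Q.natDegree ≤ m) (u v : R) (U V : R[X]) :
    hom (m + 1) (Q * (C u * X + C v)) U V = hom m Q U V * (C u * U + C v * V) := by
  have h : Q * (C u * X + C v) = C u * (Q * X) + C v * Q := by ring
  rw [h, hom_add, hom_C_mul, hom_C_mul, hom_succ_mul_X, hom_succ_of_natDegree_le hQ]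
  ring

theorem natDegree_linear_le (u v : R) : (C u * X + C v : R[X]).natDegree ≤ 1 := by
  refine (natDegree_add_le _ _).trans (max_le ?_ ?_)
  · exact (natDegree_C_mul_le _ _).trans natDegree_X_le
  · rw [natDegree_C]
    exact Nat.zero_le _

theorem natDegree_linear_pow_le (u v : R) (i : ℕ) : ((C u * X + C v : R[X]) ^ i).natDegree ≤ i := by
  refine (natDegree_pow_le).trans ?_
  calc i * (C u * X + C v : R[X]).natDegree ≤ i * 1 := Nat.mul_le_mul_left _ (natDegree_linear_le u v)
    _ = i := mul_one i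

theorem natDegree_linear_pow_mul_le (u₁ v₁ u₂ v₂ : R) (i j : ℕ) :
    ((C u₁ * X + C v₁ : R[X]) ^ i * (C u₂ * X + C v₂) ^ j).natDegree ≤ i + j :=
  (natDegree_mul_le).trans
    (add_le_add (natDegree_linear_pow_le u₁ v₁ i) (natDegree_linear_pow_le u₂ v₂ j))

theorem hom_linear_pow (u v : R) (U V : R[X]) (i : ℕ) :
    hom i ((C u * X + C v) ^ i) U V = (C u * U + C v * V) ^ i := by
  induction i with
  | zero => simp [hom]
  | succ i ih =>
    rw [pow_succ, hom_succ_mul_linear (natDegree_linear_pow_le u v i), ih, pow_succ]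

theorem hom_linear_pow_mul (u₁ v₁ u₂ v₂ : R) (U V : R[X]) (i j : ℕ) :
    hom (i + j) ((C u₁ * X + C v₁) ^ i * (C u₂ * X + C v₂) ^ j) U V =
      (C u₁ * U + C v₁ * V) ^ i * (C u₂ * U + C v₂ * V) ^ j := by
  induction j with
  | zero => simpa using hom_linear_pow u₁ v₁ U V i
  | succ j ih =>
    rw [pow_succ, ← mul_assoc, ← add_assoc,
      hom_succ_mul_linear (natDegree_linear_pow_mul_le u₁ v₁ u₂ v₂ i j), ih, pow_succ, mul_assoc]

theorem hom_natDegree_le (m : ℕ) (P : R[X]) {U V : R[X]} (hU : U.natDegree ≤ 1)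
    (hV : V.natDegree ≤ 1) : (hom m P U V).natDegree ≤ m := by
  refine natDegree_sum_le_of_forall_le _ _ fun j hj => ?_
  have hj' : j ≤ m := Nat.lt_succ_iff.mp (Finset.mem_range.mp hj)
  calc (C (P.coeff j) * U ^ j * V ^ (m - j)).natDegree
      ≤ (C (P.coeff j) * U ^ j).natDegree + (V ^ (m - j)).natDegree := natDegree_mul_le
    _ ≤ (U ^ j).natDegree + (V ^ (m - j)).natDegree :=
        Nat.add_le_add_right (natDegree_C_mul_le _ _) _
    _ ≤ j * U.natDegree + (m - j) * V.natDegree :=
        add_le_add natDegree_pow_le natDegree_pow_le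
    _ ≤ j * 1 + (m - j) * 1 :=
        add_le_add (Nat.mul_le_mul_left _ hU) (Nat.mul_le_mul_left _ hV)
    _ = m := by omega

theorem eq_sum_range_of_natDegree_le {m : ℕ} {P : R[X]} (hP : P.natDegree ≤ m) :
    P = ∑ j ∈ Finset.range (m + 1), C (P.coeff j) * X ^ j := by
  conv_lhs => rw [P.as_sum_range' (m + 1) (Nat.lt_succ_of_le hP)]
  refine Finset.sum_congr rfl fun j _ => ?_
  rw [C_mul_X_pow_eq_monomial]

end hom

/-! ### Task PA -/

theorem polyAct_natDegree_le {R : Type*} [CommRing R] (m : ℕ) (a b c d : R) (P : R[X]) :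
    (polyAct m a b c d P).natDegree ≤ m :=
  hom_natDegree_le m P (natDegree_linear_le a b) (natDegree_linear_le c d)

theorem polyAct_add {R : Type*} [CommRing R] (m : ℕ) (a b c d : R) (P Q : R[X]) :
    polyAct m a b c d (P + Q) = polyAct m a b c d P + polyAct m a b c d Q :=
  hom_add m P Q _ _

theorem polyAct_C_mul {R : Type*} [CommRing R] (m : ℕ) (a b c d r : R) (P : R[X]) :
    polyAct m a b c d (C r * P) = C r * polyAct m a b c d P :=
  hom_C_mul m r P _ _

theorem polyAct_zero {R : Type*} [CommRing R] (m : ℕ) (a b c d : R) :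
    polyAct m a b c d (0 : R[X]) = 0 :=
  hom_zero m _ _

theorem polyAct_sum {R : Type*} [CommRing R] {ι : Type*} (s : Finset ι) (m : ℕ) (a b c d : R)
    (P : ι → R[X]) :
    polyAct m a b c d (∑ i ∈ s, P i) = ∑ i ∈ s, polyAct m a b c d (P i) :=
  hom_sum s m P _ _

theorem polyAct_neg {R : Type*} [CommRing R] (m : ℕ) (a b c d : R) (P : R[X]) :
    polyAct m a b c d (-P) = -polyAct m a b c d P := by
  have h : -P = C (-1 : R) * P := by simp
  rw [h, polyAct_C_mul]
  simp

theorem polyAct_sub {R : Type*} [CommRing R] (m : ℕ) (a b c d : R) (P Q : R[X]) :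
    polyAct m a b c d (P - Q) = polyAct m a b c d P - polyAct m a b c d Q := by
  rw [sub_eq_add_neg, polyAct_add, polyAct_neg, ← sub_eq_add_neg]

theorem polyAct_X_pow {R : Type*} [CommRing R] {m j : ℕ} (hj : j ≤ m) (a b c d : R) :
    polyAct m a b c d (X ^ j) = (C a * X + C b) ^ j * (C c * X + C d) ^ (m - j) :=
  hom_X_pow hj _ _

theorem polyAct_one {R : Type*} [CommRing R] (m : ℕ) (P : R[X]) (hP : P.natDegree ≤ m) :
    polyAct m 1 0 0 1 P = P := by
  conv_rhs => rw [eq_sum_range_of_natDegree_le hP]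
  rw [polyAct]
  refine Finset.sum_congr rfl fun j _ => ?_
  simp

/-- right action: `(P|α)|β = P|(αβ)` -/
theorem polyAct_polyAct {R : Type*} [CommRing R] (m : ℕ) (a b c d a' b' c' d' : R) (P : R[X])
    (hP : P.natDegree ≤ m) :
    polyAct m a' b' c' d' (polyAct m a b c d P) =
      polyAct m (a * a' + b * c') (a * b' + b * d') (c * a' + d * c') (c * b' + d * d') P := by
  have key : ∀ j ∈ Finset.range (m + 1),
      polyAct m a' b' c' d' (polyAct m a b c d (X ^ j)) =
        polyAct m (a * a' + b * c') (a * b' + b * d') (c * a' + d * c') (c * b' + d * d')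
          (X ^ j : R[X]) := by
    intro j hj
    have hj' : j ≤ m := Nat.lt_succ_iff.mp (Finset.mem_range.mp hj)
    rw [polyAct_X_pow hj', polyAct_X_pow hj', polyAct_eq_hom]
    have h := hom_linear_pow_mul a b c d (C a' * X + C b') (C c' * X + C d') j (m - j)
    rw [show j + (m - j) = m by omega] at h
    rw [h]
    congr 2
    · simp only [C_add, C_mul]; ring
    · simp only [C_add, C_mul]; ring
  conv_lhs => rw [eq_sum_range_of_natDegree_le hP]
  conv_rhs => rw [eq_sum_range_of_natDegree_le hP]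
  rw [polyAct_sum, polyAct_sum, polyAct_sum]
  refine Finset.sum_congr rfl fun j hj => ?_
  rw [polyAct_C_mul, polyAct_C_mul, polyAct_C_mul, key j hj]

theorem polyAct_map {R S : Type*} [CommRing R] [CommRing S] (φ : R →+* S) (m : ℕ) (a b c d : R)
    (P : R[X]) :
    (polyAct m a b c d P).map φ = polyAct m (φ a) (φ b) (φ c) (φ d) (P.map φ) := by
  simp only [polyAct, Polynomial.map_sum, Polynomial.map_mul, Polynomial.map_pow,
    Polynomial.map_add, map_C, map_X, coeff_map]

/-- the key polynomial identity: homogenisation of `(X - u)^m` -/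
theorem polyAct_X_sub_C_pow {R : Type*} [CommRing R] (m : ℕ) (a b c d u : R) :
    polyAct m a b c d ((X - C u) ^ m) = (C (a - u * c) * X + C (b - u * d)) ^ m := by
  have h : (X - C u : R[X]) = C 1 * X + C (-u) := by simp [sub_eq_add_neg]
  rw [h, polyAct_eq_hom, hom_linear_pow]
  congr 1
  simp only [C_sub, C_mul, C_neg, C_1]
  ring

theorem polyAct_eval {K : Type*} [Field K] (m : ℕ) (a b c d x : K) (P : K[X])
    (hP : P.natDegree ≤ m) (hx : c * x + d ≠ 0) :
    (polyAct m a b c d P).eval x = (c * x + d) ^ m * P.eval ((a * x + b) / (c * x + d)) := by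
  rw [polyAct, eval_finsetSum, eval_eq_sum_range' (Nat.lt_succ_of_le hP), Finset.mul_sum]
  refine Finset.sum_congr rfl fun j hj => ?_
  have hj' : j ≤ m := Nat.lt_succ_iff.mp (Finset.mem_range.mp hj)
  simp only [eval_mul, eval_C, eval_pow, eval_add, eval_X]
  have hm : (c * x + d) ^ m = (c * x + d) ^ j * (c * x + d) ^ (m - j) := by
    rw [← pow_add]
    congr 1
    omega
  rw [hm, div_pow]
  generalize c * x + d = y at hx
  generalize a * x + b = w
  have hy : y ^ j ≠ 0 := pow_ne_zero j hx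
  field_simp

/-- integrality: coefficients of `polyAct` with integer matrix are integer combinations -/
theorem polyAct_coeff_int (m : ℕ) (a b c d : ℤ) :
    ∃ A : Matrix (Fin (m + 1)) (Fin (m + 1)) ℤ, ∀ P : ℂ[X], P.natDegree ≤ m → ∀ i : Fin (m + 1),
      (polyAct m (a : ℂ) b c d P).coeff i = ∑ j : Fin (m + 1), (A i j : ℂ) * P.coeff j := by
  refine ⟨fun i j => ((C a * X + C b : ℤ[X]) ^ (j : ℕ) * (C c * X + C d) ^ (m - (j : ℕ))).coeff i,
    fun P _ i => ?_⟩
  rw [polyAct, finsetSum_coeff, Finset.sum_range]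
  refine Finset.sum_congr rfl fun j _ => ?_
  have hmap : ((C (a : ℂ) * X + C (b : ℂ)) ^ (j : ℕ) * (C (c : ℂ) * X + C (d : ℂ)) ^ (m - (j : ℕ))) =
      ((C a * X + C b : ℤ[X]) ^ (j : ℕ) * (C c * X + C d) ^ (m - (j : ℕ))).map
        (Int.castRingHom ℂ) := by
    simp only [Polynomial.map_mul, Polynomial.map_pow, Polynomial.map_add, map_C, map_X,
      Int.coe_castRingHom]
  rw [mul_assoc, coeff_C_mul, hmap, coeff_map, Int.coe_castRingHom, mul_comm]

end Fermat.Agent.S22.H36
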