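import Mathlib
import Fermat.Prelude.Thm_ModularForm_sturm_bound_Gamma0
import Fermat.Prelude.Thm_CongruenceSubgroup_one_mem_strictPeriods_Gamma0

set_option autoImplicit false

open UpperHalfPlane ModularForm CongruenceSubgroup
open scoped MatrixGroups Manifold

namespace Fermat.Agent.S22.H24

/-- (E1) A modular form of nonpositive weight on `Gamma0 N` vanishing at `i∞` is zero. -/
theorem modularForm_eq_zero_of_weight_nonpos (N : ℕ) [NeZero N] {k : ℤ} (hk : k ≤ 0)
    (g : ModularForm (Gamma0 N) k) (h0 : IsZeroAtImInfty (g : ℍ → ℂ)) : g = 0 := by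
  apply ModularForm.sturm_bound_Gamma0 N
  intro n hn
  have hidx : (0 : ℤ) ≤ ((Gamma0 N).index : ℤ) := Int.natCast_nonneg _
  have h1 : (k * ((Gamma0 N).index : ℤ)).toNat = 0 := by
    apply Int.toNat_of_nonpos
    exact mul_nonpos_of_nonpos_of_nonneg hk hidx
  have hn0 : n = 0 := by
    rw [h1] at hn
    simpa using hn
  subst hn0
  have hper := CongruenceSubgroup.one_mem_strictPeriods_Gamma0 N
  rw [UpperHalfPlane.qExpansion_coeff_zero one_pos
    (ModularFormClass.analyticAt_cuspFunction_zero g one_pos hper)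
    (SlashInvariantFormClass.periodic_comp_ofComplex g hper)]
  exact h0.valueAtInfty_eq_zero

/-- (E2) Build a modular form on `Gamma0 N` from holomorphy, invariance and boundedness of all
`SL(2,ℤ)`-translates at `i∞`. -/
noncomputable def mkModularForm (N : ℕ) [NeZero N] (k : ℤ) (g : ℍ → ℂ) (hol : MDiff g)
    (hinv : ∀ γ : SL(2, ℤ), γ ∈ Gamma0 N → g ∣[k] γ = g)
    (hbdd : ∀ σ : SL(2, ℤ), IsBoundedAtImInfty (g ∣[k] σ)) :
    ModularForm (Gamma0 N) k where
  toFun := g
  slash_action_eq' := by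
    rintro _ ⟨γ, hγ, rfl⟩
    exact hinv γ hγ
  holo' := hol
  bdd_at_cusps' := by
    intro c hc
    rw [Subgroup.IsArithmetic.isCusp_iff_isCusp_SL2Z] at hc
    rw [OnePoint.isBoundedAt_iff_forall_SL2Z hc]
    intro σ _
    exact hbdd σ

@[simp] theorem mkModularForm_apply (N : ℕ) [NeZero N] (k : ℤ) (g : ℍ → ℂ) (hol : MDiff g)
    (hinv : ∀ γ : SL(2, ℤ), γ ∈ Gamma0 N → g ∣[k] γ = g)
    (hbdd : ∀ σ : SL(2, ℤ), IsBoundedAtImInfty (g ∣[k] σ)) (z : ℍ) :
    mkModularForm N k g hol hinv hbdd z = g z := rfl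

/-- (E1)+(E2): a holomorphic function of nonpositive weight, invariant under `Gamma0 N`, with all
`SL(2,ℤ)`-translates bounded at `i∞` and itself vanishing at `i∞`, is zero. -/
theorem eq_zero_of_invariant_of_bounded (N : ℕ) [NeZero N] {k : ℤ} (hk : k ≤ 0) (g : ℍ → ℂ)
    (hol : MDiff g) (hinv : ∀ γ : SL(2, ℤ), γ ∈ Gamma0 N → g ∣[k] γ = g)
    (hbdd : ∀ σ : SL(2, ℤ), IsBoundedAtImInfty (g ∣[k] σ)) (h0 : IsZeroAtImInfty g) :
    g = 0 := by
  have h := modularForm_eq_zero_of_weight_nonpos N hk (mkModularForm N k g hol hinv hbdd) h0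
  funext z
  have := congrArg (fun F : ModularForm (Gamma0 N) k => F z) h
  simpa using this

end Fermat.Agent.S22.H24
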