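import Mathlib
import Fermat.Agent.S22.Defs

set_option autoImplicit false

open UpperHalfPlane ModularForm CongruenceSubgroup Filter Topology
open scoped MatrixGroups Manifold

namespace Fermat.Agent.S22.H24

open Fermat.Agent.S22

/-- A chain of iterated primitives of `φ`, all periodic and vanishing at `i∞`. -/
structure IsChain (h : ℝ) (φ : ℍ → ℂ) (I : ℕ → ℍ → ℂ) : Prop where
  zero : I 0 = φ
  perDecay : ∀ n, IsPerDecay h (I n)
  deriv : ∀ (n : ℕ) (z : ℍ), HasDerivAt (I (n + 1) ∘ ofComplex) (I n z) (z : ℂ)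

theorem exists_chain {h : ℝ}
    (hprim : ∀ φ : ℍ → ℂ, IsPerDecay h φ →
      ∃ Φ : ℍ → ℂ, IsPerDecay h Φ ∧ ∀ z : ℍ, HasDerivAt (Φ ∘ ofComplex) (φ z) (z : ℂ))
    {φ : ℍ → ℂ} (hφ : IsPerDecay h φ) : ∃ I : ℕ → ℍ → ℂ, IsChain h φ I := by
  classical
  let S := {Φ : ℍ → ℂ // IsPerDecay h Φ}
  let step : S → S := fun Φ =>
    ⟨Classical.choose (hprim Φ.1 Φ.2), (Classical.choose_spec (hprim Φ.1 Φ.2)).1⟩
  have hstep : ∀ (Φ : S) (z : ℍ), HasDerivAt ((step Φ).1 ∘ ofComplex) (Φ.1 z) (z : ℂ) :=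
    fun Φ => (Classical.choose_spec (hprim Φ.1 Φ.2)).2
  refine ⟨fun n => (step^[n] ⟨φ, hφ⟩).1, rfl, fun n => (step^[n] ⟨φ, hφ⟩).2, fun n z => ?_⟩
  have := hstep (step^[n] ⟨φ, hφ⟩) z
  simpa only [Function.iterate_succ_apply'] using this

/-- The closed form of the Eichler primitive attached to a chain. -/
noncomputable def psi (m : ℕ) (I : ℕ → ℍ → ℂ) (z : ℍ) : Polynomial ℂ :=
  ∑ j ∈ Finset.range (m + 1),
    Polynomial.C ((m.descFactorial j : ℂ) * I (j + 1) z) *
      (Polynomial.X - Polynomial.C (z : ℂ)) ^ (m - j)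

theorem psi_eval (m : ℕ) (I : ℕ → ℍ → ℂ) (z : ℍ) (x : ℂ) :
    (psi m I z).eval x =
      ∑ j ∈ Finset.range (m + 1), (m.descFactorial j : ℂ) * I (j + 1) z * (x - (z : ℂ)) ^ (m - j) := by
  simp [psi, Polynomial.eval_finsetSum]

theorem psi_natDegree_le (m : ℕ) (I : ℕ → ℍ → ℂ) (z : ℍ) : (psi m I z).natDegree ≤ m := by
  unfold psi
  apply Polynomial.natDegree_sum_le_of_forall_le
  intro j hj
  refine (Polynomial.natDegree_C_mul_le _ _).trans ?_
  refine (Polynomial.natDegree_pow_le).trans ?_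
  rw [Polynomial.natDegree_X_sub_C, mul_one]
  exact Nat.sub_le m j

theorem psi_diag (m : ℕ) (I : ℕ → ℍ → ℂ) (z : ℍ) :
    (psi m I z).eval (z : ℂ) = (m.factorial : ℂ) * I (m + 1) z := by
  rw [psi_eval, Finset.sum_eq_single m]
  · simp [Nat.descFactorial_self]
  · intro j hj hjm
    have hj' : j < m := lt_of_le_of_ne (Nat.lt_succ_iff.mp (Finset.mem_range.mp hj)) hjm
    have : m - j ≠ 0 := by omega
    simp [this]
  · intro h
    exact absurd (Finset.mem_range.mpr (Nat.lt_succ_self m)) h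

theorem psi_hasDerivAt {h : ℝ} {φ : ℍ → ℂ} {I : ℕ → ℍ → ℂ} (hI : IsChain h φ I) (m : ℕ)
    (x : ℂ) (z : ℍ) :
    HasDerivAt (fun w : ℂ => (psi m I (ofComplex w)).eval x) (φ z * (x - (z : ℂ)) ^ m) (z : ℂ) := by
  -- the function agrees near `z` with an explicit sum
  have hev : (fun w : ℂ => ∑ j ∈ Finset.range (m + 1),
      (m.descFactorial j : ℂ) * (I (j + 1) ∘ ofComplex) w * (x - w) ^ (m - j)) =ᶠ[𝓝 (z : ℂ)]
      (fun w : ℂ => (psi m I (ofComplex w)).eval x) := by
    filter_upwards [isOpen_upperHalfPlaneSet.mem_nhds z.im_pos] with w hw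
    rw [psi_eval]
    refine Finset.sum_congr rfl fun j _ => ?_
    simp [ofComplex_apply_of_im_pos hw]
  refine HasDerivAt.congr_of_eventuallyEq ?_ hev.symm
  -- derivative of each term
  have hterm : ∀ j ∈ Finset.range (m + 1),
      HasDerivAt (fun w : ℂ => (m.descFactorial j : ℂ) * (I (j + 1) ∘ ofComplex) w * (x - w) ^ (m - j))
        ((m.descFactorial j : ℂ) * I j z * (x - (z : ℂ)) ^ (m - j) -
          (m.descFactorial (j + 1) : ℂ) * I (j + 1) z * (x - (z : ℂ)) ^ (m - (j + 1))) (z : ℂ) := by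
    intro j _
    have h1 := (hI.deriv j z).const_mul (m.descFactorial j : ℂ)
    have h2 : HasDerivAt (fun w : ℂ => (x - w) ^ (m - j))
        (((m - j : ℕ) : ℂ) * (x - (z : ℂ)) ^ (m - j - 1) * (-1)) (z : ℂ) :=
      ((hasDerivAt_id (z : ℂ)).const_sub x).fun_pow (m - j)
    have h3 := h1.fun_mul h2
    have hI1 : (I (j + 1) ∘ ofComplex) (z : ℂ) = I (j + 1) z := by simp [ofComplex_apply]
    rw [hI1] at h3
    refine h3.congr_deriv ?_
    have hexp : m - (j + 1) = m - j - 1 := by omega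
    rw [hexp, Nat.descFactorial_succ]
    push_cast
    ring
  have hsum := HasDerivAt.fun_sum hterm
  convert hsum using 1
  rw [Finset.sum_range_sub' (fun j => (m.descFactorial j : ℂ) * I j z * (x - (z : ℂ)) ^ (m - j))]
  simp [hI.zero]

/-- Two functions with the same derivative at every point of the upper half plane differ by a
constant there. -/
theorem sub_eq_sub_of_hasDerivAt {A B d : ℂ → ℂ}
    (hA : ∀ z : ℍ, HasDerivAt A (d z) (z : ℂ)) (hB : ∀ z : ℍ, HasDerivAt B (d z) (z : ℂ))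
    (z w : ℍ) : A z - B z = A w - B w := by
  have hdiff : DifferentiableOn ℂ (fun u => A u - B u) {u : ℂ | 0 < u.im} := by
    intro u hu
    exact ((hA ⟨u, hu⟩).differentiableAt.sub (hB ⟨u, hu⟩).differentiableAt).differentiableWithinAt
  have hderiv : Set.EqOn (deriv (fun u => A u - B u)) 0 {u : ℂ | 0 < u.im} := by
    intro u hu
    have := ((hA ⟨u, hu⟩).fun_sub (hB ⟨u, hu⟩)).deriv
    simpa using this
  exact isOpen_upperHalfPlaneSet.is_const_of_deriv_eq_zero
    (convex_halfSpace_im_gt 0).isPreconnected hdiff hderiv z.im_pos w.im_pos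

/-- A polynomial which is periodic along an arithmetic progression is constant. -/
theorem poly_eq_C_of_periodic {P : Polynomial ℂ} {N : ℂ} (hN : N ≠ 0) {z₀ : ℂ}
    (h : ∀ n : ℕ, P.eval (z₀ + n * N) = P.eval z₀) : P = Polynomial.C (P.eval z₀) := by
  have hinf : Set.Infinite {x | (P - Polynomial.C (P.eval z₀)).IsRoot x} := by
    refine Set.infinite_of_injective_forall_mem (f := fun n : ℕ => z₀ + n * N) ?_ ?_
    · intro a b hab
      have : (a : ℂ) * N = b * N := add_left_cancel hab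
      exact_mod_cast mul_right_cancel₀ hN this
    · intro n
      simp [Polynomial.IsRoot, h n]
  have := Polynomial.eq_zero_of_infinite_isRoot _ hinf
  exact sub_eq_zero.mp this

/-- Descending a chain: if `I (n+1)` vanishes identically then so does `I n`. -/
theorem IsChain.eq_zero_of_succ {h : ℝ} {φ : ℍ → ℂ} {I : ℕ → ℍ → ℂ} (hI : IsChain h φ I)
    {n : ℕ} (hn : I (n + 1) = 0) : I n = 0 := by
  funext z
  have h1 := hI.deriv n z
  have h2 : HasDerivAt (I (n + 1) ∘ ofComplex) 0 (z : ℂ) := by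
    rw [hn]
    exact hasDerivAt_const _ _
  exact h1.unique h2

theorem IsChain.eq_zero_of_eq_zero {h : ℝ} {φ : ℍ → ℂ} {I : ℕ → ℍ → ℂ} (hI : IsChain h φ I)
    {n : ℕ} (hn : I n = 0) : φ = 0 := by
  induction n with
  | zero => rw [← hI.zero]; exact hn
  | succ n ih => exact ih (hI.eq_zero_of_succ hn)

end Fermat.Agent.S22.H24
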