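import Mathlib
import Fermat.Agent.S22.Defs
import Fermat.Agent.S22.SepBase_helper24
import Fermat.Agent.S22.SepChain_helper24

set_option autoImplicit false

open Polynomial UpperHalfPlane Filter Topology CongruenceSubgroup
open scoped MatrixGroups ModularForm Manifold

namespace Fermat.Agent.S22.H24

open Fermat.Agent.S22

/-- Evaluation form of the derivative clause of `IsEichlerPrim`. -/
theorem hasDerivAt_eval {m : ℕ} {f : ℍ → ℂ} {Ψ : ℍ → ℂ[X]} (hΨ : IsEichlerPrim m f Ψ)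
    (x : ℂ) (z : ℍ) :
    HasDerivAt (fun w : ℂ => (Ψ (ofComplex w)).eval x) (f z * (x - (z : ℂ)) ^ m) (z : ℂ) := by
  have hfun : (fun w : ℂ => (Ψ (ofComplex w)).eval x) =
      fun w : ℂ => ∑ j ∈ Finset.range (m + 1), (Ψ (ofComplex w)).coeff j * x ^ j := by
    funext w
    exact Polynomial.eval_eq_sum_range' (Nat.lt_succ_of_le (hΨ.natDegree_le _)) x
  rw [hfun]
  have hsum := HasDerivAt.fun_sum (u := Finset.range (m + 1))
    (fun j _ => (hΨ.hasDerivAt_coeff j z).mul_const (x ^ j))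
  refine hsum.congr_deriv ?_
  have hdeg : (C (f z) * (X - C (z : ℂ)) ^ m).natDegree < m + 1 := by
    refine Nat.lt_succ_of_le ((Polynomial.natDegree_C_mul_le _ _).trans ?_)
    refine (Polynomial.natDegree_pow_le).trans ?_
    rw [Polynomial.natDegree_X_sub_C, mul_one]
  rw [← Polynomial.eval_eq_sum_range' hdeg x]
  simp

/-- An Eichler primitive for `m = 0` is an honest primitive. -/
theorem exists_prim_of_eichler {h : ℝ}
    (hC : ∀ φ : ℍ → ℂ, IsPerDecay h φ → ∃ Ψ₀ : ℍ → ℂ[X], IsEichlerPrim 0 φ Ψ₀ ∧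
      IsPerDecay h (fun z => (Ψ₀ z).eval (z : ℂ)))
    (φ : ℍ → ℂ) (hφ : IsPerDecay h φ) :
    ∃ Φ : ℍ → ℂ, IsPerDecay h Φ ∧ ∀ z : ℍ, HasDerivAt (Φ ∘ ofComplex) (φ z) (z : ℂ) := by
  obtain ⟨Ψ₀, h1, h2⟩ := hC φ hφ
  refine ⟨fun z => (Ψ₀ z).eval (z : ℂ), h2, fun z => ?_⟩
  have hfun : ((fun z : ℍ => (Ψ₀ z).eval (z : ℂ)) ∘ ofComplex) =
      fun w : ℂ => (Ψ₀ (ofComplex w)).coeff 0 := by
    funext w
    have := Polynomial.eq_C_of_natDegree_le_zero (h1.natDegree_le (ofComplex w))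
    simp only [Function.comp]
    rw [this]
    simp
  rw [hfun]
  have := h1.hasDerivAt_coeff 0 z
  simpa using this

theorem polyAct_eval_aux {m : ℕ} {P : ℂ[X]} (hP : P.natDegree ≤ m) (a b c d x : ℂ)
    (hx : c * x + d ≠ 0) :
    (polyAct m a b c d P).eval x = (c * x + d) ^ m * P.eval ((a * x + b) / (c * x + d)) := by
  rw [Polynomial.eval_eq_sum_range' (Nat.lt_succ_of_le hP), Finset.mul_sum]
  simp only [polyAct, Polynomial.eval_finsetSum, Polynomial.eval_mul, Polynomial.eval_C,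
    Polynomial.eval_pow, Polynomial.eval_add, Polynomial.eval_X]
  refine Finset.sum_congr rfl fun j hj => ?_
  have hj' : j ≤ m := Nat.lt_succ_iff.mp (Finset.mem_range.mp hj)
  generalize c * x + d = u at hx
  have : u ^ m = u ^ j * u ^ (m - j) := by
    rw [← pow_add, Nat.add_sub_cancel' hj']
  rw [this, div_pow]
  field_simp

theorem polyActGL_eval_diag {m : ℕ} (α : GL (Fin 2) ℝ) (hα : 0 < α.det.val) {P : ℂ[X]}
    (hP : P.natDegree ≤ m) (z : ℍ) :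
    (polyActGL m α P).eval (z : ℂ) = denom α z ^ m * P.eval ((α • z : ℍ) : ℂ) := by
  rw [coe_smul_of_det_pos hα]
  unfold polyActGL
  rw [polyAct_eval_aux hP _ _ _ _ _ (denom_ne_zero α z)]
  rfl

theorem det_coe_SL_pos (σ : SL(2, ℤ)) : 0 < ((σ : GL (Fin 2) ℝ)).det.val := by
  simp

/-- The diagonal of `Ψ` slashed in weight `-m` is the diagonal of the transform. -/
theorem diag_slash_eq {m : ℕ} {Ψ : ℍ → ℂ[X]} (hdeg : ∀ z, (Ψ z).natDegree ≤ m) (σ : SL(2, ℤ))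
    (z : ℍ) :
    ((fun z : ℍ => (Ψ z).eval (z : ℂ)) ∣[(-(m : ℤ))] σ) z =
      (transform m (σ : GL (Fin 2) ℝ) Ψ z).eval (z : ℂ) := by
  rw [ModularForm.SL_slash_apply, neg_neg, zpow_natCast]
  unfold transform
  rw [polyActGL_eval_diag _ (det_coe_SL_pos σ) (hdeg _) z, mul_comm]
  rfl

/-- `Γ₀(N)`-invariant functions slashed by `σ ∈ SL(2,ℤ)` are `N`-periodic. -/
theorem slash_periodic (N : ℕ) (k' : ℤ) (g : ℍ → ℂ)
    (hinv : ∀ γ : SL(2, ℤ), γ ∈ Gamma0 N → g ∣[k'] γ = g) (σ : SL(2, ℤ)) (z : ℍ) :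
    (g ∣[k'] σ) ((N : ℝ) +ᵥ z) = (g ∣[k'] σ) z := by
  set τ : SL(2, ℤ) := ModularGroup.T ^ (N : ℤ) with hτdef
  have hτ : τ ∈ Gamma N := by
    have := ModularGroup_T_pow_mem_Gamma (N : ℤ) (N : ℤ) dvd_rfl
    rwa [Int.natAbs_natCast] at this
  have hγ' : σ * τ * σ⁻¹ ∈ Gamma0 N := by
    have h1 : σ * τ * σ⁻¹ ∈ Gamma N := (Gamma_normal N).conj_mem τ hτ σ
    rw [Gamma_mem] at h1
    rw [Gamma0_mem]
    exact h1.2.2.1
  have h2 : (g ∣[k'] σ) ∣[k'] τ = g ∣[k'] σ := by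
    rw [← SlashAction.slash_mul, show σ * τ = (σ * τ * σ⁻¹) * σ by group,
      SlashAction.slash_mul, hinv _ hγ']
  have h3 := congrFun h2 z
  rw [ModularForm.SL_slash_apply] at h3
  have h4 : τ • z = ((N : ℤ) : ℝ) +ᵥ z := UpperHalfPlane.modular_T_zpow_smul z N
  have e10 : τ.1 1 0 = 0 := by
    rw [hτdef, ModularGroup.coe_T_zpow]
    rfl
  have e11 : τ.1 1 1 = 1 := by
    rw [hτdef, ModularGroup.coe_T_zpow]
    rfl
  have h5 : denom τ z = 1 := by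
    rw [ModularGroup.denom_apply]
    have e10' : (τ 1 0 : ℤ) = 0 := e10
    have e11' : (τ 1 1 : ℤ) = 1 := e11
    rw [e10', e11']
    simp
  rw [h4, h5] at h3
  simpa using h3

/-- Key step: the weight `-m` translate of the diagonal by `σ` is, up to an additive constant,
`m!` times the top element of a chain of periodic decaying primitives of `fσ`. -/
theorem key (N : ℕ) [NeZero N] {m : ℕ} (Ψ : ℍ → ℂ[X]) (hdeg : ∀ z, (Ψ z).natDegree ≤ m)
    (hprim : ∀ φ : ℍ → ℂ, IsPerDecay (N : ℝ) φ →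
      ∃ Φ : ℍ → ℂ, IsPerDecay (N : ℝ) Φ ∧ ∀ z : ℍ, HasDerivAt (Φ ∘ ofComplex) (φ z) (z : ℂ))
    (hinvG : ∀ γ : SL(2, ℤ), γ ∈ Gamma0 N →
      (fun z : ℍ => (Ψ z).eval (z : ℂ)) ∣[(-(m : ℤ))] γ = fun z : ℍ => (Ψ z).eval (z : ℂ))
    (σ : SL(2, ℤ)) (fσ : ℍ → ℂ) (hF : IsPerDecay (N : ℝ) fσ)
    (hD : IsEichlerPrim m fσ (transform m (σ : GL (Fin 2) ℝ) Ψ)) :
    ∃ (I : ℕ → ℍ → ℂ) (c : ℂ), IsChain (N : ℝ) fσ I ∧
      ∀ z : ℍ, ((fun z : ℍ => (Ψ z).eval (z : ℂ)) ∣[(-(m : ℤ))] σ) z =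
        (m.factorial : ℂ) * I (m + 1) z + c := by
  obtain ⟨I, hI⟩ := exists_chain hprim hF
  have hconst : ∀ (x : ℂ) (z w : ℍ),
      (transform m (σ : GL (Fin 2) ℝ) Ψ z).eval x - (psi m I z).eval x =
        (transform m (σ : GL (Fin 2) ℝ) Ψ w).eval x - (psi m I w).eval x := by
    intro x z w
    have := sub_eq_sub_of_hasDerivAt
      (A := fun u : ℂ => (transform m (σ : GL (Fin 2) ℝ) Ψ (ofComplex u)).eval x)
      (B := fun u : ℂ => (psi m I (ofComplex u)).eval x)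
      (d := fun u : ℂ => fσ (ofComplex u) * (x - u) ^ m) ?_ ?_ z w
    · simpa [ofComplex_apply] using this
    · intro z
      have := hasDerivAt_eval hD x z
      simpa [ofComplex_apply] using this
    · intro z
      have := psi_hasDerivAt hI m x z
      simpa [ofComplex_apply] using this
  set z₀ : ℍ := UpperHalfPlane.I with hz₀
  set Q : ℂ[X] := transform m (σ : GL (Fin 2) ℝ) Ψ z₀ - psi m I z₀ with hQdef
  have hQ : ∀ z : ℍ, ((fun z : ℍ => (Ψ z).eval (z : ℂ)) ∣[(-(m : ℤ))] σ) z -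
      (m.factorial : ℂ) * I (m + 1) z = Q.eval (z : ℂ) := by
    intro z
    rw [diag_slash_eq hdeg, ← psi_diag, hQdef, Polynomial.eval_sub]
    exact hconst z z z₀
  have hper : ∀ z : ℍ, Q.eval ((((N : ℝ) +ᵥ z : ℍ)) : ℂ) = Q.eval (z : ℂ) := by
    intro z
    rw [← hQ, ← hQ, slash_periodic N _ _ hinvG σ z, (hI.perDecay (m + 1)).periodic z]
  have hstep : ∀ n : ℕ, Q.eval ((z₀ : ℂ) + n * (N : ℂ)) = Q.eval (z₀ : ℂ) := by
    intro n
    induction n with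
    | zero => simp
    | succ n ih =>
      have h1 := hper (((n * N : ℕ) : ℝ) +ᵥ z₀)
      simp only [coe_vadd] at h1
      rw [← ih]
      convert h1 using 2 <;> push_cast <;> ring
  have hN : (N : ℂ) ≠ 0 := by exact_mod_cast NeZero.ne N
  have hQC := poly_eq_C_of_periodic hN hstep
  refine ⟨I, Q.eval (z₀ : ℂ), hI, fun z => ?_⟩
  have h := hQ z
  rw [hQC] at h
  simp only [Polynomial.eval_C] at h
  linear_combination h

/-- Separation, with the inputs from tasks C, D, F as explicit hypotheses. -/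
theorem separation_of (N : ℕ) [NeZero N] {m : ℕ} {k : ℤ}
    (f : CuspForm (Gamma0 N) k) (Ψ : ℍ → ℂ[X]) (hΨ : IsEichlerPrim m f Ψ)
    (hdiag : IsPerDecay 1 (fun z => (Ψ z).eval (z : ℂ)))
    (hinv : ∀ γ ∈ Gamma0 N, transform m (γ : GL (Fin 2) ℝ) Ψ = Ψ)
    (hC : ∀ φ : ℍ → ℂ, IsPerDecay (N : ℝ) φ → ∃ Ψ₀ : ℍ → ℂ[X], IsEichlerPrim 0 φ Ψ₀ ∧
      IsPerDecay (N : ℝ) (fun z => (Ψ₀ z).eval (z : ℂ)))
    (hD : ∀ σ : SL(2, ℤ), IsEichlerPrim m ((f : ℍ → ℂ) ∣[k] (σ : GL (Fin 2) ℝ))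
      (transform m (σ : GL (Fin 2) ℝ) Ψ))
    (hF : ∀ σ : SL(2, ℤ), IsPerDecay (N : ℝ) ((f : ℍ → ℂ) ∣[k] (σ : GL (Fin 2) ℝ))) :
    f = 0 := by
  have hinvG : ∀ γ : SL(2, ℤ), γ ∈ Gamma0 N →
      (fun z : ℍ => (Ψ z).eval (z : ℂ)) ∣[(-(m : ℤ))] γ = fun z : ℍ => (Ψ z).eval (z : ℂ) := by
    intro γ hγ
    funext z
    rw [diag_slash_eq hΨ.natDegree_le γ z, hinv γ hγ]
  have hkey := fun σ : SL(2, ℤ) =>
    key N Ψ hΨ.natDegree_le (exists_prim_of_eichler hC) hinvG σ _ (hF σ) (hD σ)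
  have hbdd : ∀ σ : SL(2, ℤ),
      IsBoundedAtImInfty ((fun z : ℍ => (Ψ z).eval (z : ℂ)) ∣[(-(m : ℤ))] σ) := by
    intro σ
    obtain ⟨I, c, hI, hform⟩ := hkey σ
    have hfun : ((fun z : ℍ => (Ψ z).eval (z : ℂ)) ∣[(-(m : ℤ))] σ) =
        ((m.factorial : ℂ) • I (m + 1)) + fun _ => c := by
      funext z
      simpa using hform z
    rw [hfun]
    exact ((hI.perDecay (m + 1)).zero_at.boundedAtFilter.smul _).add (const_boundedAtFilter _ c)
  have hG0 : (fun z : ℍ => (Ψ z).eval (z : ℂ)) = 0 :=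
    eq_zero_of_invariant_of_bounded N (by omega : (-(m : ℤ)) ≤ 0) _ hdiag.mdiff hinvG hbdd
      hdiag.zero_at
  obtain ⟨I, c, hI, hform⟩ := hkey 1
  have hI1 : ∀ z : ℍ, I (m + 1) z = -c / (m.factorial : ℂ) := by
    intro z
    have h := hform z
    rw [hG0] at h
    have hfact : (m.factorial : ℂ) ≠ 0 := by exact_mod_cast m.factorial_ne_zero
    have h0 : ((0 : ℍ → ℂ) ∣[(-(m : ℤ))] (1 : SL(2, ℤ))) z = 0 := by
      simp [SlashAction.zero_slash]
    rw [h0] at h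
    field_simp
    linear_combination -h
  have hIm : I m = 0 := by
    funext z
    have h1 := hI.deriv m z
    have h2 : HasDerivAt (I (m + 1) ∘ ofComplex) 0 (z : ℂ) := by
      have : (I (m + 1) ∘ ofComplex) = fun _ => -c / (m.factorial : ℂ) := by
        funext w
        exact hI1 _
      rw [this]
      exact hasDerivAt_const _ _
    exact h1.unique h2
  have hf0 := hI.eq_zero_of_eq_zero hIm
  ext z
  have := congrFun hf0 z
  simpa using this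

end Fermat.Agent.S22.H24
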