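import Mathlib
import Fermat.Agent.S22.Defs
import Fermat.Agent.S22.PolyAct_helper36

/-! Task D for S22: the transformation law of Eichler primitives (canonical, coefficientwise
shape), and stability of the normalisation at `i∞` under upper triangular matrices. -/

set_option autoImplicit false

namespace Fermat.Agent.S22.H27

open Polynomial UpperHalfPlane Filter Topology
open scoped MatrixGroups ModularForm Manifold
open Fermat.Agent.S22

/-- coefficients of `polyAct` as a finite sum -/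
theorem polyAct_coeff_eq_sum {R : Type*} [CommRing R] (m : ℕ) (a b c d : R) (P : R[X]) (j : ℕ) :
    (polyAct m a b c d P).coeff j = ∑ i ∈ Finset.range (m + 1),
      P.coeff i * ((C a * X + C b) ^ i * (C c * X + C d) ^ (m - i)).coeff j := by
  unfold polyAct
  rw [Polynomial.finsetSum_coeff]
  refine Finset.sum_congr rfl fun i _ => ?_
  rw [mul_assoc, Polynomial.coeff_C_mul]

theorem transform_coeff_eq_sum (m : ℕ) (α : GL (Fin 2) ℝ) (Ψ : ℍ → ℂ[X]) (z : ℍ) (j : ℕ) :
    (transform m α Ψ z).coeff j = ∑ i ∈ Finset.range (m + 1),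
      (Ψ (α • z)).coeff i *
        ((C ((α 0 0 : ℝ) : ℂ) * X + C ((α 0 1 : ℝ) : ℂ)) ^ i *
          (C ((α 1 0 : ℝ) : ℂ) * X + C ((α 1 1 : ℝ) : ℂ)) ^ (m - i)).coeff j := by
  unfold transform polyActGL
  exact polyAct_coeff_eq_sum m _ _ _ _ _ j

theorem isEichlerPrim_transform {m : ℕ} {k : ℤ} (hk : k = (m : ℤ) + 2) {f : ℍ → ℂ}
    {Ψ : ℍ → ℂ[X]} (hΨ : IsEichlerPrim m f Ψ) (α : GL (Fin 2) ℝ) (hα : 0 < α.val.det) :
    IsEichlerPrim m (f ∣[k] α) (transform m α Ψ) where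
  natDegree_le z := H36.polyAct_natDegree_le _ _ _ _ _ _
  hasDerivAt_coeff j z := by
    have hα' : 0 < α.det.val := by simpa using hα
    have hinner := (hasStrictDerivAt_smul hα z).hasDerivAt
    have hterm : ∀ i : ℕ, HasDerivAt (fun w : ℂ => (Ψ (α • ofComplex w)).coeff i)
        ((C (f (α • z)) * (X - C ((α • z : ℍ) : ℂ)) ^ m).coeff i *
          ((α.val.det : ℝ) / denom α z ^ 2)) (z : ℂ) := by
      intro i
      have h1 := hΨ.hasDerivAt_coeff i (α • z)
      have h2 : HasDerivAt (fun w : ℂ => (Ψ (ofComplex w)).coeff i)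
          ((C (f (α • z)) * (X - C ((α • z : ℍ) : ℂ)) ^ m).coeff i)
          ((fun w : ℂ => ((α • ofComplex w : ℍ) : ℂ)) (z : ℂ)) := by
        simpa [ofComplex_apply] using h1
      have h3 := h2.comp (z : ℂ) hinner
      simpa [Function.comp_def, ofComplex_apply] using h3
    have hfun : (fun w : ℂ => (transform m α Ψ (ofComplex w)).coeff j) =
        fun w : ℂ => ∑ i ∈ Finset.range (m + 1), (Ψ (α • ofComplex w)).coeff i *
          ((C ((α 0 0 : ℝ) : ℂ) * X + C ((α 0 1 : ℝ) : ℂ)) ^ i *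
            (C ((α 1 0 : ℝ) : ℂ) * X + C ((α 1 1 : ℝ) : ℂ)) ^ (m - i)).coeff j := by
      funext w
      exact transform_coeff_eq_sum m α Ψ _ j
    rw [hfun]
    have hsum := HasDerivAt.fun_sum (u := Finset.range (m + 1)) fun i _ =>
      (hterm i).mul_const
        (((C ((α 0 0 : ℝ) : ℂ) * X + C ((α 0 1 : ℝ) : ℂ)) ^ i *
            (C ((α 1 0 : ℝ) : ℂ) * X + C ((α 1 1 : ℝ) : ℂ)) ^ (m - i)).coeff j)
    refine HasDerivAt.congr_deriv hsum ?_
    -- the value of the derivative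
    have hden : denom α z ≠ 0 := denom_ne_zero α z
    have hu : ((α • z : ℍ) : ℂ) = num α z / denom α z := coe_smul_of_det_pos hα' z
    have hdetC : ((α.val.det : ℝ) : ℂ) =
        ((α 0 0 : ℝ) : ℂ) * ((α 1 1 : ℝ) : ℂ) - ((α 0 1 : ℝ) : ℂ) * ((α 1 0 : ℝ) : ℂ) := by
      rw [Matrix.det_fin_two]
      push_cast
      rfl
    have hlin : C (((α 0 0 : ℝ) : ℂ) - ((α • z : ℍ) : ℂ) * ((α 1 0 : ℝ) : ℂ)) * X +
        C (((α 0 1 : ℝ) : ℂ) - ((α • z : ℍ) : ℂ) * ((α 1 1 : ℝ) : ℂ)) =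
        C (((α.val.det : ℝ) : ℂ) / denom α z) * (X - C (z : ℂ)) := by
      have e1 : ((α 0 0 : ℝ) : ℂ) - ((α • z : ℍ) : ℂ) * ((α 1 0 : ℝ) : ℂ) =
          ((α.val.det : ℝ) : ℂ) / denom α z := by
        rw [hu, hdetC]
        field_simp
        simp only [num, denom]
        ring
      have e2 : ((α 0 1 : ℝ) : ℂ) - ((α • z : ℍ) : ℂ) * ((α 1 1 : ℝ) : ℂ) =
          -(((α.val.det : ℝ) : ℂ) / denom α z * (z : ℂ)) := by
        rw [hu, hdetC]
        field_simp
        simp only [num, denom]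
        ring
      rw [e1, e2, mul_sub, ← C_mul, C_neg]
      ring
    have hsl : (f ∣[k] α) z =
        f (α • z) * (((α.val.det : ℝ) : ℂ) / denom α z) ^ m *
          (((α.val.det : ℝ) : ℂ) / denom α z ^ 2) := by
      rw [ModularForm.slash_apply]
      have hσ : σ α (f (α • z)) = f (α • z) := by simp [σ, hα]
      have habs : |α.det.val| = α.val.det := by
        rw [abs_of_pos hα']
        simp
      rw [hσ, habs, hk]
      have hdet0 : ((α.val.det : ℝ) : ℂ) ≠ 0 := by exact_mod_cast hα.ne'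
      have e1 : ((m : ℤ) + 2 - 1) = ((m + 1 : ℕ) : ℤ) := by push_cast; ring
      have e2 : (-((m : ℤ) + 2)) = -((m + 2 : ℕ) : ℤ) := by push_cast; ring
      rw [e1, e2, zpow_natCast, zpow_neg, zpow_natCast]
      simp only [div_eq_mul_inv]
      ring
    have hsumeq : ∑ i ∈ Finset.range (m + 1),
        (C (f (α • z)) * (X - C ((α • z : ℍ) : ℂ)) ^ m).coeff i *
          ((α.val.det : ℝ) / denom α z ^ 2) *
          ((C ((α 0 0 : ℝ) : ℂ) * X + C ((α 0 1 : ℝ) : ℂ)) ^ i *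
            (C ((α 1 0 : ℝ) : ℂ) * X + C ((α 1 1 : ℝ) : ℂ)) ^ (m - i)).coeff j =
        ((α.val.det : ℝ) / denom α z ^ 2) *
          (polyAct m ((α 0 0 : ℝ) : ℂ) ((α 0 1 : ℝ) : ℂ) ((α 1 0 : ℝ) : ℂ) ((α 1 1 : ℝ) : ℂ)
            (C (f (α • z)) * (X - C ((α • z : ℍ) : ℂ)) ^ m)).coeff j := by
      rw [polyAct_coeff_eq_sum, Finset.mul_sum]
      refine Finset.sum_congr rfl fun i _ => ?_
      ring
    rw [hsumeq, H36.polyAct_C_mul, H36.polyAct_X_sub_C_pow, hlin, mul_pow, ← C_pow, ← mul_assoc,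
      ← C_mul, coeff_C_mul, coeff_C_mul, hsl]
    ring

theorem vanishesAtTop_transform {m : ℕ} {Ψ : ℍ → ℂ[X]} (hΨ : VanishesAtTop Ψ)
    (α : GL (Fin 2) ℝ) (h10 : α 1 0 = 0) (h00 : 0 < α 0 0) (h11 : 0 < α 1 1) :
    VanishesAtTop (transform m α Ψ) := by
  intro j z
  have hdet : 0 < α.det.val := by
    have h : α.det.val = α.val.det := by simp
    rw [h, Matrix.det_fin_two]
    have h10' : α.val 1 0 = 0 := h10
    rw [h10', mul_zero, sub_zero]
    exact mul_pos h00 h11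
  have h11C : ((α 1 1 : ℝ) : ℂ) ≠ 0 := by exact_mod_cast h11.ne'
  have key : ∀ t : ℝ, 0 < t → α • ofComplex ((z : ℂ) + (t : ℂ) * Complex.I) =
      ofComplex (((α • z : ℍ) : ℂ) + (((α 0 0 / α 1 1 * t : ℝ)) : ℂ) * Complex.I) := by
    intro t ht
    have him : 0 < ((z : ℂ) + (t : ℂ) * Complex.I).im := by
      simp only [Complex.add_im, Complex.mul_im, Complex.ofReal_re, Complex.I_im, mul_one,
        Complex.ofReal_im, Complex.I_re, mul_zero, add_zero]
      have := z.im_pos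
      change 0 < (z : ℂ).im + t
      have h2 : 0 < (z : ℂ).im := z.im_pos
      linarith
    have hs : 0 < α 0 0 / α 1 1 * t := mul_pos (div_pos h00 h11) ht
    have him' : 0 < (((α • z : ℍ) : ℂ) + (((α 0 0 / α 1 1 * t : ℝ)) : ℂ) * Complex.I).im := by
      simp only [Complex.add_im, Complex.mul_im, Complex.ofReal_re, Complex.I_im, mul_one,
        Complex.ofReal_im, Complex.I_re, mul_zero, add_zero]
      have h2 : 0 < ((α • z : ℍ) : ℂ).im := (α • z).im_pos
      linarith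
    rw [ofComplex_apply_of_im_pos him, ofComplex_apply_of_im_pos him']
    apply UpperHalfPlane.ext
    rw [coe_smul_of_det_pos hdet]
    change _ = ((α • z : ℍ) : ℂ) + (((α 0 0 / α 1 1 * t : ℝ)) : ℂ) * Complex.I
    rw [coe_smul_of_det_pos hdet]
    simp only [num, denom, h10]
    push_cast
    simp only [zero_mul, zero_add]
    field_simp
    ring
  have hterm : ∀ i : ℕ, Tendsto
      (fun t : ℝ => (Ψ (α • ofComplex ((z : ℂ) + (t : ℂ) * Complex.I))).coeff i)
      atTop (𝓝 0) := by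
    intro i
    have h1 := hΨ i (α • z)
    have h2 : Tendsto (fun t : ℝ => α 0 0 / α 1 1 * t) atTop atTop :=
      tendsto_id.const_mul_atTop (div_pos h00 h11)
    refine (h1.comp h2).congr' ?_
    filter_upwards [eventually_gt_atTop 0] with t ht
    simp only [Function.comp_apply]
    rw [key t ht]
  have hsum : Tendsto (fun t : ℝ => ∑ i ∈ Finset.range (m + 1),
      (Ψ (α • ofComplex ((z : ℂ) + (t : ℂ) * Complex.I))).coeff i *
        ((C ((α 0 0 : ℝ) : ℂ) * X + C ((α 0 1 : ℝ) : ℂ)) ^ i *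
          (C ((α 1 0 : ℝ) : ℂ) * X + C ((α 1 1 : ℝ) : ℂ)) ^ (m - i)).coeff j) atTop
      (𝓝 (∑ i ∈ Finset.range (m + 1), (0 : ℂ) *
        ((C ((α 0 0 : ℝ) : ℂ) * X + C ((α 0 1 : ℝ) : ℂ)) ^ i *
          (C ((α 1 0 : ℝ) : ℂ) * X + C ((α 1 1 : ℝ) : ℂ)) ^ (m - i)).coeff j)) :=
    tendsto_finsetSum _ fun i _ => (hterm i).mul_const _
  simp only [zero_mul, Finset.sum_const_zero] at hsum
  refine hsum.congr fun t => ?_
  exact (transform_coeff_eq_sum m α Ψ _ j).symm

end Fermat.Agent.S22.H27
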