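import Mathlib
import Fermat.Prelude.Def_CuspForm_HeckeAlgebra
import Fermat.Agent.S22.Defs
import Fermat.Agent.S22.PolyAct_helper36
import Fermat.Agent.S22.PerPrim_helper26
import Fermat.Agent.S22.SepMain_helper24
import Fermat.Agent.S22.Nice_helper25
import Fermat.Agent.S22.HeckeFormal_helper23
import Fermat.Agent.S22.HeckeDecomp_helper56
import Fermat.Agent.S22.Transform_helper27

/-! Glue layer for the S22 assembly: collects, under one namespace and in the shapes used by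
`Assembly.lean`, the results proved in the team's library files. -/

set_option autoImplicit false

namespace Fermat.Agent.S22.Glue

open Polynomial UpperHalfPlane Filter Topology CongruenceSubgroup
open scoped MatrixGroups ModularForm Manifold
open Fermat.Agent.S22

/-! ### PA -/

theorem polyAct_natDegree_le {R : Type*} [CommRing R] (m : ℕ) (a b c d : R) (P : R[X]) :
    (polyAct m a b c d P).natDegree ≤ m := H36.polyAct_natDegree_le m a b c d P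

theorem polyAct_add {R : Type*} [CommRing R] (m : ℕ) (a b c d : R) (P Q : R[X]) :
    polyAct m a b c d (P + Q) = polyAct m a b c d P + polyAct m a b c d Q :=
  H36.polyAct_add m a b c d P Q

theorem polyAct_C_mul {R : Type*} [CommRing R] (m : ℕ) (a b c d r : R) (P : R[X]) :
    polyAct m a b c d (C r * P) = C r * polyAct m a b c d P := H36.polyAct_C_mul m a b c d r P

theorem polyAct_coeff_int (m : ℕ) (a b c d : ℤ) :
    ∃ A : Matrix (Fin (m + 1)) (Fin (m + 1)) ℤ, ∀ P : ℂ[X], P.natDegree ≤ m → ∀ i : Fin (m + 1),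
      (polyAct m (a : ℂ) b c d P).coeff i = ∑ j : Fin (m + 1), (A i j : ℂ) * P.coeff j :=
  H36.polyAct_coeff_int m a b c d

/-! ### C -/

theorem exists_eichlerPrim {h : ℝ} (hh : 0 < h) {φ : ℍ → ℂ} (hφ : IsPerDecay h φ) (m : ℕ) :
    ∃ Ψ : ℍ → ℂ[X], IsEichlerPrim m φ Ψ ∧ VanishesAtTop Ψ ∧
      IsPerDecay h (fun z => (Ψ z).eval (z : ℂ)) := H26.exists_eichlerPrim hh hφ m

theorem IsEichlerPrim.exists_const_diff {m : ℕ} {f : ℍ → ℂ} {Ψ₁ Ψ₂ : ℍ → ℂ[X]}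
    (h₁ : IsEichlerPrim m f Ψ₁) (h₂ : IsEichlerPrim m f Ψ₂) :
    ∃ Q : ℂ[X], Q.natDegree ≤ m ∧ ∀ z, Ψ₁ z = Ψ₂ z + Q :=
  H26.IsEichlerPrim.exists_const_diff h₁ h₂

theorem IsEichlerPrim.unique {m : ℕ} {f : ℍ → ℂ} {Ψ₁ Ψ₂ : ℍ → ℂ[X]}
    (h₁ : IsEichlerPrim m f Ψ₁) (h₂ : IsEichlerPrim m f Ψ₂)
    (v₁ : VanishesAtTop Ψ₁) (v₂ : VanishesAtTop Ψ₂) : Ψ₁ = Ψ₂ :=
  H26.IsEichlerPrim.unique h₁ h₂ v₁ v₂

theorem IsEichlerPrim.add {m : ℕ} {f g : ℍ → ℂ} {Ψ Ξ : ℍ → ℂ[X]}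
    (h₁ : IsEichlerPrim m f Ψ) (h₂ : IsEichlerPrim m g Ξ) :
    IsEichlerPrim m (f + g) (Ψ + Ξ) := H26.IsEichlerPrim.add h₁ h₂

theorem IsEichlerPrim.const_smul {m : ℕ} {f : ℍ → ℂ} {Ψ : ℍ → ℂ[X]}
    (h₁ : IsEichlerPrim m f Ψ) (c : ℂ) :
    IsEichlerPrim m (c • f) (fun z => C c * Ψ z) := H26.IsEichlerPrim.const_smul h₁ c

theorem VanishesAtTop.add {Ψ Ξ : ℍ → ℂ[X]} (h₁ : VanishesAtTop Ψ) (h₂ : VanishesAtTop Ξ) :
    VanishesAtTop (Ψ + Ξ) := H26.VanishesAtTop.add h₁ h₂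

theorem VanishesAtTop.const_smul {Ψ : ℍ → ℂ[X]} (h₁ : VanishesAtTop Ψ) (c : ℂ) :
    VanishesAtTop (fun z => C c * Ψ z) := H26.VanishesAtTop.const_smul h₁ c

/-! ### D -/

theorem IsEichlerPrim.transform {m : ℕ} {k : ℤ} (hk : k = (m : ℤ) + 2) {f : ℍ → ℂ}
    {Ψ : ℍ → ℂ[X]} (hΨ : IsEichlerPrim m f Ψ) (α : GL (Fin 2) ℝ) (hα : 0 < α.val.det) :
    IsEichlerPrim m (f ∣[k] α) (transform m α Ψ) := H27.isEichlerPrim_transform hk hΨ α hα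

theorem VanishesAtTop.transform {m : ℕ} {Ψ : ℍ → ℂ[X]} (hΨ : VanishesAtTop Ψ)
    (_hdeg : ∀ z, (Ψ z).natDegree ≤ m)
    (α : GL (Fin 2) ℝ) (h10 : α 1 0 = 0) (h00 : 0 < α 0 0) (h11 : 0 < α 1 1) :
    VanishesAtTop (transform m α Ψ) := H27.vanishesAtTop_transform hΨ α h10 h00 h11

/-! ### F -/

theorem cuspForm_isPerDecay (N : ℕ) [NeZero N] (k : ℤ) (f : CuspForm (Gamma0 N) k) :
    IsPerDecay 1 f := H25.cuspForm_isPerDecay N k f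

theorem cuspForm_slash_isPerDecay (N : ℕ) [NeZero N] (k : ℤ) (f : CuspForm (Gamma0 N) k)
    (σ : SL(2, ℤ)) : IsPerDecay N ((f : ℍ → ℂ) ∣[k] (σ : GL (Fin 2) ℝ)) :=
  H25.cuspForm_slash_isPerDecay N k f σ

/-! ### E -/

theorem separation (N : ℕ) [NeZero N] {m : ℕ} {k : ℤ} (hk : k = (m : ℤ) + 2)
    (f : CuspForm (Gamma0 N) k) (Ψ : ℍ → ℂ[X]) (hΨ : IsEichlerPrim m f Ψ)
    (hdiag : IsPerDecay 1 (fun z => (Ψ z).eval (z : ℂ)))
    (hinv : ∀ γ ∈ Gamma0 N, transform m (γ : GL (Fin 2) ℝ) Ψ = Ψ) : f = 0 :=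
  H24.separation_of N f Ψ hΨ hdiag hinv
    (fun _ hφ =>
      let ⟨Ψ₀, h1, _, h3⟩ := exists_eichlerPrim (Nat.cast_pos.mpr (NeZero.pos N)) hφ 0
      ⟨Ψ₀, h1, h3⟩)
    (fun σ => IsEichlerPrim.transform hk hΨ σ (H24.det_coe_SL_pos σ))
    (fun σ => cuspForm_slash_isPerDecay N k f σ)

/-! ### H1 -/

theorem transform_mul {m : ℕ} {Ψ : ℍ → ℂ[X]} (hdeg : ∀ z, (Ψ z).natDegree ≤ m)
    (α β : GL (Fin 2) ℝ) :
    transform m (α * β) Ψ = transform m β (transform m α Ψ) := H23.transform_mul hdeg α β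

theorem transform_one {m : ℕ} {Ψ : ℍ → ℂ[X]} (hdeg : ∀ z, (Ψ z).natDegree ≤ m) :
    transform m 1 Ψ = Ψ := H23.transform_one hdeg

theorem transform_add (m : ℕ) (α : GL (Fin 2) ℝ) (Ψ Ξ : ℍ → ℂ[X]) :
    transform m α (Ψ + Ξ) = transform m α Ψ + transform m α Ξ := H23.transform_add m α Ψ Ξ

theorem cocycle_hecke {m : ℕ} {ι : Type*} [Fintype ι] (rep : ι → GL (Fin 2) ℝ)
    {Ψ : ℍ → ℂ[X]} (hdeg : ∀ z, (Ψ z).natDegree ≤ m) (γ : GL (Fin 2) ℝ) (σ : Equiv.Perm ι)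
    (γ' : ι → GL (Fin 2) ℝ) (hmul : ∀ x, rep x * γ = γ' x * rep (σ x)) (R : ι → ℂ[X])
    (hR : ∀ x z, transform m (γ' x) Ψ z = Ψ z + R x) (z : ℍ) :
    transform m γ (∑ x, transform m (rep x) Ψ) z =
      (∑ x, transform m (rep x) Ψ) z + ∑ x, polyActGL m (rep (σ x)) (R x) :=
  H23.cocycle_hecke rep hdeg γ σ γ' hmul R hR z

theorem isEichlerPrim_sum_transform {m : ℕ} {k : ℤ} (hk : k = (m : ℤ) + 2) {f : ℍ → ℂ}
    {Ψ : ℍ → ℂ[X]} (hΨ : IsEichlerPrim m f Ψ) (hv : VanishesAtTop Ψ)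
    {ι : Type*} [Fintype ι] (rep : ι → GL (Fin 2) ℝ)
    (h10 : ∀ x, rep x 1 0 = 0) (h00 : ∀ x, 0 < rep x 0 0) (h11 : ∀ x, 0 < rep x 1 1) :
    IsEichlerPrim m (∑ x, f ∣[k] rep x) (∑ x, transform m (rep x) Ψ) ∧
      VanishesAtTop (∑ x, transform m (rep x) Ψ) :=
  H23.isEichlerPrim_sum_transform_of rep
    (fun x => IsEichlerPrim.transform hk hΨ (rep x)
      (H23.det_pos_of_upper (h10 x) (h00 x) (h11 x)))
    (fun x => VanishesAtTop.transform hv hΨ.natDegree_le (rep x) (h10 x) (h00 x) (h11 x))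

/-! ### H2 -/

theorem heckeT_decomp {N p : ℕ} (hp : p.Prime) (hpN : ¬ p ∣ N) (g : SL(2, ℤ))
    (hg : g ∈ Gamma0 N) :
    ∃ (σ : Equiv.Perm (Option (Fin p))) (g' : Option (Fin p) → SL(2, ℤ)),
      (∀ x, g' x ∈ Gamma0 N) ∧
      ∀ x, (x.elim (ModularForm.heckeDiagMatrix p) fun j => ModularForm.heckeMatrix p j) *
          (g : GL (Fin 2) ℝ) =
        (g' x : GL (Fin 2) ℝ) *
          ((σ x).elim (ModularForm.heckeDiagMatrix p) fun j => ModularForm.heckeMatrix p j) :=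
  H56.heckeT_decomp hp hpN g hg

theorem heckeU_decomp {N p : ℕ} (hp : p ≠ 0) (hpN : p ∣ N) (g : SL(2, ℤ))
    (hg : g ∈ Gamma0 N) :
    ∃ (σ : Equiv.Perm (Fin p)) (g' : Fin p → SL(2, ℤ)),
      (∀ x, g' x ∈ Gamma0 N) ∧
      ∀ x : Fin p, ModularForm.heckeMatrix p (x : ℕ) * (g : GL (Fin 2) ℝ) =
        (g' x : GL (Fin 2) ℝ) * ModularForm.heckeMatrix p ((σ x : Fin p) : ℕ) :=
  H56.heckeU_decomp hp hpN g hg

theorem heckeT_eq_sum_option (k : ℤ) (p : ℕ) (f : ℍ → ℂ) :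
    ModularForm.heckeT k p f = ∑ x : Option (Fin p),
      f ∣[k] (x.elim (ModularForm.heckeDiagMatrix p) fun j => ModularForm.heckeMatrix p j) :=
  H56.heckeT_eq_sum_option k p f

theorem heckeU_eq_sum_fin (k : ℤ) (p : ℕ) (f : ℍ → ℂ) :
    ModularForm.heckeU k p f = ∑ x : Fin p, f ∣[k] ModularForm.heckeMatrix p x :=
  H56.heckeU_eq_sum_fin k p f

end Fermat.Agent.S22.Glue
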