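import Mathlib
import Fermat.Prelude.Def_CuspForm_HeckeAlgebra
import Fermat.Agent.S22.Defs
import Fermat.Agent.S22.AlgEndgame
import Fermat.Agent.S22.CocycleAlg_helper16
import Fermat.Agent.S22.Glue

set_option autoImplicit false

namespace Fermat.Agent.S22.H27

open Polynomial UpperHalfPlane Filter Topology CongruenceSubgroup
open scoped MatrixGroups ModularForm Manifold
open Fermat.Agent.S22 Fermat.Agent.S22.Glue

/-! ### Abstract cocycle integrality -/

theorem cocycle_integrality' {G : Type*} [Group G] {ι : Type*} [Fintype ι] [DecidableEq ι]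
    (A : G → Matrix ι ι ℤ) {r : ℕ} (s : Fin r → G)
    (hs : Subgroup.closure (Set.range s) = ⊤) (g : G) :
    ∃ Z : Matrix ι (Fin r × ι) ℤ, ∀ v : G → ι → ℂ, v 1 = 0 →
      (∀ g h, v (g * h) = ((A h).map (Int.cast : ℤ → ℂ)).mulVec (v g) + v h) →
      v g = (Z.map (Int.cast : ℤ → ℂ)).mulVec (fun p => v (s p.1) p.2) := by
  classical
  have hg : g ∈ Subgroup.closure (Set.range s) := by rw [hs]; trivial
  induction hg using Subgroup.closure_induction with
  | mem x hx =>
    obtain ⟨i₀, rfl⟩ := hx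
    refine ⟨Matrix.of fun a p => if p = (i₀, a) then 1 else 0, fun v _ _ => ?_⟩
    funext a
    simp only [Matrix.mulVec, dotProduct, Matrix.map_apply, Matrix.of_apply]
    rw [Finset.sum_eq_single (i₀, a)]
    · simp
    · intro p _ hp; simp [hp]
    · intro h; exact absurd (Finset.mem_univ _) h
  | one =>
    refine ⟨0, fun v h1 _ => ?_⟩
    rw [h1]
    funext a
    simp [Matrix.mulVec, dotProduct]
  | mul x y _ _ hx hy =>
    obtain ⟨Z₁, h₁⟩ := hx
    obtain ⟨Z₂, h₂⟩ := hy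
    refine ⟨A y * Z₁ + Z₂, fun v h1 hv => ?_⟩
    rw [hv x y, h₁ v h1 hv, h₂ v h1 hv, Matrix.mulVec_mulVec, ← Matrix.add_mulVec]
    congr 1
    ext a p
    simp [Matrix.mul_apply, Matrix.add_apply]
  | inv x _ hx =>
    obtain ⟨Z₁, h₁⟩ := hx
    refine ⟨-(A x⁻¹ * Z₁), fun v h1 hv => ?_⟩
    have h := hv x x⁻¹
    rw [mul_inv_cancel, h1, h₁ v h1 hv, Matrix.mulVec_mulVec] at h
    have h' : v x⁻¹ = -(((A x⁻¹).map (Int.cast : ℤ → ℂ) * Z₁.map (Int.cast : ℤ → ℂ)).mulVec
        (fun p => v (s p.1) p.2)) := by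
      rw [eq_neg_iff_add_eq_zero, add_comm]
      exact h.symm
    rw [h', ← Matrix.neg_mulVec]
    congr 1
    ext a p
    simp [Matrix.mul_apply, Matrix.neg_apply]

/-! ### The normalised Eichler primitive of a cusp form -/

section Eichler

variable (N : ℕ) [NeZero N] (m : ℕ) {k : ℤ}

/-- The normalised Eichler primitive of a cusp form. -/
noncomputable def eichler (f : CuspForm (Gamma0 N) k) : ℍ → ℂ[X] :=
  Classical.choose (exists_eichlerPrim one_pos (cuspForm_isPerDecay N k f) m)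

theorem eichler_prim (f : CuspForm (Gamma0 N) k) : IsEichlerPrim m f (eichler N m f) :=
  (Classical.choose_spec (exists_eichlerPrim one_pos (cuspForm_isPerDecay N k f) m)).1

theorem eichler_vanishes (f : CuspForm (Gamma0 N) k) : VanishesAtTop (eichler N m f) :=
  (Classical.choose_spec (exists_eichlerPrim one_pos (cuspForm_isPerDecay N k f) m)).2.1

theorem eichler_diag (f : CuspForm (Gamma0 N) k) :
    IsPerDecay 1 (fun z => (eichler N m f z).eval (z : ℂ)) :=
  (Classical.choose_spec (exists_eichlerPrim one_pos (cuspForm_isPerDecay N k f) m)).2.2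

theorem eichler_natDegree (f : CuspForm (Gamma0 N) k) (z : ℍ) :
    (eichler N m f z).natDegree ≤ m :=
  (eichler_prim N m f).natDegree_le z

theorem eichler_add (f g : CuspForm (Gamma0 N) k) :
    eichler N m (f + g) = eichler N m f + eichler N m g := by
  refine IsEichlerPrim.unique (eichler_prim N m (f + g)) ?_ (eichler_vanishes N m (f + g))
    (VanishesAtTop.add (eichler_vanishes N m f) (eichler_vanishes N m g))
  have h := IsEichlerPrim.add (eichler_prim N m f) (eichler_prim N m g)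
  rwa [← FunLike.coe_add] at h

theorem eichler_smul (c : ℂ) (f : CuspForm (Gamma0 N) k) :
    eichler N m (c • f) = fun z => C c * eichler N m f z := by
  refine IsEichlerPrim.unique (eichler_prim N m (c • f)) ?_ (eichler_vanishes N m (c • f))
    (VanishesAtTop.const_smul (eichler_vanishes N m f) c)
  have h := IsEichlerPrim.const_smul (eichler_prim N m f) c
  have hc : ((c • f : CuspForm (Gamma0 N) k) : ℍ → ℂ) = c • (f : ℍ → ℂ) := by simp
  rwa [← hc] at h

end Eichler

/-! ### The period cocycle -/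

section Period

variable (N : ℕ) [NeZero N] (m : ℕ) {k : ℤ}

theorem det_coe_pos (γ : SL(2, ℤ)) : 0 < ((γ : GL (Fin 2) ℝ)).val.det := by
  have hdet : (γ : GL (Fin 2) ℝ).val.det = 1 := by
    rw [← Matrix.GeneralLinearGroup.val_det_apply]; simp
  rw [hdet]; exact one_pos

/-- The period polynomial of `f` at `γ`. -/
noncomputable def period (f : CuspForm (Gamma0 N) k) (γ : SL(2, ℤ)) : ℂ[X] :=
  transform m (γ : GL (Fin 2) ℝ) (eichler N m f) UpperHalfPlane.I - eichler N m f UpperHalfPlane.I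

theorem transform_eichler (hk : k = (m : ℤ) + 2) (f : CuspForm (Gamma0 N) k) {γ : SL(2, ℤ)}
    (hγ : γ ∈ Gamma0 N) (z : ℍ) :
    transform m (γ : GL (Fin 2) ℝ) (eichler N m f) z = eichler N m f z + period N m f γ := by
  have hinv : (f : ℍ → ℂ) ∣[k] (γ : GL (Fin 2) ℝ) = f :=
    SlashInvariantFormClass.slash_action_eq f _ (Subgroup.mem_map_of_mem _ hγ)
  have h1 := IsEichlerPrim.transform hk (eichler_prim N m f) (γ : GL (Fin 2) ℝ) (det_coe_pos γ)
  rw [hinv] at h1
  obtain ⟨Q, -, hQ⟩ := IsEichlerPrim.exists_const_diff h1 (eichler_prim N m f)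
  have hI := hQ UpperHalfPlane.I
  rw [hQ z, period, hI]
  ring

theorem period_natDegree (f : CuspForm (Gamma0 N) k) (γ : SL(2, ℤ)) :
    (period N m f γ).natDegree ≤ m := by
  unfold period
  refine (natDegree_sub_le _ _).trans (max_le ?_ (eichler_natDegree N m f _))
  exact polyAct_natDegree_le m _ _ _ _ _

theorem period_one (f : CuspForm (Gamma0 N) k) : period N m f 1 = 0 := by
  unfold period
  have h1 : ((1 : SL(2, ℤ)) : GL (Fin 2) ℝ) = 1 := by simp
  rw [h1, transform_one (eichler_natDegree N m f), sub_self]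

theorem polyActGL_add (α : GL (Fin 2) ℝ) (P Q : ℂ[X]) :
    polyActGL m α (P + Q) = polyActGL m α P + polyActGL m α Q :=
  polyAct_add m _ _ _ _ P Q

theorem period_mul (hk : k = (m : ℤ) + 2) (f : CuspForm (Gamma0 N) k) {γ δ : SL(2, ℤ)}
    (hγ : γ ∈ Gamma0 N) (hδ : δ ∈ Gamma0 N) :
    period N m f (γ * δ) = polyActGL m (δ : GL (Fin 2) ℝ) (period N m f γ) + period N m f δ := by
  have hmul : ((γ * δ : SL(2, ℤ)) : GL (Fin 2) ℝ) = (γ : GL (Fin 2) ℝ) * (δ : GL (Fin 2) ℝ) := by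
    simp
  have h1 : transform m ((γ * δ : SL(2, ℤ)) : GL (Fin 2) ℝ) (eichler N m f) UpperHalfPlane.I =
      polyActGL m (δ : GL (Fin 2) ℝ)
        (transform m (γ : GL (Fin 2) ℝ) (eichler N m f) ((δ : GL (Fin 2) ℝ) • UpperHalfPlane.I)) := by
    rw [hmul, transform_mul (eichler_natDegree N m f)]
    rfl
  have h2 := transform_eichler N m hk f hδ UpperHalfPlane.I
  have h3 : transform m (δ : GL (Fin 2) ℝ) (eichler N m f) UpperHalfPlane.I =
      polyActGL m (δ : GL (Fin 2) ℝ) (eichler N m f ((δ : GL (Fin 2) ℝ) • UpperHalfPlane.I)) := rfl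
  rw [show period N m f (γ * δ) = transform m ((γ * δ : SL(2, ℤ)) : GL (Fin 2) ℝ) (eichler N m f)
    UpperHalfPlane.I - eichler N m f UpperHalfPlane.I from rfl, h1, transform_eichler N m hk f hγ,
    polyActGL_add, ← h3, h2]
  ring

theorem period_add (f g : CuspForm (Gamma0 N) k) (γ : SL(2, ℤ)) :
    period N m (f + g) γ = period N m f γ + period N m g γ := by
  unfold period
  rw [eichler_add, transform_add]
  simp only [Pi.add_apply]
  ring

theorem period_smul (c : ℂ) (f : CuspForm (Gamma0 N) k) (γ : SL(2, ℤ)) :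
    period N m (c • f) γ = C c * period N m f γ := by
  unfold period
  rw [eichler_smul]
  have h : transform m (γ : GL (Fin 2) ℝ) (fun z => C c * eichler N m f z) UpperHalfPlane.I =
      C c * transform m (γ : GL (Fin 2) ℝ) (eichler N m f) UpperHalfPlane.I :=
    polyAct_C_mul m _ _ _ _ c _
  rw [h]
  ring

end Period

/-! ### Coefficient vectors and the map `Φ` -/

section Coeff

variable (N : ℕ) [NeZero N] (m : ℕ) {k : ℤ}

/-- Coefficient vector of a polynomial of degree `≤ m`. -/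
noncomputable def cvec (P : ℂ[X]) : Fin (m + 1) → ℂ := fun j => P.coeff j

theorem cvec_add (P Q : ℂ[X]) : cvec m (P + Q) = cvec m P + cvec m Q := by
  funext j; simp [cvec]

theorem cvec_C_mul (c : ℂ) (P : ℂ[X]) : cvec m (C c * P) = c • cvec m P := by
  funext j; simp [cvec]

theorem eq_zero_of_cvec {P : ℂ[X]} (hP : P.natDegree ≤ m) (h : cvec m P = 0) : P = 0 := by
  ext j
  by_cases hj : j ≤ m
  · have := congrFun h ⟨j, Nat.lt_succ_of_le hj⟩
    simpa [cvec] using this
  · rw [coeff_eq_zero_of_natDegree_lt (lt_of_le_of_lt hP (not_le.mp hj))]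
    simp

/-- Integer matrix of `polyActGL m δ` on coefficient vectors, for `δ ∈ SL(2, ℤ)`. -/
noncomputable def actMat (δ : SL(2, ℤ)) : Matrix (Fin (m + 1)) (Fin (m + 1)) ℤ :=
  Classical.choose (polyAct_coeff_int m (δ 0 0) (δ 0 1) (δ 1 0) (δ 1 1))

theorem polyActGL_coe (δ : SL(2, ℤ)) (P : ℂ[X]) :
    polyActGL m (δ : GL (Fin 2) ℝ) P =
      polyAct m ((δ 0 0 : ℤ) : ℂ) ((δ 0 1 : ℤ) : ℂ) ((δ 1 0 : ℤ) : ℂ) ((δ 1 1 : ℤ) : ℂ) P := by
  unfold polyActGL
  simp

theorem cvec_polyActGL (δ : SL(2, ℤ)) {P : ℂ[X]} (hP : P.natDegree ≤ m) :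
    cvec m (polyActGL m (δ : GL (Fin 2) ℝ) P) =
      ((actMat m δ).map (Int.cast : ℤ → ℂ)).mulVec (cvec m P) := by
  funext i
  rw [polyActGL_coe]
  have h := Classical.choose_spec (polyAct_coeff_int m (δ 0 0) (δ 0 1) (δ 1 0) (δ 1 1)) P hP i
  simp only [cvec, Matrix.mulVec, dotProduct, Matrix.map_apply]
  exact h

/-- Period coefficient vector. -/
noncomputable def pvec (f : CuspForm (Gamma0 N) k) (γ : SL(2, ℤ)) : Fin (m + 1) → ℂ :=
  cvec m (period N m f γ)

theorem pvec_one (f : CuspForm (Gamma0 N) k) : pvec N m f 1 = 0 := by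
  unfold pvec
  rw [period_one]
  funext j; simp [cvec]

theorem pvec_mul (hk : k = (m : ℤ) + 2) (f : CuspForm (Gamma0 N) k) {γ δ : SL(2, ℤ)}
    (hγ : γ ∈ Gamma0 N) (hδ : δ ∈ Gamma0 N) :
    pvec N m f (γ * δ) =
      ((actMat m δ).map (Int.cast : ℤ → ℂ)).mulVec (pvec N m f γ) + pvec N m f δ := by
  unfold pvec
  rw [period_mul N m hk f hγ hδ, cvec_add, cvec_polyActGL m δ (period_natDegree N m f γ)]

variable {r : ℕ} (s : Fin r → Gamma0 N)

/-- The period map on generators. -/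
noncomputable def Phi : CuspForm (Gamma0 N) k →ₗ[ℂ] (Fin r × Fin (m + 1) → ℂ) where
  toFun f := fun p => pvec N m f (s p.1 : SL(2, ℤ)) p.2
  map_add' f g := by
    funext p
    simp only [pvec, period_add, cvec_add, Pi.add_apply]
  map_smul' c f := by
    funext p
    simp only [pvec, period_smul, cvec_C_mul, Pi.smul_apply, RingHom.id_apply]

theorem Phi_apply (f : CuspForm (Gamma0 N) k) (p : Fin r × Fin (m + 1)) :
    Phi N m s f p = pvec N m f (s p.1 : SL(2, ℤ)) p.2 := rfl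

/-- Every period vector is a uniform integer combination of the coordinates of `Φ`. -/
theorem pvec_integrality (hk : k = (m : ℤ) + 2) (hs : Subgroup.closure (Set.range s) = ⊤)
    {γ : SL(2, ℤ)} (hγ : γ ∈ Gamma0 N) :
    ∃ Z : Matrix (Fin (m + 1)) (Fin r × Fin (m + 1)) ℤ, ∀ f : CuspForm (Gamma0 N) k,
      pvec N m f γ = (Z.map (Int.cast : ℤ → ℂ)).mulVec (Phi N m s f) := by
  obtain ⟨Z, hZ⟩ := cocycle_integrality' (G := Gamma0 N)
    (fun g => actMat m (g : SL(2, ℤ))) s hs ⟨γ, hγ⟩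
  refine ⟨Z, fun f => ?_⟩
  have := hZ (fun g => pvec N m f (g : SL(2, ℤ))) (pvec_one N m f)
    (fun g h => pvec_mul N m hk f g.2 h.2)
  exact this

theorem Phi_injective (hk : k = (m : ℤ) + 2) (hs : Subgroup.closure (Set.range s) = ⊤) :
    Function.Injective (Phi (k := k) N m s) := by
  rw [injective_iff_map_eq_zero]
  intro f hf
  have hper : ∀ γ ∈ Gamma0 N, period N m f γ = 0 := by
    intro γ hγ
    obtain ⟨Z, hZ⟩ := pvec_integrality N m s hk hs hγ
    apply eq_zero_of_cvec m (period_natDegree N m f γ)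
    have := hZ f
    rw [hf] at this
    simpa [pvec] using this
  refine separation N hk f (eichler N m f) (eichler_prim N m f) (eichler_diag N m f) ?_
  intro γ hγ
  funext z
  rw [transform_eichler N m hk f hγ z, hper γ hγ, add_zero]

end Coeff

/-! ### Hecke operators act by integer matrices -/

section Hecke

variable (N : ℕ) [NeZero N] (m : ℕ) {k : ℤ} {r : ℕ} (s : Fin r → Gamma0 N)

/-- `w` is a uniform integer combination of the coordinates of `Φ`. -/
def IntComb (w : CuspForm (Gamma0 N) k → (Fin (m + 1) → ℂ)) : Prop :=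
  ∃ Z : Matrix (Fin (m + 1)) (Fin r × Fin (m + 1)) ℤ, ∀ f : CuspForm (Gamma0 N) k,
    w f = (Z.map (Int.cast : ℤ → ℂ)).mulVec (Phi N m s f)

theorem IntComb.matMul {w : CuspForm (Gamma0 N) k → (Fin (m + 1) → ℂ)} (hw : IntComb N m s w)
    (B : Matrix (Fin (m + 1)) (Fin (m + 1)) ℤ) :
    IntComb N m s (fun f => (B.map (Int.cast : ℤ → ℂ)).mulVec (w f)) := by
  obtain ⟨Z, hZ⟩ := hw
  refine ⟨B * Z, fun f => ?_⟩
  show (B.map (Int.cast : ℤ → ℂ)).mulVec (w f) = _
  rw [hZ f, Matrix.mulVec_mulVec]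
  congr 1
  ext a q
  simp [Matrix.mul_apply]

theorem IntComb.sum {ι : Type*} (t : Finset ι)
    {w : ι → CuspForm (Gamma0 N) k → (Fin (m + 1) → ℂ)} (hw : ∀ x ∈ t, IntComb N m s (w x)) :
    IntComb N m s (fun f => ∑ x ∈ t, w x f) := by
  classical
  induction t using Finset.induction_on with
  | empty =>
    refine ⟨0, fun f => ?_⟩
    funext a
    simp [Matrix.mulVec, dotProduct]
  | insert x t hx ih =>
    obtain ⟨Z₁, h₁⟩ := hw x (Finset.mem_insert_self x t)
    obtain ⟨Z₂, h₂⟩ := ih fun y hy => hw y (Finset.mem_insert_of_mem hy)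
    refine ⟨Z₁ + Z₂, fun f => ?_⟩
    have h₂' : ∑ y ∈ t, w y f = (Z₂.map (Int.cast : ℤ → ℂ)).mulVec (Phi N m s f) := h₂ f
    show ∑ y ∈ insert x t, w y f = _
    rw [Finset.sum_insert hx, h₁ f, h₂', ← Matrix.add_mulVec]
    congr 1
    ext a q
    simp

/-- Integer matrix of `polyAct` with integer entries on coefficient vectors. -/
theorem cvec_polyAct_int (a b c d : ℤ) :
    ∃ B : Matrix (Fin (m + 1)) (Fin (m + 1)) ℤ, ∀ P : ℂ[X], P.natDegree ≤ m →
      cvec m (polyAct m (a : ℂ) b c d P) = (B.map (Int.cast : ℤ → ℂ)).mulVec (cvec m P) := by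
  obtain ⟨B, hB⟩ := polyAct_coeff_int m a b c d
  refine ⟨B, fun P hP => ?_⟩
  funext i
  simp only [cvec, Matrix.mulVec, dotProduct, Matrix.map_apply]
  exact hB P hP i

/-- Abstract step: if the Eichler primitive of `T f` is a sum of transforms along representatives
with integer entries admitting coset decompositions, then the periods of `T f` are uniform integer
combinations. -/
theorem intComb_of_decomp (hk : k = (m : ℤ) + 2) (hs : Subgroup.closure (Set.range s) = ⊤)
    (T : CuspForm (Gamma0 N) k → CuspForm (Gamma0 N) k)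
    {ι : Type} [Fintype ι] (rep : ι → GL (Fin 2) ℝ)
    (hint : ∀ x, ∃ a b c d : ℤ, ∀ P : ℂ[X], polyActGL m (rep x) P = polyAct m (a : ℂ) b c d P)
    (hT : ∀ f, eichler N m (T f) = ∑ x, transform m (rep x) (eichler N m f))
    {γ : SL(2, ℤ)} (hγ : γ ∈ Gamma0 N)
    (hdec : ∃ (σ : Equiv.Perm ι) (g' : ι → SL(2, ℤ)), (∀ x, g' x ∈ Gamma0 N) ∧
      ∀ x, rep x * (γ : GL (Fin 2) ℝ) = (g' x : GL (Fin 2) ℝ) * rep (σ x)) :
    IntComb N m s (fun f => pvec N m (T f) γ) := by
  obtain ⟨σ, g', hg', hmul⟩ := hdec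
  have hper : ∀ f, period N m (T f) γ =
      ∑ x, polyActGL m (rep (σ x)) (period N m f (g' x)) := by
    intro f
    have h := cocycle_hecke rep (eichler_natDegree N m f) (γ : GL (Fin 2) ℝ) σ
      (fun x => (g' x : GL (Fin 2) ℝ)) hmul (fun x => period N m f (g' x))
      (fun x z => transform_eichler N m hk f (hg' x) z) UpperHalfPlane.I
    unfold period
    rw [hT f, h]
    exact add_sub_cancel_left _ _
  have hB : ∀ y : ι, ∃ B : Matrix (Fin (m + 1)) (Fin (m + 1)) ℤ, ∀ P : ℂ[X], P.natDegree ≤ m →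
      cvec m (polyActGL m (rep y) P) = (B.map (Int.cast : ℤ → ℂ)).mulVec (cvec m P) := by
    intro y
    obtain ⟨a, b, c, d, habcd⟩ := hint y
    obtain ⟨B, hB⟩ := cvec_polyAct_int m a b c d
    exact ⟨B, fun P hP => by rw [habcd P]; exact hB P hP⟩
  choose B hB using hB
  have hsum : IntComb N m s (fun f => ∑ x ∈ Finset.univ,
      ((B (σ x)).map (Int.cast : ℤ → ℂ)).mulVec (pvec N m f (g' x))) :=
    IntComb.sum N m s Finset.univ fun x _ =>
      IntComb.matMul N m s (pvec_integrality N m s hk hs (hg' x)) (B (σ x))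
  obtain ⟨Z, hZ⟩ := hsum
  refine ⟨Z, fun f => ?_⟩
  rw [← hZ f]
  show cvec m (period N m (T f) γ) =
    ∑ x, ((B (σ x)).map (Int.cast : ℤ → ℂ)).mulVec (cvec m (period N m f (g' x)))
  rw [hper f]
  have hcs : ∀ (t : Finset ι) (Q : ι → ℂ[X]), cvec m (∑ x ∈ t, Q x) = ∑ x ∈ t, cvec m (Q x) := by
    intro t Q
    funext j
    simp [cvec, Finset.sum_apply]
  rw [hcs]
  refine Finset.sum_congr rfl fun x _ => ?_
  exact hB (σ x) _ (period_natDegree N m f (g' x))

/-- From periods at generators to the integer matrix of an operator. -/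
theorem exists_matrix_of_intComb (T : CuspForm (Gamma0 N) k → CuspForm (Gamma0 N) k)
    (h : ∀ i : Fin r, IntComb N m s (fun f => pvec N m (T f) (s i : SL(2, ℤ)))) :
    ∃ M : Matrix (Fin r × Fin (m + 1)) (Fin r × Fin (m + 1)) ℤ, ∀ f,
      Phi N m s (T f) = (M.map (Int.cast : ℤ → ℂ)).mulVec (Phi N m s f) := by
  choose Z hZ using h
  refine ⟨Matrix.of fun p q => Z p.1 p.2 q, fun f => ?_⟩
  funext p
  have h1 : pvec N m (T f) (s p.1 : SL(2, ℤ)) =
      ((Z p.1).map (Int.cast : ℤ → ℂ)).mulVec (Phi N m s f) := hZ p.1 f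
  rw [Phi_apply, h1]
  simp [Matrix.mulVec, dotProduct]

end Hecke

/-! ### The concrete Hecke operators -/

section Concrete

variable (N : ℕ) [NeZero N] (m : ℕ) {k : ℤ} {r : ℕ} (s : Fin r → Gamma0 N)

/-- Representatives for `T_p`. -/
noncomputable def repT (p : ℕ) : Option (Fin p) → GL (Fin 2) ℝ :=
  fun x => x.elim (ModularForm.heckeDiagMatrix p) fun j => ModularForm.heckeMatrix p j

/-- Representatives for `U_p`. -/
noncomputable def repU (p : ℕ) : Fin p → GL (Fin 2) ℝ :=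
  fun j => ModularForm.heckeMatrix p j

theorem polyActGL_heckeMatrix {p : ℕ} (hp : p ≠ 0) (j : ℕ) (P : ℂ[X]) :
    polyActGL m (ModularForm.heckeMatrix p j) P =
      polyAct m ((1 : ℤ) : ℂ) ((j : ℤ) : ℂ) ((0 : ℤ) : ℂ) ((p : ℤ) : ℂ) P := by
  unfold polyActGL
  have h := ModularForm.val_heckeMatrix hp j
  have e00 : (ModularForm.heckeMatrix p j : GL (Fin 2) ℝ) 0 0 = 1 := by
    show (ModularForm.heckeMatrix p j : GL (Fin 2) ℝ).val 0 0 = 1
    rw [h]; simp
  have e01 : (ModularForm.heckeMatrix p j : GL (Fin 2) ℝ) 0 1 = j := by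
    show (ModularForm.heckeMatrix p j : GL (Fin 2) ℝ).val 0 1 = j
    rw [h]; simp
  have e10 : (ModularForm.heckeMatrix p j : GL (Fin 2) ℝ) 1 0 = 0 := by
    show (ModularForm.heckeMatrix p j : GL (Fin 2) ℝ).val 1 0 = 0
    rw [h]; simp
  have e11 : (ModularForm.heckeMatrix p j : GL (Fin 2) ℝ) 1 1 = p := by
    show (ModularForm.heckeMatrix p j : GL (Fin 2) ℝ).val 1 1 = p
    rw [h]; simp
  rw [e00, e01, e10, e11]
  simp

theorem polyActGL_heckeDiagMatrix {p : ℕ} (hp : p ≠ 0) (P : ℂ[X]) :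
    polyActGL m (ModularForm.heckeDiagMatrix p) P =
      polyAct m ((p : ℤ) : ℂ) ((0 : ℤ) : ℂ) ((0 : ℤ) : ℂ) ((1 : ℤ) : ℂ) P := by
  unfold polyActGL
  have h := ModularForm.val_heckeDiagMatrix hp
  have e00 : (ModularForm.heckeDiagMatrix p : GL (Fin 2) ℝ) 0 0 = p := by
    show (ModularForm.heckeDiagMatrix p : GL (Fin 2) ℝ).val 0 0 = p
    rw [h]; simp
  have e01 : (ModularForm.heckeDiagMatrix p : GL (Fin 2) ℝ) 0 1 = 0 := by
    show (ModularForm.heckeDiagMatrix p : GL (Fin 2) ℝ).val 0 1 = 0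
    rw [h]; simp
  have e10 : (ModularForm.heckeDiagMatrix p : GL (Fin 2) ℝ) 1 0 = 0 := by
    show (ModularForm.heckeDiagMatrix p : GL (Fin 2) ℝ).val 1 0 = 0
    rw [h]; simp
  have e11 : (ModularForm.heckeDiagMatrix p : GL (Fin 2) ℝ) 1 1 = 1 := by
    show (ModularForm.heckeDiagMatrix p : GL (Fin 2) ℝ).val 1 1 = 1
    rw [h]; simp
  rw [e00, e01, e10, e11]
  simp

theorem repT_int {p : ℕ} (hp : p ≠ 0) (x : Option (Fin p)) :
    ∃ a b c d : ℤ, ∀ P : ℂ[X], polyActGL m (repT p x) P = polyAct m (a : ℂ) b c d P := by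
  cases x with
  | none => exact ⟨p, 0, 0, 1, fun P => polyActGL_heckeDiagMatrix m hp P⟩
  | some j => exact ⟨1, (j : ℕ), 0, p, fun P => polyActGL_heckeMatrix m hp j P⟩

theorem repU_int {p : ℕ} (hp : p ≠ 0) (x : Fin p) :
    ∃ a b c d : ℤ, ∀ P : ℂ[X], polyActGL m (repU p x) P = polyAct m (a : ℂ) b c d P :=
  ⟨1, (x : ℕ), 0, p, fun P => polyActGL_heckeMatrix m hp x P⟩

theorem heckeMatrix_entries {p : ℕ} (hp : p ≠ 0) (j : ℕ) :
    (ModularForm.heckeMatrix p j : GL (Fin 2) ℝ) 1 0 = 0 ∧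
      0 < (ModularForm.heckeMatrix p j : GL (Fin 2) ℝ) 0 0 ∧
      0 < (ModularForm.heckeMatrix p j : GL (Fin 2) ℝ) 1 1 := by
  have h := ModularForm.val_heckeMatrix hp j
  refine ⟨?_, ?_, ?_⟩
  · show (ModularForm.heckeMatrix p j : GL (Fin 2) ℝ).val 1 0 = 0
    rw [h]; simp
  · show 0 < (ModularForm.heckeMatrix p j : GL (Fin 2) ℝ).val 0 0
    rw [h]; simp
  · show 0 < (ModularForm.heckeMatrix p j : GL (Fin 2) ℝ).val 1 1
    rw [h]; simp; omega

theorem heckeDiagMatrix_entries {p : ℕ} (hp : p ≠ 0) :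
    (ModularForm.heckeDiagMatrix p : GL (Fin 2) ℝ) 1 0 = 0 ∧
      0 < (ModularForm.heckeDiagMatrix p : GL (Fin 2) ℝ) 0 0 ∧
      0 < (ModularForm.heckeDiagMatrix p : GL (Fin 2) ℝ) 1 1 := by
  have h := ModularForm.val_heckeDiagMatrix hp
  refine ⟨?_, ?_, ?_⟩
  · show (ModularForm.heckeDiagMatrix p : GL (Fin 2) ℝ).val 1 0 = 0
    rw [h]; simp
  · show 0 < (ModularForm.heckeDiagMatrix p : GL (Fin 2) ℝ).val 0 0
    rw [h]; simp; omega
  · show 0 < (ModularForm.heckeDiagMatrix p : GL (Fin 2) ℝ).val 1 1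
    rw [h]; simp

theorem eichler_heckeT (hk : k = (m : ℤ) + 2) {p : ℕ} (hp : p.Prime) (hpN : ¬ p ∣ N)
    (f : CuspForm (Gamma0 N) k) :
    eichler N m (CuspForm.heckeTLin k hp hpN f) =
      ∑ x, transform m (repT p x) (eichler N m f) := by
  have hp0 : p ≠ 0 := hp.ne_zero
  have h := isEichlerPrim_sum_transform hk (eichler_prim N m f) (eichler_vanishes N m f) (repT p)
    (fun x => by
      cases x with
      | none => exact (heckeDiagMatrix_entries hp0).1
      | some j => exact (heckeMatrix_entries hp0 j).1)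
    (fun x => by
      cases x with
      | none => exact (heckeDiagMatrix_entries hp0).2.1
      | some j => exact (heckeMatrix_entries hp0 j).2.1)
    (fun x => by
      cases x with
      | none => exact (heckeDiagMatrix_entries hp0).2.2
      | some j => exact (heckeMatrix_entries hp0 j).2.2)
  have hcoe : ((CuspForm.heckeTLin k hp hpN f : CuspForm (Gamma0 N) k) : ℍ → ℂ) =
      ∑ x, (f : ℍ → ℂ) ∣[k] repT p x := by
    rw [CuspForm.coe_heckeTLin_apply, heckeT_eq_sum_option]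
    rfl
  rw [← hcoe] at h
  exact IsEichlerPrim.unique (eichler_prim N m _) h.1 (eichler_vanishes N m _) h.2

theorem eichler_heckeU (hk : k = (m : ℤ) + 2) {p : ℕ} (hp : p ≠ 0) (hpN : p ∣ N)
    (f : CuspForm (Gamma0 N) k) :
    eichler N m (CuspForm.heckeULin k hpN f) =
      ∑ x, transform m (repU p x) (eichler N m f) := by
  have h := isEichlerPrim_sum_transform hk (eichler_prim N m f) (eichler_vanishes N m f) (repU p)
    (fun x => (heckeMatrix_entries hp x).1) (fun x => (heckeMatrix_entries hp x).2.1)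
    (fun x => (heckeMatrix_entries hp x).2.2)
  have hcoe : ((CuspForm.heckeULin k hpN f : CuspForm (Gamma0 N) k) : ℍ → ℂ) =
      ∑ x, (f : ℍ → ℂ) ∣[k] repU p x := by
    rw [CuspForm.coe_heckeULin_apply, heckeU_eq_sum_fin]
    rfl
  rw [← hcoe] at h
  exact IsEichlerPrim.unique (eichler_prim N m _) h.1 (eichler_vanishes N m _) h.2

theorem exists_matrix_heckeT (hk : k = (m : ℤ) + 2) (hs : Subgroup.closure (Set.range s) = ⊤)
    {p : ℕ} (hp : p.Prime) (hpN : ¬ p ∣ N) :
    ∃ M : Matrix (Fin r × Fin (m + 1)) (Fin r × Fin (m + 1)) ℤ, ∀ f : CuspForm (Gamma0 N) k,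
      Phi N m s (CuspForm.heckeTLin k hp hpN f) =
        (M.map (Int.cast : ℤ → ℂ)).mulVec (Phi N m s f) :=
  exists_matrix_of_intComb N m s (fun f => CuspForm.heckeTLin k hp hpN f) fun i =>
    intComb_of_decomp N m s hk hs (fun f => CuspForm.heckeTLin k hp hpN f) (repT p)
      (repT_int m hp.ne_zero) (eichler_heckeT N m hk hp hpN) (s i).2
      (heckeT_decomp hp hpN (s i : SL(2, ℤ)) (s i).2)

theorem exists_matrix_heckeU (hk : k = (m : ℤ) + 2) (hs : Subgroup.closure (Set.range s) = ⊤)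
    {p : ℕ} (hp : p ≠ 0) (hpN : p ∣ N) :
    ∃ M : Matrix (Fin r × Fin (m + 1)) (Fin r × Fin (m + 1)) ℤ, ∀ f : CuspForm (Gamma0 N) k,
      Phi N m s (CuspForm.heckeULin k hpN f) =
        (M.map (Int.cast : ℤ → ℂ)).mulVec (Phi N m s f) :=
  exists_matrix_of_intComb N m s (fun f => CuspForm.heckeULin k hpN f) fun i =>
    intComb_of_decomp N m s hk hs (fun f => CuspForm.heckeULin k hpN f) (repU p)
      (repU_int m hp) (eichler_heckeU N m hk hp hpN) (s i).2
      (heckeU_decomp hp hpN (s i : SL(2, ℤ)) (s i).2)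

end Concrete

/-- The period data: an injective linear map to `ℂ^n` intertwining every Hecke generator with an
integer matrix. -/
theorem periodData (N : ℕ) [NeZero N] (k : ℤ) (hk : 2 ≤ k) :
    ∃ (ι : Type) (_ : Fintype ι) (_ : DecidableEq ι)
      (Φ : CuspForm (Gamma0 N) k →ₗ[ℂ] (ι → ℂ)), Function.Injective Φ ∧
      ∀ T ∈ CuspForm.heckeGenerators N k ∅, ∃ M : Matrix ι ι ℤ,
        ∀ f, Φ (T f) = (M.map (Int.cast : ℤ → ℂ)).mulVec (Φ f) := by
  obtain ⟨m, hm⟩ : ∃ m : ℕ, k = (m : ℤ) + 2 := ⟨(k - 2).toNat, by omega⟩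
  obtain ⟨r, s, hs⟩ := Fermat.Agent.S22.H16.Gamma0_generators N
  refine ⟨Fin r × Fin (m + 1), inferInstance, inferInstance, Phi N m s,
    Phi_injective N m s hm hs, ?_⟩
  rintro T (⟨ℓ, hℓ, hℓN, -, rfl⟩ | ⟨q, hqN, hq, -, rfl⟩)
  · exact exists_matrix_heckeT N m s hm hs hℓ hℓN
  · exact exists_matrix_heckeU N m s hm hs hq.ne_zero hqN

end Fermat.Agent.S22.H27
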