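import Mathlib
import Fermat.Prelude.Def_CuspForm_HeckeAlgebra
import Fermat.Prelude.Thm_ModularForm_sturm_bound_Gamma0
import Fermat.Prelude.Thm_CongruenceSubgroup_one_mem_strictPeriods_Gamma0

set_option autoImplicit false

namespace Fermat.Agent.S22.H27

open CongruenceSubgroup UpperHalfPlane
open scoped MatrixGroups

theorem neg_one_mem_Gamma0 (N : ℕ) :
    (-1 : GL (Fin 2) ℝ) ∈ (Gamma0 N : Subgroup (GL (Fin 2) ℝ)) := by
  refine ⟨-1, ?_, ?_⟩
  · simp [Gamma0_mem]
  · ext i j
    fin_cases i <;> fin_cases j <;> simp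

/-- Cusp forms of weight `≤ 0` on `Γ₀(N)` vanish (Sturm bound). -/
theorem cuspForm_eq_zero_of_nonpos (N : ℕ) [NeZero N] {k : ℤ} (hk : k ≤ 0)
    (f : CuspForm (Gamma0 N) k) : f = 0 := by
  have hmf : (CuspForm.toModularFormₗ f : ModularForm (Gamma0 N) k) = 0 := by
    refine ModularForm.sturm_bound_Gamma0 N _ fun n hn => ?_
    have h0 : (k * ((Gamma0 N).index : ℤ)).toNat = 0 := by
      apply Int.toNat_eq_zero.mpr
      exact mul_nonpos_of_nonpos_of_nonneg hk (Int.natCast_nonneg _)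
    rw [h0, Nat.zero_div, Nat.le_zero] at hn
    subst hn
    have := CuspFormClass.qExpansion_coeff_zero f one_pos (one_mem_strictPeriods_Gamma0 N)
    simpa [CuspForm.toModularFormₗ_eq_coe] using this
  exact CuspForm.toModularFormₗ_injective (by rw [hmf, map_zero])

/-- Cusp forms of odd weight on `Γ₀(N)` vanish. -/
theorem cuspForm_eq_zero_of_odd (N : ℕ) {k : ℤ} (hk : Odd k)
    (f : CuspForm (Gamma0 N) k) : f = 0 := by
  have hmf : (CuspForm.toModularFormₗ f : ModularForm (Gamma0 N) k) = 0 :=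
    ModularForm.eq_zero_of_neg_one_mem (neg_one_mem_Gamma0 N) hk _
  exact CuspForm.toModularFormₗ_injective (by rw [hmf, map_zero])

theorem cuspForm_eq_zero_of_lt_two (N : ℕ) [NeZero N] {k : ℤ} (hk : k < 2)
    (f : CuspForm (Gamma0 N) k) : f = 0 := by
  rcases le_or_gt k 0 with h0 | h0
  · exact cuspForm_eq_zero_of_nonpos N h0 f
  · have h1 : k = 1 := by omega
    subst h1
    exact cuspForm_eq_zero_of_odd N odd_one f

/-- For weights `< 2` the Hecke algebra is a finite `ℤ`-module (the space of cusp forms is zero). -/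
theorem heckeAlgebra_finite_of_lt_two (N : ℕ) [NeZero N] {k : ℤ} (hk : k < 2) (S : Set ℕ) :
    Module.Finite ℤ (CuspForm.heckeAlgebra N k S) := by
  haveI : Subsingleton (CuspForm (Gamma0 N) k) :=
    ⟨fun f g => by rw [cuspForm_eq_zero_of_lt_two N hk f, cuspForm_eq_zero_of_lt_two N hk g]⟩
  haveI : Subsingleton (Module.End ℂ (CuspForm (Gamma0 N) k)) :=
    ⟨fun s t => LinearMap.ext fun f => Subsingleton.elim _ _⟩
  haveI : Subsingleton (CuspForm.heckeAlgebra N k S) :=
    ⟨fun s t => Subtype.ext (Subsingleton.elim _ _)⟩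
  exact Module.Finite.of_finite

end Fermat.Agent.S22.H27
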