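import Mathlib
import Fermat.Agent.S22.Defs

/-!
Task L (S22 team, owner helper28): bridge between the evaluation form and the coefficientwise
form of `IsEichlerPrim` / `VanishesAtTop`, by Lagrange interpolation at the nodes `0, …, m`.
-/

set_option autoImplicit false

open UpperHalfPlane Polynomial Filter Topology
open scoped MatrixGroups ModularForm Manifold

namespace Fermat.Agent.S22.H28

noncomputable section

/-- Interpolation nodes `0, 1, …, m`. -/
def nodes (m : ℕ) : Fin (m + 1) → ℂ := fun i => ((i : ℕ) : ℂ)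

theorem nodes_injective (m : ℕ) : Function.Injective (nodes m) := by
  intro a b hab
  have : ((a : ℕ) : ℂ) = ((b : ℕ) : ℂ) := hab
  exact Fin.ext (by exact_mod_cast this)

/-- Interpolation weights: `P.coeff j = ∑ i, P.eval (nodes m i) * weight m i j` for
`P.natDegree ≤ m`. -/
def weight (m : ℕ) (i : Fin (m + 1)) (j : ℕ) : ℂ :=
  (Lagrange.basis Finset.univ (nodes m) i).coeff j

theorem coeff_eq_sum_eval (m : ℕ) (P : ℂ[X]) (hP : P.natDegree ≤ m) (j : ℕ) :
    P.coeff j = ∑ i : Fin (m + 1), P.eval (nodes m i) * weight m i j := by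
  have hdeg : P.degree < (Finset.univ : Finset (Fin (m + 1))).card := by
    rw [Finset.card_univ, Fintype.card_fin]
    exact lt_of_le_of_lt degree_le_natDegree (by exact_mod_cast Nat.lt_succ_of_le hP)
  have key := Lagrange.eq_interpolate (s := Finset.univ) (v := nodes m)
    ((nodes_injective m).injOn) hdeg
  conv_lhs => rw [key]
  rw [Lagrange.interpolate_apply, finsetSum_coeff]
  refine Finset.sum_congr rfl fun i _ => ?_
  rw [coeff_C_mul, weight]

theorem eval_eq_sum_coeff (m : ℕ) (P : ℂ[X]) (hP : P.natDegree ≤ m) (x : ℂ) :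
    P.eval x = ∑ j ∈ Finset.range (m + 1), P.coeff j * x ^ j :=
  eval_eq_sum_range' (Nat.lt_succ_of_le hP) x

theorem natDegree_kernel_le (m : ℕ) (c u : ℂ) : (C c * (X - C u) ^ m).natDegree ≤ m := by
  refine (natDegree_C_mul_le _ _).trans ((natDegree_pow_le).trans ?_)
  rw [natDegree_X_sub_C, mul_one]

/-- **Task L**: the evaluation form of the derivative clause implies the coefficientwise one. -/
theorem IsEichlerPrim.of_eval {m : ℕ} {f : ℍ → ℂ} {Ψ : ℍ → ℂ[X]}
    (hdeg : ∀ z, (Ψ z).natDegree ≤ m)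
    (h : ∀ (x : ℂ) (z : ℍ), HasDerivAt (fun w : ℂ => (Ψ (ofComplex w)).eval x)
      (f z * (x - (z : ℂ)) ^ m) (z : ℂ)) :
    IsEichlerPrim m f Ψ where
  natDegree_le := hdeg
  hasDerivAt_coeff := fun j z => by
    have hfun : (fun w : ℂ => (Ψ (ofComplex w)).coeff j) =
        fun w : ℂ => ∑ i : Fin (m + 1), (Ψ (ofComplex w)).eval (nodes m i) * weight m i j := by
      funext w
      exact coeff_eq_sum_eval m _ (hdeg _) j
    have hval : (C (f z) * (X - C (z : ℂ)) ^ m).coeff j =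
        ∑ i : Fin (m + 1), f z * (nodes m i - (z : ℂ)) ^ m * weight m i j := by
      rw [coeff_eq_sum_eval m _ (natDegree_kernel_le m _ _) j]
      refine Finset.sum_congr rfl fun i _ => ?_
      simp
    rw [hfun, hval]
    exact HasDerivAt.fun_sum fun i _ => (h (nodes m i) z).mul_const (weight m i j)

/-- **Task L** (converse): evaluation form of the derivative clause. -/
theorem IsEichlerPrim.hasDerivAt_eval {m : ℕ} {f : ℍ → ℂ} {Ψ : ℍ → ℂ[X]}
    (h : IsEichlerPrim m f Ψ) (x : ℂ) (z : ℍ) :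
    HasDerivAt (fun w : ℂ => (Ψ (ofComplex w)).eval x) (f z * (x - (z : ℂ)) ^ m) (z : ℂ) := by
  have hfun : (fun w : ℂ => (Ψ (ofComplex w)).eval x) =
      fun w : ℂ => ∑ j ∈ Finset.range (m + 1), (Ψ (ofComplex w)).coeff j * x ^ j := by
    funext w
    exact eval_eq_sum_coeff m _ (h.natDegree_le _) x
  have hval : f z * (x - (z : ℂ)) ^ m =
      ∑ j ∈ Finset.range (m + 1), (C (f z) * (X - C (z : ℂ)) ^ m).coeff j * x ^ j := by
    rw [← eval_eq_sum_coeff m _ (natDegree_kernel_le m _ _) x]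
    simp
  rw [hfun, hval]
  exact HasDerivAt.fun_sum fun j _ => (h.hasDerivAt_coeff j z).mul_const (x ^ j)

/-- **Task L**: vanishing of all evaluations up vertical lines implies `VanishesAtTop`. -/
theorem VanishesAtTop.of_eval {m : ℕ} {Ψ : ℍ → ℂ[X]} (hdeg : ∀ z, (Ψ z).natDegree ≤ m)
    (h : ∀ (x : ℂ) (z : ℍ), Tendsto
      (fun t : ℝ => (Ψ (ofComplex ((z : ℂ) + (t : ℂ) * Complex.I))).eval x) atTop (𝓝 0)) :
    VanishesAtTop Ψ := by
  intro j z
  have hfun : (fun t : ℝ => (Ψ (ofComplex ((z : ℂ) + (t : ℂ) * Complex.I))).coeff j) =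
      fun t : ℝ => ∑ i : Fin (m + 1),
        (Ψ (ofComplex ((z : ℂ) + (t : ℂ) * Complex.I))).eval (nodes m i) * weight m i j := by
    funext t
    exact coeff_eq_sum_eval m _ (hdeg _) j
  rw [hfun]
  have : Tendsto (fun t : ℝ => ∑ i : Fin (m + 1),
        (Ψ (ofComplex ((z : ℂ) + (t : ℂ) * Complex.I))).eval (nodes m i) * weight m i j) atTop
      (𝓝 (∑ i : Fin (m + 1), 0 * weight m i j)) :=
    tendsto_finsetSum _ fun i _ => (h (nodes m i) z).mul_const _
  simpa using this

/-- **Task L** (converse): `VanishesAtTop` implies vanishing of evaluations up vertical lines. -/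
theorem VanishesAtTop.tendsto_eval {m : ℕ} {Ψ : ℍ → ℂ[X]} (h : VanishesAtTop Ψ)
    (hdeg : ∀ z, (Ψ z).natDegree ≤ m) (x : ℂ) (z : ℍ) :
    Tendsto (fun t : ℝ => (Ψ (ofComplex ((z : ℂ) + (t : ℂ) * Complex.I))).eval x)
      atTop (𝓝 0) := by
  have hfun : (fun t : ℝ => (Ψ (ofComplex ((z : ℂ) + (t : ℂ) * Complex.I))).eval x) =
      fun t : ℝ => ∑ j ∈ Finset.range (m + 1),
        (Ψ (ofComplex ((z : ℂ) + (t : ℂ) * Complex.I))).coeff j * x ^ j := by
    funext t
    exact eval_eq_sum_coeff m _ (hdeg _) x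
  rw [hfun]
  have : Tendsto (fun t : ℝ => ∑ j ∈ Finset.range (m + 1),
        (Ψ (ofComplex ((z : ℂ) + (t : ℂ) * Complex.I))).coeff j * x ^ j) atTop
      (𝓝 (∑ j ∈ Finset.range (m + 1), 0 * x ^ j)) :=
    tendsto_finsetSum _ fun j _ => (h j z).mul_const _
  simpa using this

/-- **Task L**: the coefficient functions of an Eichler primitive are holomorphic. -/
theorem IsEichlerPrim.mdiff_coeff {m : ℕ} {f : ℍ → ℂ} {Ψ : ℍ → ℂ[X]}
    (h : IsEichlerPrim m f Ψ) (j : ℕ) : MDiff (fun z : ℍ => (Ψ z).coeff j) := by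
  rw [UpperHalfPlane.mdifferentiable_iff]
  intro w hw
  exact (h.hasDerivAt_coeff j ⟨w, hw⟩).differentiableAt.differentiableWithinAt

/-- **Task L**: evaluation at a fixed point is holomorphic. -/
theorem IsEichlerPrim.mdiff_eval {m : ℕ} {f : ℍ → ℂ} {Ψ : ℍ → ℂ[X]}
    (h : IsEichlerPrim m f Ψ) (x : ℂ) : MDiff (fun z : ℍ => (Ψ z).eval x) := by
  rw [UpperHalfPlane.mdifferentiable_iff]
  intro w hw
  exact (IsEichlerPrim.hasDerivAt_eval h x ⟨w, hw⟩).differentiableAt.differentiableWithinAt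

end

end Fermat.Agent.S22.H28
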