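import Mathlib
import Fermat.Prelude.Def_ModularForm_HeckeOperator
import Fermat.Agent.S22.Defs

set_option autoImplicit false

open UpperHalfPlane ModularForm CongruenceSubgroup Matrix.SpecialLinearGroup
open scoped MatrixGroups ModularForm Manifold

namespace Fermat.Agent.S22.H56

/-- Periodicity in the `+ᵥ` form. -/
def VPeriodic (h : ℝ) (F : ℍ → ℂ) : Prop := ∀ z : ℍ, F (h +ᵥ z) = F z

/-- `F` is holomorphic, periodic with some positive integer period, and zero at `i∞`. -/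
def Nice (F : ℍ → ℂ) : Prop :=
  MDiff F ∧ (∃ h : ℕ, 0 < h ∧ VPeriodic (h : ℝ) F) ∧ IsZeroAtImInfty F

theorem VPeriodic.periodic_comp_ofComplex {h : ℝ} {F : ℍ → ℂ} (hF : VPeriodic h F) :
    Function.Periodic (F ∘ ofComplex) (h : ℂ) := by
  intro w
  by_cases! hw : 0 < Complex.im w
  · have hw' : 0 < Complex.im (w + h) := by simp [hw]
    simp only [Function.comp_apply, ofComplex_apply_of_im_pos hw', ofComplex_apply_of_im_pos hw]
    rw [← hF ⟨w, hw⟩]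
    congr 1
    ext
    simp [add_comm]
  · have hw' : Complex.im (w + h) ≤ 0 := by simpa using hw
    simp [ofComplex_apply_of_im_nonpos hw', ofComplex_apply_of_im_nonpos hw]

theorem vPeriodic_of_periodic_comp_ofComplex {h : ℝ} {F : ℍ → ℂ}
    (hF : Function.Periodic (F ∘ ofComplex) (h : ℂ)) : VPeriodic h F := by
  intro z
  have := hF (z : ℂ)
  simp only [Function.comp_apply, ofComplex_apply] at this
  rw [← this]
  congr 1
  apply UpperHalfPlane.ext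
  have hpos : 0 < Complex.im ((z : ℂ) + h) := by simpa using z.im_pos
  rw [ofComplex_apply_of_im_pos hpos]
  simp [add_comm]

theorem VPeriodic.nat_mul {h : ℝ} {F : ℍ → ℂ} (hF : VPeriodic h F) (n : ℕ) :
    VPeriodic (n * h) F := by
  induction n with
  | zero =>
    intro z
    congr 1
    apply UpperHalfPlane.ext
    simp
  | succ n ih =>
    intro z
    have : (((n + 1 : ℕ) : ℝ) * h) +ᵥ z = h +ᵥ ((n * h) +ᵥ z) := by
      apply UpperHalfPlane.ext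
      simp
      ring
    rw [this, hF, ih]

theorem VPeriodic.mul_nat {h : ℝ} {F : ℍ → ℂ} (hF : VPeriodic h F) (n : ℕ) :
    VPeriodic (h * n) F := by
  rw [mul_comm]; exact hF.nat_mul n

theorem VPeriodic.add {h : ℝ} {F G : ℍ → ℂ} (hF : VPeriodic h F) (hG : VPeriodic h G) :
    VPeriodic h (F + G) := fun z => by simp [hF z, hG z]

theorem VPeriodic.smul {h : ℝ} {F : ℍ → ℂ} (hF : VPeriodic h F) (c : ℂ) :
    VPeriodic h (c • F) := fun z => by simp [hF z]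

theorem VPeriodic.neg {h : ℝ} {F : ℍ → ℂ} (hF : VPeriodic h F) :
    VPeriodic h (-F) := fun z => by simp [hF z]

theorem Nice.mdiff {F : ℍ → ℂ} (hF : Nice F) : MDiff F := hF.1

theorem Nice.isZeroAtImInfty {F : ℍ → ℂ} (hF : Nice F) : IsZeroAtImInfty F := hF.2.2

theorem Nice.exists_period {F : ℍ → ℂ} (hF : Nice F) :
    ∃ h : ℕ, 0 < h ∧ VPeriodic (h : ℝ) F := hF.2.1

theorem Nice.zero : Nice (0 : ℍ → ℂ) :=
  ⟨mdifferentiable_const, ⟨1, one_pos, fun _ => rfl⟩, Filter.zero_zeroAtFilter _⟩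

theorem Nice.add {F G : ℍ → ℂ} (hF : Nice F) (hG : Nice G) : Nice (F + G) := by
  obtain ⟨h₁, hh₁, hp₁⟩ := hF.2.1
  obtain ⟨h₂, hh₂, hp₂⟩ := hG.2.1
  refine ⟨hF.1.add hG.1, ⟨h₁ * h₂, Nat.mul_pos hh₁ hh₂, ?_⟩, hF.2.2.add hG.2.2⟩
  have e₁ : VPeriodic ((h₁ * h₂ : ℕ) : ℝ) F := by
    have := hp₁.mul_nat h₂
    simpa using this
  have e₂ : VPeriodic ((h₁ * h₂ : ℕ) : ℝ) G := by
    have := hp₂.nat_mul h₁
    simpa using this
  exact e₁.add e₂

theorem Nice.smul {F : ℍ → ℂ} (hF : Nice F) (c : ℂ) : Nice (c • F) := by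
  obtain ⟨h₁, hh₁, hp₁⟩ := hF.2.1
  exact ⟨hF.1.const_smul c, ⟨h₁, hh₁, hp₁.smul c⟩, hF.2.2.smul c⟩

theorem Nice.neg {F : ℍ → ℂ} (hF : Nice F) : Nice (-F) := by
  have := hF.smul (-1)
  simpa using this

theorem Nice.sum {ι : Type*} (s : Finset ι) {F : ι → ℍ → ℂ} (hF : ∀ i ∈ s, Nice (F i)) :
    Nice (∑ i ∈ s, F i) := by
  classical
  induction s using Finset.induction_on with
  | empty => simpa using Nice.zero
  | insert i t hi ih =>
    rw [Finset.sum_insert hi]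
    exact (hF i (Finset.mem_insert_self i t)).add
      (ih fun j hj => hF j (Finset.mem_insert_of_mem hj))


/-! ### (N1) translates of cusp forms under `SL(2, ℤ)` -/

theorem Gamma_le_Gamma0 (N : ℕ) : Gamma N ≤ Gamma0 N := by
  intro γ hγ
  rw [Gamma_mem] at hγ
  rw [Gamma0_mem]
  exact hγ.2.2.1

theorem slash_eq_of_mem_Gamma0 {N : ℕ} {k : ℤ} (f : CuspForm (Gamma0 N) k) {γ : SL(2, ℤ)}
    (hγ : γ ∈ Gamma0 N) : (f : ℍ → ℂ) ∣[k] γ = f :=
  SlashInvariantFormClass.slash_action_eq f (mapGL ℝ γ) (Subgroup.mem_map_of_mem _ hγ)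

theorem slash_mul_eq_of_mem_Gamma0 {N : ℕ} {k : ℤ} (f : CuspForm (Gamma0 N) k) {γ : SL(2, ℤ)}
    (hγ : γ ∈ Gamma0 N) (g : SL(2, ℤ)) : (f : ℍ → ℂ) ∣[k] (γ * g) = (f : ℍ → ℂ) ∣[k] g := by
  rw [SlashAction.slash_mul, slash_eq_of_mem_Gamma0 f hγ]

theorem mdiff_cuspForm_slash {N : ℕ} {k : ℤ} (f : CuspForm (Gamma0 N) k) (g : SL(2, ℤ)) :
    MDiff ((f : ℍ → ℂ) ∣[k] g) :=
  (CuspFormClass.holo f).slash k (mapGL ℝ g)

theorem isZeroAtImInfty_cuspForm_slash {N : ℕ} [NeZero N] {k : ℤ} (f : CuspForm (Gamma0 N) k)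
    (g : SL(2, ℤ)) : IsZeroAtImInfty ((f : ℍ → ℂ) ∣[k] g) := by
  have hc : IsCusp (mapGL ℝ g • OnePoint.infty) (Gamma0 N : Subgroup (GL (Fin 2) ℝ)) :=
    (Subgroup.IsArithmetic.isCusp_iff_isCusp_SL2Z _).mpr (isCusp_SL2Z_iff'.mpr ⟨g, rfl⟩)
  exact (OnePoint.isZeroAt_iff rfl).mp (CuspFormClass.zero_at_cusps f hc)

theorem slash_T_zpow_apply (F : ℍ → ℂ) (k : ℤ) (n : ℤ) (z : ℍ) :
    (F ∣[k] (ModularGroup.T ^ n)) z = F ((n : ℝ) +ᵥ z) := by
  rw [SL_slash_apply, modular_T_zpow_smul, ModularGroup.denom_apply, ModularGroup.coe_T_zpow]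
  simp

theorem vPeriodic_cuspForm_slash {N : ℕ} {k : ℤ} (f : CuspForm (Gamma0 N) k) (g : SL(2, ℤ)) :
    VPeriodic (N : ℝ) ((f : ℍ → ℂ) ∣[k] g) := by
  intro z
  have ht : ModularGroup.T ^ (N : ℤ) ∈ Gamma N := by
    simpa using ModularGroup_T_pow_mem_Gamma (N : ℤ) (N : ℤ) dvd_rfl
  have hconj : g * ModularGroup.T ^ (N : ℤ) * g⁻¹ ∈ Gamma0 N :=
    Gamma_le_Gamma0 N ((Gamma_normal N).conj_mem _ ht g)
  have h1 : ((f : ℍ → ℂ) ∣[k] g) ∣[k] (ModularGroup.T ^ (N : ℤ)) = (f : ℍ → ℂ) ∣[k] g := by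
    rw [← SlashAction.slash_mul]
    have : g * ModularGroup.T ^ (N : ℤ) = (g * ModularGroup.T ^ (N : ℤ) * g⁻¹) * g := by group
    rw [this, slash_mul_eq_of_mem_Gamma0 f hconj]
  have h2 := congrFun h1 z
  rw [slash_T_zpow_apply] at h2
  simpa using h2

theorem nice_cuspForm_slash {N : ℕ} [NeZero N] {k : ℤ} (f : CuspForm (Gamma0 N) k)
    (g : SL(2, ℤ)) : Nice ((f : ℍ → ℂ) ∣[k] g) :=
  ⟨mdiff_cuspForm_slash f g, ⟨N, Nat.pos_of_ne_zero (NeZero.ne N), vPeriodic_cuspForm_slash f g⟩,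
    isZeroAtImInfty_cuspForm_slash f g⟩

theorem nice_cuspForm {N : ℕ} [NeZero N] {k : ℤ} (f : CuspForm (Gamma0 N) k) :
    Nice (f : ℍ → ℂ) := by
  have := nice_cuspForm_slash f 1
  simpa using this

/-! ### (N2) slash by upper triangular matrices with positive diagonal -/

theorem det_pos_of_upper {α : GL (Fin 2) ℝ} (h10 : α 1 0 = 0) (ha : 0 < α 0 0)
    (hd : 0 < α 1 1) : 0 < α.det.val := by
  rw [Matrix.GeneralLinearGroup.val_det_apply, Matrix.det_fin_two, h10, mul_zero, sub_zero]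
  exact mul_pos ha hd

theorem coe_smul_of_upper {α : GL (Fin 2) ℝ} (h10 : α 1 0 = 0) (ha : 0 < α 0 0)
    (hd : 0 < α 1 1) (z : ℍ) :
    ((α • z : ℍ) : ℂ) = ((α 0 0 : ℂ) * z + (α 0 1 : ℂ)) / (α 1 1 : ℂ) := by
  rw [UpperHalfPlane.coe_smul_of_det_pos (det_pos_of_upper h10 ha hd)]
  simp [num, denom, h10]

theorem slash_upper_apply (F : ℍ → ℂ) (k : ℤ) {α : GL (Fin 2) ℝ} (h10 : α 1 0 = 0)
    (ha : 0 < α 0 0) (hd : 0 < α 1 1) (z : ℍ) :
    (F ∣[k] α) z = F (α • z) * ((α 0 0 * α 1 1 : ℝ) : ℂ) ^ (k - 1) * (α 1 1 : ℂ) ^ (-k) := by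
  have hdet := det_pos_of_upper h10 ha hd
  rw [ModularForm.slash_apply, UpperHalfPlane.σ, if_pos hdet]
  have hdet' : α.det.val = α 0 0 * α 1 1 := by
    rw [Matrix.GeneralLinearGroup.val_det_apply, Matrix.det_fin_two, h10, mul_zero, sub_zero]
  simp only [ContinuousAlgEquiv.refl_apply, denom, h10, Complex.ofReal_zero, zero_mul, zero_add]
  rw [abs_of_pos hdet, hdet']

theorem smul_vadd_of_upper {α : GL (Fin 2) ℝ} (h10 : α 1 0 = 0) (ha : 0 < α 0 0)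
    (hd : 0 < α 1 1) (h : ℝ) (z : ℍ) :
    α • ((h * α 1 1 / α 0 0) +ᵥ z) = h +ᵥ (α • z) := by
  apply UpperHalfPlane.ext
  rw [coe_smul_of_upper h10 ha hd, UpperHalfPlane.coe_vadd, UpperHalfPlane.coe_vadd,
    coe_smul_of_upper h10 ha hd]
  have ha' : (α 0 0 : ℂ) ≠ 0 := by exact_mod_cast ha.ne'
  have hd' : (α 1 1 : ℂ) ≠ 0 := by exact_mod_cast hd.ne'
  push_cast
  field_simp
  ring

theorem VPeriodic.slash_upper {h : ℝ} {F : ℍ → ℂ} (hF : VPeriodic h F) (k : ℤ)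
    {α : GL (Fin 2) ℝ} (h10 : α 1 0 = 0) (ha : 0 < α 0 0) (hd : 0 < α 1 1) :
    VPeriodic (h * α 1 1 / α 0 0) (F ∣[k] α) := by
  intro z
  rw [slash_upper_apply F k h10 ha hd, slash_upper_apply F k h10 ha hd,
    smul_vadd_of_upper h10 ha hd, hF]

theorem Nice.slash_upper {F : ℍ → ℂ} (hF : Nice F) (k : ℤ) {α : GL (Fin 2) ℝ}
    (h10 : α 1 0 = 0) {a d : ℕ} (ha : 0 < a) (hd : 0 < d) (ha' : α 0 0 = a) (hd' : α 1 1 = d) :
    Nice (F ∣[k] α) := by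
  obtain ⟨h, hh, hp⟩ := hF.2.1
  have ha0 : (0 : ℝ) < α 0 0 := by rw [ha']; exact_mod_cast ha
  have hd0 : (0 : ℝ) < α 1 1 := by rw [hd']; exact_mod_cast hd
  refine ⟨hF.1.slash k α, ⟨h * d, Nat.mul_pos hh hd, ?_⟩, hF.2.2.slash k h10⟩
  have h1 := (hp.slash_upper k h10 ha0 hd0).nat_mul a
  have h2 : (a : ℝ) * ((h : ℝ) * α 1 1 / α 0 0) = ((h * d : ℕ) : ℝ) := by
    rw [ha', hd']
    have : (a : ℝ) ≠ 0 := by exact_mod_cast ha.ne'
    push_cast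
    field_simp
  rwa [h2] at h1

theorem Nice.slash_heckeMatrix {F : ℍ → ℂ} (hF : Nice F) (k : ℤ) {p : ℕ} (hp : p ≠ 0) (j : ℕ) :
    Nice (F ∣[k] ModularForm.heckeMatrix p j) := by
  refine hF.slash_upper k (a := 1) (d := p) ?_ one_pos (Nat.pos_of_ne_zero hp) ?_ ?_ <;>
    simp [ModularForm.val_heckeMatrix hp]

theorem Nice.slash_heckeDiagMatrix {F : ℍ → ℂ} (hF : Nice F) (k : ℤ) {p : ℕ} (hp : p ≠ 0) :
    Nice (F ∣[k] ModularForm.heckeDiagMatrix p) := by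
  refine hF.slash_upper k (a := p) (d := 1) ?_ (Nat.pos_of_ne_zero hp) one_pos ?_ ?_ <;>
    simp [ModularForm.val_heckeDiagMatrix hp]

theorem Nice.heckeU {F : ℍ → ℂ} (hF : Nice F) (k : ℤ) (p : ℕ) :
    Nice (ModularForm.heckeU k p F) := by
  rcases eq_or_ne p 0 with rfl | hp
  · simpa using Nice.zero
  · rw [ModularForm.heckeU_def]
    exact Nice.sum _ fun j _ => hF.slash_heckeMatrix k hp j

theorem Nice.heckeT {F : ℍ → ℂ} (hF : Nice F) (k : ℤ) (p : ℕ) :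
    Nice (ModularForm.heckeT k p F) := by
  rcases eq_or_ne p 0 with rfl | hp
  · simpa using hF
  · rw [ModularForm.heckeT_eq_heckeU_add]
    exact (hF.heckeU k p).add (hF.slash_heckeDiagMatrix k hp)


/-! ### Bridge to `Fermat.Agent.S22.IsPerDecay` -/

open Fermat.Agent.S22 in
theorem isPerDecay_iff {h : ℝ} {F : ℍ → ℂ} :
    IsPerDecay h F ↔ MDiff F ∧ VPeriodic h F ∧ IsZeroAtImInfty F :=
  ⟨fun hF => ⟨hF.mdiff, hF.periodic, hF.zero_at⟩, fun hF => ⟨hF.1, hF.2.1, hF.2.2⟩⟩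

open Fermat.Agent.S22 in
theorem Nice.exists_isPerDecay {F : ℍ → ℂ} (hF : Nice F) :
    ∃ h : ℕ, 0 < h ∧ IsPerDecay (h : ℝ) F := by
  obtain ⟨h, hh, hp⟩ := hF.2.1
  exact ⟨h, hh, ⟨hF.1, hp, hF.2.2⟩⟩

open Fermat.Agent.S22 in
theorem nice_of_isPerDecay {h : ℕ} (hh : 0 < h) {F : ℍ → ℂ} (hF : IsPerDecay (h : ℝ) F) :
    Nice F :=
  ⟨hF.mdiff, ⟨h, hh, hF.periodic⟩, hF.zero_at⟩

open Fermat.Agent.S22 in
theorem isPerDecay_cuspForm_slash {N : ℕ} [NeZero N] {k : ℤ} (f : CuspForm (Gamma0 N) k)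
    (g : SL(2, ℤ)) : IsPerDecay (N : ℝ) ((f : ℍ → ℂ) ∣[k] g) :=
  ⟨mdiff_cuspForm_slash f g, vPeriodic_cuspForm_slash f g, isZeroAtImInfty_cuspForm_slash f g⟩

open Fermat.Agent.S22 in
theorem isPerDecay_cuspForm {N : ℕ} [NeZero N] {k : ℤ} (f : CuspForm (Gamma0 N) k) :
    IsPerDecay (N : ℝ) (f : ℍ → ℂ) := by
  have := isPerDecay_cuspForm_slash f 1
  simpa using this

open Fermat.Agent.S22 in
theorem isPerDecay_slash_upper {h : ℝ} {F : ℍ → ℂ} (hF : IsPerDecay h F) (k : ℤ)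
    {α : GL (Fin 2) ℝ} (h10 : α 1 0 = 0) (ha : 0 < α 0 0) (hd : 0 < α 1 1) :
    IsPerDecay (h * α 1 1 / α 0 0) (F ∣[k] α) :=
  ⟨hF.mdiff.slash k α, VPeriodic.slash_upper hF.periodic k h10 ha hd, hF.zero_at.slash k h10⟩

open Fermat.Agent.S22 in
theorem isPerDecay_slash_heckeMatrix {h : ℝ} {F : ℍ → ℂ} (hF : IsPerDecay h F) (k : ℤ)
    {p : ℕ} (hp : p ≠ 0) (j : ℕ) : IsPerDecay (h * p) (F ∣[k] ModularForm.heckeMatrix p j) := by
  have hp' : (0 : ℝ) < p := by exact_mod_cast Nat.pos_of_ne_zero hp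
  have := isPerDecay_slash_upper hF k (α := ModularForm.heckeMatrix p j)
    (by simp [ModularForm.val_heckeMatrix hp]) (by simp [ModularForm.val_heckeMatrix hp])
    (by simpa [ModularForm.val_heckeMatrix hp] using hp')
  simpa [ModularForm.val_heckeMatrix hp] using this

open Fermat.Agent.S22 in
theorem isPerDecay_slash_heckeDiagMatrix {h : ℝ} {F : ℍ → ℂ} (hF : IsPerDecay h F) (k : ℤ)
    {p : ℕ} (hp : p ≠ 0) : IsPerDecay (h / p) (F ∣[k] ModularForm.heckeDiagMatrix p) := by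
  have hp' : (0 : ℝ) < p := by exact_mod_cast Nat.pos_of_ne_zero hp
  have := isPerDecay_slash_upper hF k (α := ModularForm.heckeDiagMatrix p)
    (by simp [ModularForm.val_heckeDiagMatrix hp])
    (by simpa [ModularForm.val_heckeDiagMatrix hp] using hp')
    (by simp [ModularForm.val_heckeDiagMatrix hp])
  simpa [ModularForm.val_heckeDiagMatrix hp] using this

open Fermat.Agent.S22 in
theorem IsPerDecay_nat_mul {h : ℝ} {F : ℍ → ℂ} (hF : IsPerDecay h F) (n : ℕ) :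
    IsPerDecay (n * h) F :=
  ⟨hF.mdiff, VPeriodic.nat_mul hF.periodic n, hF.zero_at⟩

/-! ### Task F, exact Skeleton shapes -/

theorem vPeriodic_one_cuspForm {N : ℕ} {k : ℤ} (f : CuspForm (Gamma0 N) k) :
    VPeriodic 1 (f : ℍ → ℂ) := by
  intro z
  have ht : ModularGroup.T ^ (1 : ℤ) ∈ Gamma0 N := by
    rw [Gamma0_mem, ModularGroup.coe_T_zpow]
    simp
  have h1 := congrFun (slash_eq_of_mem_Gamma0 f ht) z
  rw [slash_T_zpow_apply] at h1
  simpa using h1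

open Fermat.Agent.S22 in
/-- Skeleton Task F (1): a cusp form of level `Γ₀(N)` is `IsPerDecay 1`. -/
theorem cuspForm_isPerDecay (N : ℕ) [NeZero N] (k : ℤ) (f : CuspForm (Gamma0 N) k) :
    IsPerDecay 1 f :=
  ⟨(isPerDecay_cuspForm f).mdiff, vPeriodic_one_cuspForm f, (isPerDecay_cuspForm f).zero_at⟩

open Fermat.Agent.S22 in
/-- Skeleton Task F (2): `SL(2, ℤ)`-translates of a cusp form of level `Γ₀(N)` are
`IsPerDecay N`. -/
theorem cuspForm_slash_isPerDecay (N : ℕ) [NeZero N] (k : ℤ) (f : CuspForm (Gamma0 N) k)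
    (σ : SL(2, ℤ)) : IsPerDecay N ((f : ℍ → ℂ) ∣[k] (σ : GL (Fin 2) ℝ)) :=
  isPerDecay_cuspForm_slash f σ

end Fermat.Agent.S22.H56
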