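import Mathlib
import Fermat.Agent.S22.Defs
import Fermat.Agent.S22.PolyAct_helper36

/-!
Task D (S22 team, owner helper28): transformation law of Eichler primitives under `GL₂⁺(ℝ)`.
-/

set_option autoImplicit false

open UpperHalfPlane Polynomial Filter Topology
open scoped MatrixGroups ModularForm Manifold

namespace Fermat.Agent.S22.H28

noncomputable section

/-- Coefficients of `polyAct` as a linear combination of the coefficients of `P`. -/
theorem polyAct_coeff {R : Type*} [CommRing R] (m : ℕ) (a b c d : R) (P : R[X]) (j : ℕ) :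
    (polyAct m a b c d P).coeff j = ∑ i ∈ Finset.range (m + 1),
      P.coeff i * ((C a * X + C b) ^ i * (C c * X + C d) ^ (m - i)).coeff j := by
  rw [polyAct, finsetSum_coeff]
  refine Finset.sum_congr rfl fun i _ => ?_
  rw [mul_assoc, coeff_C_mul]

theorem hasDerivAt_smul_coe (α : GL (Fin 2) ℝ) (hα : 0 < α.val.det) (z : ℍ) :
    HasDerivAt (fun w : ℂ => ((α • ofComplex w : ℍ) : ℂ))
      ((α.val.det : ℂ) / denom α z ^ 2) (z : ℂ) :=
  (UpperHalfPlane.hasStrictDerivAt_smul hα z).hasDerivAt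

theorem det_pos' {α : GL (Fin 2) ℝ} (hα : 0 < α.val.det) : 0 < α.det.val := by
  rwa [Matrix.GeneralLinearGroup.val_det_apply]

/-- Chain rule for the coefficients of `Ψ ∘ α`. -/
theorem hasDerivAt_coeff_smul {m : ℕ} {f : ℍ → ℂ} {Ψ : ℍ → ℂ[X]}
    (h : IsEichlerPrim m f Ψ) (α : GL (Fin 2) ℝ) (hα : 0 < α.val.det) (i : ℕ) (z : ℍ) :
    HasDerivAt (fun w : ℂ => (Ψ (α • ofComplex w)).coeff i)
      ((C (f (α • z)) * (X - C ((α • z : ℍ) : ℂ)) ^ m).coeff i *
        ((α.val.det : ℂ) / denom α z ^ 2)) (z : ℂ) := by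
  have h1 := h.hasDerivAt_coeff i (α • z)
  have h2 : HasDerivAt (fun w : ℂ => (Ψ (ofComplex w)).coeff i)
      ((C (f (α • z)) * (X - C ((α • z : ℍ) : ℂ)) ^ m).coeff i)
      ((fun w : ℂ => ((α • ofComplex w : ℍ) : ℂ)) (z : ℂ)) := by
    simp only [ofComplex_apply]
    exact h1
  have h3 := HasDerivAt.comp (z : ℂ) h2 (hasDerivAt_smul_coe α hα z)
  refine h3.congr_of_eventuallyEq (Eventually.of_forall fun w => ?_)
  simp [ofComplex_apply]

/-- The slash action for positive determinant and weight `m + 2`, with natural powers. -/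
theorem slash_apply_of_det_pos (m : ℕ) (f : ℍ → ℂ) (α : GL (Fin 2) ℝ) (hα : 0 < α.val.det)
    (z : ℍ) : (f ∣[(m : ℤ) + 2] α) z =
      f (α • z) * (α.val.det : ℂ) ^ (m + 1) * ((denom α z) ^ (m + 2))⁻¹ := by
  have hα' := det_pos' hα
  rw [ModularForm.slash_def]
  have hσ : UpperHalfPlane.σ α = ContinuousAlgEquiv.refl ℝ ℂ := by
    rw [UpperHalfPlane.σ, if_pos hα']
  simp only [hσ, ContinuousAlgEquiv.refl_apply, abs_of_pos hα']
  have e1 : ((m : ℤ) + 2 - 1) = ((m + 1 : ℕ) : ℤ) := by push_cast; ring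
  have e2 : -((m : ℤ) + 2) = -((m + 2 : ℕ) : ℤ) := by push_cast; ring
  rw [e1, e2, zpow_natCast, zpow_neg, zpow_natCast, Matrix.GeneralLinearGroup.val_det_apply]

/-- `polyActGL` applied to the kernel `(X - α z)^m`. -/
theorem polyActGL_kernel (m : ℕ) (α : GL (Fin 2) ℝ) (hα : 0 < α.val.det) (z : ℍ) :
    polyActGL m α ((X - C ((α • z : ℍ) : ℂ)) ^ m) =
      C (((α.val.det : ℂ) / denom α z) ^ m) * (X - C (z : ℂ)) ^ m := by
  have hd := denom_ne_zero α z
  have hdet : (α.val.det : ℂ) = (α 0 0 : ℂ) * (α 1 1 : ℂ) - (α 0 1 : ℂ) * (α 1 0 : ℂ) := by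
    rw [Matrix.det_fin_two]
    push_cast
    ring
  have hu : ((α • z : ℍ) : ℂ) = ((α 0 0 : ℂ) * z + (α 0 1 : ℂ)) / denom α z := by
    rw [coe_smul_of_det_pos (det_pos' hα)]
    rfl
  have hden : denom α z = (α 1 0 : ℂ) * z + (α 1 1 : ℂ) := rfl
  rw [polyActGL, H36.polyAct_X_sub_C_pow, C_pow, ← mul_pow]
  congr 1
  have e1 : ((α 0 0 : ℝ) : ℂ) - ((α • z : ℍ) : ℂ) * ((α 1 0 : ℝ) : ℂ) =
      (α.val.det : ℂ) / denom α z := by
    rw [hu, hdet, eq_div_iff hd, sub_mul, div_mul_eq_mul_div, div_mul_cancel₀ _ hd, hden]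
    ring
  have e2 : ((α 0 1 : ℝ) : ℂ) - ((α • z : ℍ) : ℂ) * ((α 1 1 : ℝ) : ℂ) =
      -((α.val.det : ℂ) / denom α z * (z : ℂ)) := by
    rw [hu, hdet]
    field_simp
    rw [hden]
    ring
  rw [e1, e2, C_neg, C_mul]
  ring

/-- **Task D**: the transformation law. -/
theorem IsEichlerPrim.transform {m : ℕ} {k : ℤ} (hk : k = (m : ℤ) + 2) {f : ℍ → ℂ}
    {Ψ : ℍ → ℂ[X]} (hΨ : IsEichlerPrim m f Ψ) (α : GL (Fin 2) ℝ) (hα : 0 < α.val.det) :
    IsEichlerPrim m (f ∣[k] α) (transform m α Ψ) where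
  natDegree_le := fun z => H36.polyAct_natDegree_le ..
  hasDerivAt_coeff := fun j z => by
    subst hk
    set L : ℕ → ℂ := fun i =>
      ((C ((α 0 0 : ℝ) : ℂ) * X + C ((α 0 1 : ℝ) : ℂ)) ^ i *
        (C ((α 1 0 : ℝ) : ℂ) * X + C ((α 1 1 : ℝ) : ℂ)) ^ (m - i)).coeff j with hL
    set K : ℂ[X] := C (f (α • z)) * (X - C ((α • z : ℍ) : ℂ)) ^ m with hK
    set δ : ℂ := (α.val.det : ℂ) / denom α z ^ 2 with hδ
    have hsum : HasDerivAt (fun w : ℂ => ∑ i ∈ Finset.range (m + 1),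
          (Ψ (α • ofComplex w)).coeff i * L i)
        (∑ i ∈ Finset.range (m + 1), K.coeff i * δ * L i) (z : ℂ) :=
      HasDerivAt.fun_sum fun i _ => (hasDerivAt_coeff_smul hΨ α hα i z).mul_const _
    have hfun : (fun w : ℂ => (Fermat.Agent.S22.transform m α Ψ (ofComplex w)).coeff j) =
        fun w : ℂ => ∑ i ∈ Finset.range (m + 1), (Ψ (α • ofComplex w)).coeff i * L i := by
      funext w
      rw [Fermat.Agent.S22.transform, polyActGL, polyAct_coeff]
    rw [hfun]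
    refine hsum.congr_deriv ?_
    have hker : ∑ i ∈ Finset.range (m + 1), K.coeff i * L i =
        f (α • z) * ((α.val.det : ℂ) / denom α z) ^ m * ((X - C (z : ℂ)) ^ m).coeff j := by
      have h1 : (polyActGL m α K).coeff j =
          f (α • z) * ((α.val.det : ℂ) / denom α z) ^ m * ((X - C (z : ℂ)) ^ m).coeff j := by
        rw [hK, polyActGL, H36.polyAct_C_mul, ← polyActGL, polyActGL_kernel m α hα z,
          coeff_C_mul, coeff_C_mul, mul_assoc]
      rw [← h1, polyActGL, polyAct_coeff]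
    rw [coeff_C_mul, slash_apply_of_det_pos m f α hα z]
    have hd := denom_ne_zero α z
    have h1 : ∑ i ∈ Finset.range (m + 1), K.coeff i * δ * L i =
        δ * ∑ i ∈ Finset.range (m + 1), K.coeff i * L i := by
      rw [Finset.mul_sum]
      refine Finset.sum_congr rfl fun i _ => ?_
      ring
    rw [h1, hker, hδ, div_pow]
    field_simp
    ring

theorem im_add_ofReal_mul_I_pos (z : ℍ) {y : ℝ} (hy : 0 ≤ y) :
    0 < ((z : ℂ) + (y : ℂ) * Complex.I).im := by
  simp only [Complex.add_im, Complex.mul_im, Complex.ofReal_re, Complex.I_im, mul_one,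
    Complex.ofReal_im, Complex.I_re, mul_zero, add_zero]
  exact add_pos_of_pos_of_nonneg z.im_pos hy

/-- For upper triangular `α` with positive diagonal, vertical lines go to vertical lines. -/
theorem smul_add_mul_I_of_upper (α : GL (Fin 2) ℝ) (h10 : α 1 0 = 0) (h00 : 0 < α 0 0)
    (h11 : 0 < α 1 1) (z : ℍ) {y : ℝ} (hy : 0 ≤ y) :
    α • ofComplex ((z : ℂ) + (y : ℂ) * Complex.I) =
      ofComplex (((α • z : ℍ) : ℂ) + ((α 0 0 / α 1 1 * y : ℝ) : ℂ) * Complex.I) := by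
  have hdet : 0 < α.det.val := by
    rw [Matrix.GeneralLinearGroup.val_det_apply, Matrix.det_fin_two, h10, mul_zero, sub_zero]
    exact mul_pos h00 h11
  have hr : 0 < α 0 0 / α 1 1 := div_pos h00 h11
  have him := im_add_ofReal_mul_I_pos z hy
  have him' : 0 < (((α • z : ℍ) : ℂ) + ((α 0 0 / α 1 1 * y : ℝ) : ℂ) * Complex.I).im := by
    simp only [Complex.add_im, Complex.mul_im, Complex.ofReal_re, Complex.I_im, mul_one,
      Complex.ofReal_im, Complex.I_re, mul_zero, add_zero]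
    exact add_pos_of_pos_of_nonneg (α • z).im_pos (mul_nonneg hr.le hy)
  have hd' : ((α 1 1 : ℝ) : ℂ) ≠ 0 := by exact_mod_cast h11.ne'
  have hcoe : ((α • ofComplex ((z : ℂ) + (y : ℂ) * Complex.I) : ℍ) : ℂ) =
      ((α • z : ℍ) : ℂ) + ((α 0 0 / α 1 1 * y : ℝ) : ℂ) * Complex.I := by
    rw [coe_smul_of_det_pos hdet, coe_smul_of_det_pos hdet, ofComplex_apply_of_im_pos him]
    simp only [num, denom, h10, Complex.ofReal_zero, zero_mul, zero_add]
    push_cast
    field_simp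
    ring
  apply UpperHalfPlane.ext
  rw [hcoe, ofComplex_apply_of_im_pos him']

/-- **Task D**: the normalisation at `i∞` is preserved by upper triangular matrices. -/
theorem VanishesAtTop.transform {m : ℕ} {Ψ : ℍ → ℂ[X]} (hΨ : VanishesAtTop Ψ)
    (_hdeg : ∀ z, (Ψ z).natDegree ≤ m)
    (α : GL (Fin 2) ℝ) (h10 : α 1 0 = 0) (h00 : 0 < α 0 0) (h11 : 0 < α 1 1) :
    VanishesAtTop (Fermat.Agent.S22.transform m α Ψ) := by
  intro j z
  have hr : 0 < α 0 0 / α 1 1 := div_pos h00 h11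
  have hcoeff : ∀ i : ℕ, Tendsto (fun t : ℝ =>
      (Ψ (α • ofComplex ((z : ℂ) + (t : ℂ) * Complex.I))).coeff i) atTop (𝓝 0) := by
    intro i
    have h1 := (hΨ i (α • z)).comp (Tendsto.const_mul_atTop hr tendsto_id)
    refine h1.congr' ?_
    filter_upwards [eventually_ge_atTop (0 : ℝ)] with t ht
    simp only [Function.comp_def, id]
    rw [smul_add_mul_I_of_upper α h10 h00 h11 z ht]
  set L : ℕ → ℂ := fun i =>
    ((C ((α 0 0 : ℝ) : ℂ) * X + C ((α 0 1 : ℝ) : ℂ)) ^ i *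
      (C ((α 1 0 : ℝ) : ℂ) * X + C ((α 1 1 : ℝ) : ℂ)) ^ (m - i)).coeff j with hL
  have hfun : (fun t : ℝ => (Fermat.Agent.S22.transform m α Ψ
        (ofComplex ((z : ℂ) + (t : ℂ) * Complex.I))).coeff j) =
      fun t : ℝ => ∑ i ∈ Finset.range (m + 1),
        (Ψ (α • ofComplex ((z : ℂ) + (t : ℂ) * Complex.I))).coeff i * L i := by
    funext t
    rw [Fermat.Agent.S22.transform, polyActGL, polyAct_coeff]
  rw [hfun]
  have : Tendsto (fun t : ℝ => ∑ i ∈ Finset.range (m + 1),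
        (Ψ (α • ofComplex ((z : ℂ) + (t : ℂ) * Complex.I))).coeff i * L i) atTop
      (𝓝 (∑ i ∈ Finset.range (m + 1), 0 * L i)) :=
    tendsto_finsetSum _ fun i _ => (hcoeff i).mul_const _
  simpa using this

end

end Fermat.Agent.S22.H28
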